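import Mathlib

set_option autoImplicit false

/-!
# Functions on the upper half plane given by power series in `q_h`
-/

open Complex Function Filter Topology
open UpperHalfPlane hiding I
open scoped Manifold

namespace Fermat.Agent.Eis16

noncomputable section

local notation "𝕢" => Function.Periodic.qParam

/-- `f` is given on the upper half plane by the power series `A` in `exp (2 π i τ / h)`. -/
def HasQ (h : ℝ) (f : ℍ → ℂ) (A : PowerSeries ℂ) : Prop :=
  ∀ τ : ℍ, HasSum (fun n : ℕ => A.coeff n * 𝕢 h τ ^ n) (f τ)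

namespace HasQ

variable {h : ℝ} {f g : ℍ → ℂ} {A B : PowerSeries ℂ}

theorem exists_tau_of_norm_lt (hh : 0 < h) {q : ℂ} (hq : ‖q‖ < 1) (hq0 : q ≠ 0) :
    ∃ τ : ℍ, 𝕢 h τ = q := by
  have h1 := Periodic.im_invQParam_pos_of_norm_lt_one hh hq hq0
  exact ⟨⟨Periodic.invQParam h q, h1⟩, Periodic.qParam_right_inv hh.ne' hq0⟩

theorem summable (hh : 0 < h) (hf : HasQ h f A) {q : ℂ} (hq : ‖q‖ < 1) :
    Summable (fun n : ℕ => A.coeff n * q ^ n) := by
  rcases eq_or_ne q 0 with rfl | hq0
  · refine summable_of_ne_finset_zero (s := {0}) fun n hn => ?_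
    rw [Finset.mem_singleton] at hn
    simp [hn]
  · obtain ⟨τ, rfl⟩ := exists_tau_of_norm_lt hh hq hq0
    exact (hf τ).summable

/-- The sum of the power series. -/
def fn (A : PowerSeries ℂ) (q : ℂ) : ℂ := ∑' n : ℕ, A.coeff n * q ^ n

theorem eq_fn (hf : HasQ h f A) (τ : ℍ) : f τ = fn A (𝕢 h τ) := (hf τ).tsum_eq.symm

theorem hasFPowerSeries (hh : 0 < h) (hf : HasQ h f A) :
    HasFPowerSeriesOnBall (fn A) (.ofScalars ℂ fun n => A.coeff n) 0 1 := by
  constructor
  · refine le_of_forall_lt_imp_le_of_dense fun r hr ↦ ?_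
    rcases eq_or_ne r 0 with rfl | hr'
    · simp
    · lift r to NNReal using hr.ne_top
      let : FiniteDimensional ℝ ℂ := basisOneI.finiteDimensional_of_finite
      apply FormalMultilinearSeries.le_radius_of_summable
      have h1 : ‖((r : ℝ) : ℂ)‖ < 1 := by simpa using hr
      have := (summable hh hf h1).norm
      simpa [smul_eq_mul, norm_mul, mul_comm, mul_left_comm, mul_assoc] using this
  · simp
  · intro y hy
    rw [← ENNReal.coe_one, Metric.eball_coe, NNReal.coe_one, mem_ball_zero_iff] at hy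
    have := (summable hh hf hy).hasSum
    simpa [mul_comm, fn] using this

theorem differentiableOn (hh : 0 < h) (hf : HasQ h f A) :
    DifferentiableOn ℂ (fn A) (Metric.ball 0 1) := by
  have := (hasFPowerSeries hh hf).differentiableOn
  simpa [← ENNReal.coe_one, Metric.eball_coe] using this

theorem mdiff (hh : 0 < h) (hf : HasQ h f A) : MDiff f := by
  rw [UpperHalfPlane.mdifferentiable_iff]
  have h1 : DifferentiableOn ℂ (fun z : ℂ => fn A (𝕢 h z)) {z : ℂ | 0 < z.im} := by
    apply (differentiableOn hh hf).comp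
    · exact (Periodic.differentiable_qParam (h := h)).differentiableOn
    · intro z hz
      rw [mem_ball_zero_iff]
      exact Periodic.norm_qParam_lt_one hh hz
  refine h1.congr ?_
  intro z hz
  rw [Function.comp_apply, eq_fn hf, UpperHalfPlane.ofComplex_apply_of_im_pos hz]

theorem tendsto (hh : 0 < h) (hf : HasQ h f A) : Tendsto f atImInfty (𝓝 (A.coeff 0)) := by
  have h1 : f = fun τ : ℍ => fn A (𝕢 h τ) := funext (eq_fn hf)
  rw [h1]
  have h2 : ContinuousAt (fn A) 0 :=
    ((differentiableOn hh hf).continuousOn.continuousAt (Metric.ball_mem_nhds 0 one_pos))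
  have h3 : fn A 0 = A.coeff 0 := by
    unfold fn
    rw [tsum_eq_single 0]
    · simp
    · intro n hn
      simp [hn]
  rw [← h3]
  exact h2.tendsto.comp (qParam_tendsto_atImInfty hh)

theorem isBounded (hh : 0 < h) (hf : HasQ h f A) : IsBoundedAtImInfty f :=
  (tendsto hh hf).isBigO_one ℝ

theorem isZero (hh : 0 < h) (hf : HasQ h f A) (h0 : A.coeff 0 = 0) : IsZeroAtImInfty f := by
  have := tendsto hh hf
  rwa [h0] at this

theorem periodic (hh : 0 < h) (hf : HasQ h f A) : Periodic (f ∘ ofComplex) h := by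
  intro z
  by_cases! hz : 0 < z.im
  · have hz' : 0 < (z + h).im := by simpa using hz
    rw [Function.comp_apply, Function.comp_apply, eq_fn hf, eq_fn hf,
      UpperHalfPlane.ofComplex_apply_of_im_pos hz, UpperHalfPlane.ofComplex_apply_of_im_pos hz']
    congr 1
    change 𝕢 h (z + h) = 𝕢 h z
    simp only [Periodic.qParam]
    rw [show 2 * (Real.pi : ℂ) * I * (z + h) / h = 2 * Real.pi * I * z / h + 2 * Real.pi * I by
      have : (h : ℂ) ≠ 0 := by exact_mod_cast hh.ne'
      field_simp, Complex.exp_add, Complex.exp_two_pi_mul_I, mul_one]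
  · have hz' : (z + h).im ≤ 0 := by simpa using hz
    rw [Function.comp_apply, Function.comp_apply, UpperHalfPlane.ofComplex_apply_of_im_nonpos hz,
      UpperHalfPlane.ofComplex_apply_of_im_nonpos hz']

theorem of_periodic (hh : 0 < h) (hper : Periodic (f ∘ ofComplex) h) (hf : MDiff f)
    (hb : IsBoundedAtImInfty f) : HasQ h f (qExpansion h f) :=
  fun τ => by simpa using hasSum_qExpansion hh hper hf hb τ

theorem of_modularForm {F : Type*} [FunLike F ℍ ℂ] {Γ : Subgroup (GL (Fin 2) ℝ)} {k : ℤ}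
    [ModularFormClass F Γ k] (f : F) (hh : 0 < h) (hΓ : h ∈ Γ.strictPeriods) :
    HasQ h f (qExpansion h f) := by
  have : Fact (IsCusp OnePoint.infty Γ) := ⟨Γ.isCusp_of_mem_strictPeriods hh hΓ⟩
  exact fun τ => ModularForm.hasSum_qExpansion f hh hΓ τ

theorem qExpansion_eq (hh : 0 < h) (hf : HasQ h f A) : qExpansion h f = A := by
  let : FunLike (ℍ → ℂ) ℍ ℂ := ⟨fun f => f, fun _ _ h => h⟩
  ext n
  refine (qExpansion_coeff_unique (F := ℍ → ℂ) f hh (analyticAt_cuspFunction_zero hh (periodic hh hf)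
    (mdiff hh hf) (isBounded hh hf)) (c := fun n => A.coeff n) ?_ n).symm
  intro τ
  simp only [smul_eq_mul]
  exact hf τ

theorem unique (hh : 0 < h) (hf : HasQ h f A) (hf' : HasQ h f B) : A = B := by
  rw [← qExpansion_eq hh hf, ← qExpansion_eq hh hf']

theorem ext (hf : HasQ h f A) (hg : HasQ h g A) : f = g :=
  funext fun τ => (hf τ).unique (hg τ)

theorem congr (hf : HasQ h f A) (hfg : ∀ τ, f τ = g τ) : HasQ h g A := by
  have : f = g := funext hfg
  rwa [← this]

theorem add (hf : HasQ h f A) (hg : HasQ h g B) : HasQ h (f + g) (A + B) := by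
  intro τ
  have := (hf τ).add (hg τ)
  simpa [add_mul] using this

theorem neg (hf : HasQ h f A) : HasQ h (-f) (-A) := by
  intro τ
  have := (hf τ).neg
  simpa using this

theorem sub (hf : HasQ h f A) (hg : HasQ h g B) : HasQ h (f - g) (A - B) := by
  rw [sub_eq_add_neg, sub_eq_add_neg]
  exact hf.add hg.neg

theorem smul (c : ℂ) (hf : HasQ h f A) : HasQ h (c • f) (c • A) := by
  intro τ
  have := (hf τ).mul_left c
  simpa [mul_assoc] using this

theorem const (h : ℝ) (c : ℂ) : HasQ h (fun _ => c) (PowerSeries.C c) := by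
  intro τ
  have := hasSum_single (f := fun n : ℕ => (PowerSeries.C c).coeff n * 𝕢 h τ ^ n) 0
    (fun n hn => by simp [PowerSeries.coeff_C, hn])
  simpa using this

theorem zero (h : ℝ) : HasQ h 0 0 := by
  intro τ
  simpa using hasSum_zero

theorem one (h : ℝ) : HasQ h 1 1 := by
  have := const h 1
  rw [map_one] at this
  exact this

theorem mul (hf : HasQ h f A) (hg : HasQ h g B) : HasQ h (f * g) (A * B) := by
  intro τ
  have h1 := (hf τ).summable.norm
  have h2 := (hg τ).summable.norm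
  have h3 := summable_norm_sum_mul_antidiagonal_of_summable_norm h1 h2
  have h4 := tsum_mul_tsum_eq_tsum_sum_antidiagonal_of_summable_norm h1 h2
  have h5 : ∀ n : ℕ, ∑ kl ∈ Finset.HasAntidiagonal.antidiagonal n,
      A.coeff kl.1 * 𝕢 h τ ^ kl.1 * (B.coeff kl.2 * 𝕢 h τ ^ kl.2) =
      (A * B).coeff n * 𝕢 h τ ^ n := by
    intro n
    rw [PowerSeries.coeff_mul, Finset.sum_mul]
    apply Finset.sum_congr rfl
    intro kl hkl
    rw [← Finset.HasAntidiagonal.mem_antidiagonal.1 hkl, pow_add]
    ring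
  simp only [h5] at h3 h4
  have h6 := h3.of_norm.hasSum
  rw [← h4, (hf τ).tsum_eq, (hg τ).tsum_eq] at h6
  exact h6

theorem pow (hf : HasQ h f A) (n : ℕ) : HasQ h (f ^ n) (A ^ n) := by
  induction n with
  | zero => simpa using one h
  | succ n ih => simpa [pow_succ] using ih.mul hf

theorem finset_prod {ι : Type*} (s : Finset ι) {f : ι → ℍ → ℂ} {A : ι → PowerSeries ℂ}
    (hf : ∀ i ∈ s, HasQ h (f i) (A i)) : HasQ h (∏ i ∈ s, f i) (∏ i ∈ s, A i) := by
  classical
  induction s using Finset.induction_on with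
  | empty => simpa using one h
  | insert i s hi ih =>
    rw [Finset.prod_insert hi, Finset.prod_insert hi]
    exact (hf i (Finset.mem_insert_self i s)).mul
      (ih fun j hj => hf j (Finset.mem_insert_of_mem hj))

theorem finset_sum {ι : Type*} (s : Finset ι) {f : ι → ℍ → ℂ} {A : ι → PowerSeries ℂ}
    (hf : ∀ i ∈ s, HasQ h (f i) (A i)) : HasQ h (∑ i ∈ s, f i) (∑ i ∈ s, A i) := by
  classical
  induction s using Finset.induction_on with
  | empty => simpa using zero h
  | insert i s hi ih =>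
    rw [Finset.sum_insert hi, Finset.sum_insert hi]
    exact (hf i (Finset.mem_insert_self i s)).add
      (ih fun j hj => hf j (Finset.mem_insert_of_mem hj))

theorem comp_pow {h' : ℝ} (hf : HasQ h f A) {u : ℍ → ℍ} (N : ℕ) (hN : N ≠ 0)
    (hu : ∀ τ, 𝕢 h (u τ) = 𝕢 h' τ ^ N) : HasQ h' (fun τ => f (u τ)) (A.expand N hN) := by
  intro τ
  have h1 := hf (u τ)
  rw [hu] at h1
  have hinj : Function.Injective (fun m : ℕ => N * m) :=
    fun a b hab => Nat.eq_of_mul_eq_mul_left (Nat.pos_of_ne_zero hN) hab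
  have h2 : (fun n : ℕ => A.coeff n * (𝕢 h' τ ^ N) ^ n) =
      (fun n : ℕ => (A.expand N hN).coeff n * 𝕢 h' τ ^ n) ∘ (fun m : ℕ => N * m) := by
    funext m
    simp [PowerSeries.coeff_expand_mul, pow_mul]
  rw [h2] at h1
  refine (Function.Injective.hasSum_iff hinj ?_).1 h1
  intro n hn
  rw [PowerSeries.coeff_expand_of_not_dvd, zero_mul]
  rintro ⟨m, rfl⟩
  exact hn ⟨m, rfl⟩

theorem comp_rescale {h' : ℝ} (hf : HasQ h f A) {u : ℍ → ℍ} (a : ℂ)
    (hu : ∀ τ, 𝕢 h (u τ) = a * 𝕢 h' τ) :
    HasQ h' (fun τ => f (u τ)) (PowerSeries.rescale a A) := by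
  intro τ
  have h1 := hf (u τ)
  rw [hu] at h1
  convert h1 using 2 with n
  rw [PowerSeries.coeff_rescale, mul_pow]
  ring

/-- Change of width. -/
theorem change_width (hf : HasQ h f A) (N : ℕ) (hN : N ≠ 0) :
    HasQ (N * h) f (A.expand N hN) := by
  refine comp_pow (u := id) hf N hN ?_
  intro τ
  have hN' : (N : ℂ) ≠ 0 := Nat.cast_ne_zero.2 hN
  simp only [id, Periodic.qParam]
  rw [← Complex.exp_nat_mul]
  congr 1
  push_cast
  by_cases hh : (h : ℂ) = 0
  · simp [hh]
  · field_simp

end HasQ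

end

end Fermat.Agent.Eis16
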