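import Mathlib
import Fermat.Agent.Eis16.QSer

set_option autoImplicit false

/-!
# Integral structure of modular forms of level one
-/

open UpperHalfPlane hiding I
open ModularForm EisensteinSeries
open scoped MatrixGroups Manifold

namespace Fermat.Agent.Eis16

noncomputable section

local notation "Δ" => ModularForm.discriminant

/-- `∑ σ_k(n) qⁿ`. -/
def sigSer (k : ℕ) : PowerSeries ℤ := PowerSeries.mk fun n => (ArithmeticFunction.sigma k n : ℤ)

/-- `E₄` as an integral power series. -/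
def E4Z : PowerSeries ℤ := 1 + 240 * sigSer 3

/-- `E₆` as an integral power series. -/
def E6Z : PowerSeries ℤ := 1 - 504 * sigSer 5

/-- Coefficient map to `ℂ`. -/
abbrev toC : PowerSeries ℤ →+* PowerSeries ℂ := PowerSeries.map (Int.castRingHom ℂ)

theorem coeff_toC (A : PowerSeries ℤ) (n : ℕ) : (toC A).coeff n = ((A.coeff n : ℤ) : ℂ) := by
  simp [toC]

theorem coeff_ofNat_mul (a : ℤ) (A : PowerSeries ℤ) (n : ℕ) :
    (PowerSeries.C a * A).coeff n = a * A.coeff n := by
  rw [PowerSeries.coeff_C_mul]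

theorem natCast_eq_C (a : ℕ) : ((a : ℕ) : PowerSeries ℤ) = PowerSeries.C (a : ℤ) := by
  simp

theorem coeff_E4Z (n : ℕ) : E4Z.coeff n = if n = 0 then 1 else 240 * (ArithmeticFunction.sigma 3 n : ℤ) := by
  have h : (240 : PowerSeries ℤ) = PowerSeries.C (240 : ℤ) := by simp
  unfold E4Z sigSer
  rw [map_add, h, PowerSeries.coeff_C_mul, PowerSeries.coeff_mk, PowerSeries.coeff_one]
  split_ifs with h0
  · subst h0; simp
  · simp

theorem coeff_E6Z (n : ℕ) : E6Z.coeff n = if n = 0 then 1 else -504 * (ArithmeticFunction.sigma 5 n : ℤ) := by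
  have h : (504 : PowerSeries ℤ) = PowerSeries.C (504 : ℤ) := by simp
  unfold E6Z sigSer
  rw [map_sub, h, PowerSeries.coeff_C_mul, PowerSeries.coeff_mk, PowerSeries.coeff_one]
  split_ifs with h0
  · subst h0; simp
  · simp

theorem hasQ_E4 : HasQ 1 E₄ (toC E4Z) := by
  have h : toC E4Z = qExpansion 1 E₄ := by
    ext n
    rw [coeff_toC, coeff_E4Z, E_qExpansion_coeff _ ⟨2, rfl⟩]
    split_ifs
    · simp
    · norm_num [show bernoulli 4 = -1 / 30 by decide +kernel]
  rw [h]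
  exact HasQ.of_modularForm _ one_pos one_mem_strictPeriods_SL

theorem hasQ_E6 : HasQ 1 E₆ (toC E6Z) := by
  have h : toC E6Z = qExpansion 1 E₆ := by
    ext n
    rw [coeff_toC, coeff_E6Z, E_qExpansion_coeff _ ⟨3, rfl⟩]
    split_ifs
    · simp
    · norm_num [show bernoulli 6 = 1 / 42 by decide +kernel]
  rw [h]
  exact HasQ.of_modularForm _ one_pos one_mem_strictPeriods_SL

theorem twelve_dvd (n : ℕ) : (12 : ℤ) ∣ 5 * (ArithmeticFunction.sigma 3 n : ℤ) +
    7 * (ArithmeticFunction.sigma 5 n : ℤ) := by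
  rw [ArithmeticFunction.sigma_apply, ArithmeticFunction.sigma_apply]
  push_cast
  rw [Finset.mul_sum, Finset.mul_sum, ← Finset.sum_add_distrib]
  apply Finset.dvd_sum
  intro d _
  have h : ∀ x : ZMod 12, 5 * x ^ 3 + 7 * x ^ 5 = 0 := by decide
  have := h (d : ZMod 12)
  have h2 : ((5 * (d : ℤ) ^ 3 + 7 * (d : ℤ) ^ 5 : ℤ) : ZMod 12) = 0 := by
    push_cast
    exact this
  exact (ZMod.intCast_zmod_eq_zero_iff_dvd _ 12).1 h2

/-- Auxiliary series. -/
def auxC : PowerSeries ℤ := PowerSeries.mk fun n =>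
  (5 * (ArithmeticFunction.sigma 3 n : ℤ) + 7 * (ArithmeticFunction.sigma 5 n : ℤ)) / 12

theorem auxC_spec : 12 * auxC = 5 * sigSer 3 + 7 * sigSer 5 := by
  have h12 : (12 : PowerSeries ℤ) = PowerSeries.C (12 : ℤ) := by simp
  have h5 : (5 : PowerSeries ℤ) = PowerSeries.C (5 : ℤ) := by simp
  have h7 : (7 : PowerSeries ℤ) = PowerSeries.C (7 : ℤ) := by simp
  ext n
  rw [h12, h5, h7, map_add, PowerSeries.coeff_C_mul, PowerSeries.coeff_C_mul,
    PowerSeries.coeff_C_mul]
  unfold auxC sigSer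
  rw [PowerSeries.coeff_mk, PowerSeries.coeff_mk, PowerSeries.coeff_mk]
  exact Int.mul_ediv_cancel' (twelve_dvd n)

/-- `Δ` as an integral power series. -/
def DZ : PowerSeries ℤ := auxC + 100 * sigSer 3 ^ 2 + 8000 * sigSer 3 ^ 3 - 147 * sigSer 5 ^ 2

theorem DZ_spec : 1728 * DZ = E4Z ^ 3 - E6Z ^ 2 := by
  unfold DZ E4Z E6Z
  linear_combination (144 : PowerSeries ℤ) * auxC_spec

theorem hasQ_Delta : HasQ 1 Δ (toC DZ) := by
  have h := ((hasQ_E4.pow 3).sub (hasQ_E6.pow 2)).smul (1 / 1728)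
  have h1 : (1 / 1728 : ℂ) • (toC E4Z ^ 3 - toC E6Z ^ 2) = toC DZ := by
    rw [← map_pow, ← map_pow, ← map_sub, ← DZ_spec]
    have h2 : (1728 : PowerSeries ℤ) = PowerSeries.C (1728 : ℤ) := by simp
    ext n
    rw [PowerSeries.coeff_smul, coeff_toC, coeff_toC, h2, PowerSeries.coeff_C_mul]
    push_cast
    simp
  rw [h1] at h
  refine h.congr fun τ => ?_
  rw [discriminant_eq_E₄_cube_sub_E₆_sq]
  simp only [Pi.smul_apply, Pi.sub_apply, Pi.pow_apply, smul_eq_mul]
  ring

theorem qExpansion_Delta : qExpansion 1 Δ = toC DZ := hasQ_Delta.qExpansion_eq one_pos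

theorem DZ_coeff_zero : DZ.coeff 0 = 0 := by
  have h : ((DZ.coeff 0 : ℤ) : ℂ) = 0 := by
    rw [← coeff_toC, ← qExpansion_Delta]
    simpa using CuspFormClass.qExpansion_coeff_zero CuspForm.discriminant one_pos
      one_mem_strictPeriods_SL
  exact_mod_cast h

theorem DZ_coeff_one : DZ.coeff 1 = 1 := by
  have h : ((DZ.coeff 1 : ℤ) : ℂ) = 1 := by
    rw [← coeff_toC, ← qExpansion_Delta, discriminant_qExpansion_coeff_one]
  exact_mod_cast h

/-- `Δ / q` as an integral power series. -/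
def DZ' : PowerSeries ℤ := PowerSeries.mk fun n => DZ.coeff (n + 1)

theorem DZ_eq : DZ = PowerSeries.X * DZ' := by
  ext n
  cases n with
  | zero => simp [DZ_coeff_zero]
  | succ n => rw [mul_comm, PowerSeries.coeff_succ_mul_X, DZ', PowerSeries.coeff_mk]

/-- The inverse of `Δ / q`. -/
def DZinv : PowerSeries ℤ := PowerSeries.invOfUnit DZ' 1

theorem DZ'_mul_inv : DZ' * DZinv = 1 := by
  apply PowerSeries.mul_invOfUnit
  rw [← PowerSeries.coeff_zero_eq_constantCoeff_apply, DZ', PowerSeries.coeff_mk]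
  simp [DZ_coeff_one]

theorem coeff_mul_mem (M : AddSubgroup ℂ) (Z : PowerSeries ℤ) (P : PowerSeries ℂ) (n : ℕ)
    (h : ∀ j ≤ n, P.coeff j ∈ M) : (toC Z * P).coeff n ∈ M := by
  rw [PowerSeries.coeff_mul]
  apply sum_mem
  intro ij hij
  rw [Finset.HasAntidiagonal.mem_antidiagonal] at hij
  rw [coeff_toC, ← zsmul_eq_mul]
  exact M.zsmul_mem (h _ (by omega)) _

theorem levelOne_two_eq_zero (F : ModularForm 𝒮ℒ 2) : F = 0 :=
  rank_zero_iff_forall_zero.mp levelOne_weight_two_rank_zero F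

/-- The form `E₄ᵃ E₆ᵇ`. -/
def Eab (a b : ℕ) : ModularForm 𝒮ℒ (a * 4 + b * 6) := (E₄.pow a).mul (E₆.pow b)

theorem hasQ_Eab (a b : ℕ) : HasQ 1 (Eab a b) (toC (E4Z ^ a * E6Z ^ b)) := by
  rw [map_mul, map_pow, map_pow]
  have := (hasQ_E4.pow a).mul (hasQ_E6.pow b)
  refine this.congr fun τ => ?_
  simp [Eab]

theorem E4Z_coeff_zero : E4Z.coeff 0 = 1 := by rw [coeff_E4Z]; simp
theorem E6Z_coeff_zero : E6Z.coeff 0 = 1 := by rw [coeff_E6Z]; simp

theorem Eab_coeff_zero (a b : ℕ) : (E4Z ^ a * E6Z ^ b).coeff 0 = 1 := by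
  have h1 := E4Z_coeff_zero
  have h2 := E6Z_coeff_zero
  rw [PowerSeries.coeff_zero_eq_constantCoeff_apply] at h1 h2 ⊢
  rw [map_mul, map_pow, map_pow, h1, h2]
  simp

/-- Division of a form with vanishing constant term by `Δ`. -/
theorem exists_div_Delta {k : ℤ} (F : ModularForm 𝒮ℒ k)
    (h0 : (qExpansion 1 F).coeff 0 = 0) :
    ∃ G : ModularForm 𝒮ℒ (k - 12), (∀ τ, F τ = Δ τ * G τ) ∧
      qExpansion 1 F = toC DZ * qExpansion 1 G := by
  refine ⟨CuspForm.discriminantEquiv (toCuspForm F h0), ?_, ?_⟩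
  · intro τ
    rw [discriminant_mul_discriminantEquiv_apply]
    rfl
  · rw [← qExpansion_Delta]
    exact qExpansion_eq_qExpansion_discriminant_mul F h0

theorem sturm_addSubgroup (M : AddSubgroup ℂ) (k : ℕ) : ∀ (F : ModularForm 𝒮ℒ (k : ℤ)),
    (∀ n ≤ k / 12, (qExpansion 1 F).coeff n ∈ M) → ∀ n, (qExpansion 1 F).coeff n ∈ M := by
  induction k using Nat.strong_induction_on with
  | _ k ih =>
    intro F hF
    have hzero : F = 0 → ∀ n, (qExpansion 1 F).coeff n ∈ M := by
      intro h n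
      rw [h]
      have : qExpansion 1 (⇑(0 : ModularForm 𝒮ℒ (k : ℤ))) = 0 := by
        rw [FunLike.coe_zero]
        exact qExpansion_zero 1
      rw [this]
      simpa using M.zero_mem
    rcases Nat.even_or_odd k with hk | hk
    swap
    · exact hzero (levelOne_odd_weight_eq_zero (by exact_mod_cast hk) F)
    by_cases hk2 : k = 2
    · subst hk2
      exact hzero (levelOne_two_eq_zero F)
    obtain ⟨a, b, hab⟩ : ∃ a b : ℕ, a * 4 + b * 6 = k := by
      obtain ⟨c, hc⟩ := hk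
      rcases Nat.even_or_odd c with ⟨d, hd⟩ | ⟨d, hd⟩
      · exact ⟨d, 0, by omega⟩
      · exact ⟨d - 1, 1, by omega⟩
    have hab' : ((a : ℤ) * 4 + (b : ℤ) * 6) = (k : ℤ) := by exact_mod_cast hab
    let G : ModularForm 𝒮ℒ (k : ℤ) := ModularForm.mcast hab' (Eab a b)
    have hG : HasQ 1 G (toC (E4Z ^ a * E6Z ^ b)) := hasQ_Eab a b
    have hFq : HasQ 1 F (qExpansion 1 F) :=
      HasQ.of_modularForm F one_pos one_mem_strictPeriods_SL
    set c := (qExpansion 1 F).coeff 0 with hc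
    have hcM : c ∈ M := hF 0 (Nat.zero_le _)
    set F' : ModularForm 𝒮ℒ (k : ℤ) := F - c • G with hF'def
    have hF' : HasQ 1 F' (qExpansion 1 F - c • toC (E4Z ^ a * E6Z ^ b)) := by
      have := hFq.sub (hG.smul c)
      exact this
    have hq' : qExpansion 1 F' = qExpansion 1 F - c • toC (E4Z ^ a * E6Z ^ b) :=
      hF'.qExpansion_eq one_pos
    have h0 : (qExpansion 1 F').coeff 0 = 0 := by
      rw [hq', map_sub, PowerSeries.coeff_smul, coeff_toC, Eab_coeff_zero]
      simp [← hc]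
    have hcoef : ∀ n, (c • toC (E4Z ^ a * E6Z ^ b)).coeff n ∈ M := by
      intro n
      rw [PowerSeries.coeff_smul, coeff_toC, smul_eq_mul, mul_comm, ← zsmul_eq_mul]
      exact M.zsmul_mem hcM _
    obtain ⟨H, hH, hHq⟩ := exists_div_Delta F' h0
    have hfin : (∀ n, (qExpansion 1 H).coeff n ∈ M) → ∀ n, (qExpansion 1 F).coeff n ∈ M := by
      intro hHM n
      have h1 : qExpansion 1 F = toC DZ * qExpansion 1 H + c • toC (E4Z ^ a * E6Z ^ b) := by
        rw [← hHq, hq', sub_add_cancel]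
      rw [h1, map_add]
      exact M.add_mem (coeff_mul_mem M DZ _ n fun j _ => hHM j) (hcoef n)
    apply hfin
    by_cases hk12 : k < 12
    · have hH0 : H = 0 :=
        rank_zero_iff_forall_zero.mp (levelOne_neg_weight_rank_zero (by omega)) H
      intro n
      have : qExpansion 1 H = 0 := by
        rw [hH0, FunLike.coe_zero]
        exact qExpansion_zero 1
      rw [this]
      simpa using M.zero_mem
    · have hk' : ((k : ℤ) - 12) = ((k - 12 : ℕ) : ℤ) := by omega
      have key := ih (k - 12) (by omega) (ModularForm.mcast hk' H) ?_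
      · exact key
      intro n hn
      rw [ModularForm.qExpansion_mcast]
      -- invert `Δ / q`
      have h2 : PowerSeries.X * (toC DZ' * qExpansion 1 H) = qExpansion 1 F' := by
        rw [hHq, DZ_eq, map_mul]
        simp [mul_assoc]
      have h3 : ∀ j, (toC DZ' * qExpansion 1 H).coeff j =
          (qExpansion 1 F').coeff (j + 1) := by
        intro j
        rw [← h2, mul_comm PowerSeries.X, PowerSeries.coeff_succ_mul_X]
      have h4 : qExpansion 1 H = toC DZinv * (toC DZ' * qExpansion 1 H) := by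
        rw [← mul_assoc, ← map_mul, mul_comm DZinv, DZ'_mul_inv, map_one, one_mul]
      rw [h4]
      apply coeff_mul_mem
      intro j hj
      rw [h3, hq', map_sub]
      apply M.sub_mem _ (hcoef _)
      apply hF
      omega

theorem weight14_eq_zero (F : ModularForm 𝒮ℒ 14) (h0 : (qExpansion 1 F).coeff 0 = 0) :
    F = 0 := by
  obtain ⟨G, hG, -⟩ := exists_div_Delta F h0
  have hG0 : (ModularForm.mcast (show (14 - 12 : ℤ) = 2 by norm_num) G : ModularForm 𝒮ℒ 2) = 0 :=
    levelOne_two_eq_zero _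
  ext τ
  have : G τ = 0 := by
    have := DFunLike.congr_fun hG0 τ
    exact this
  rw [hG, this, mul_zero]
  rfl

theorem weight12_eq (F : ModularForm 𝒮ℒ 12) (h0 : (qExpansion 1 F).coeff 0 = 0) :
    ∃ c : ℂ, qExpansion 1 F = c • toC DZ := by
  obtain ⟨c, hc⟩ := CuspForm.exists_smul_discriminant_of_weight_eq_twelve (toCuspForm F h0)
  refine ⟨c, ?_⟩
  have h1 : HasQ 1 F (c • toC DZ) := by
    refine (hasQ_Delta.smul c).congr fun τ => ?_
    have := DFunLike.congr_fun hc τ
    exact this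
  exact h1.qExpansion_eq one_pos

theorem weight6_eq (F : ModularForm 𝒮ℒ 6) :
    ∃ c : ℂ, qExpansion 1 F = c • toC E6Z := by
  obtain ⟨c, hc⟩ : ∃ c, c • E₆ = F :=
    (finrank_eq_one_iff_of_nonzero' E₆ (E_ne_zero _ ⟨3, rfl⟩)).mp
      (Module.rank_eq_one_iff_finrank_eq_one.mp levelOne_weight_six_rank_one) F
  refine ⟨c, ?_⟩
  have h1 : HasQ 1 F (c • toC E6Z) := by
    refine (hasQ_E6.smul c).congr fun τ => ?_
    have := DFunLike.congr_fun hc τ
    exact this
  exact h1.qExpansion_eq one_pos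

end

end Fermat.Agent.Eis16
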