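import Mathlib

set_option autoImplicit false

/-!
# Cosets of `Γ₀(p)` in `SL₂(ℤ)`, norm and trace
-/

open Matrix.SpecialLinearGroup CongruenceSubgroup ModularGroup
open scoped MatrixGroups ModularForm
open UpperHalfPlane hiding I

namespace Fermat.Agent.Eis16

noncomputable section

/-- Coset representatives. -/
def rep (p : ℕ) : Option (Fin p) → SL(2, ℤ)
  | none => 1
  | some j => S * T ^ ((j : ℕ) : ℤ)

theorem coe_ST (j : ℤ) : ((S * T ^ j : SL(2, ℤ)) : Matrix (Fin 2) (Fin 2) ℤ) =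
    !![0, -1; 1, j] := by
  rw [coe_mul, coe_S, coe_T_zpow]
  simp

theorem mem_Gamma0_iff {p : ℕ} (g : SL(2, ℤ)) : g ∈ Gamma0 p ↔ (p : ℤ) ∣ g 1 0 := by
  rw [Gamma0_mem, ZMod.intCast_zmod_eq_zero_iff_dvd]

theorem T_lower (j : ℤ) : (mapGL ℝ (T ^ j : SL(2, ℤ)) : GL (Fin 2) ℝ) 1 0 = 0 := by
  have h : (T ^ j : SL(2, ℤ)) 1 0 = 0 := by
    have := coe_T_zpow j
    rw [this]
    simp
  have h2 : (mapGL ℝ (T ^ j : SL(2, ℤ)) : GL (Fin 2) ℝ) 1 0 = (((T ^ j : SL(2, ℤ)) 1 0 : ℤ) : ℝ) :=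
    rfl
  rw [h2, h, Int.cast_zero]

theorem rep_mul_lower (j : ℤ) (g : SL(2, ℤ)) : (S * T ^ j * g) 1 0 = g 0 0 + j * g 1 0 := by
  rw [coe_mul, coe_ST]
  simp [Matrix.mul_apply, Fin.sum_univ_two]

theorem rep_mul_inv_lower (i j : ℤ) : ((S * T ^ i) * (S * T ^ j)⁻¹ : SL(2, ℤ)) 1 0 = j - i := by
  rw [coe_mul, Matrix.SpecialLinearGroup.coe_inv, coe_ST, coe_ST]
  simp [Matrix.mul_apply, Fin.sum_univ_two, Matrix.adjugate_fin_two]
  ring

theorem rep_bij_aux {p : ℕ} (hp : p.Prime) (g : SL(2, ℤ)) :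
    ∃ i : Option (Fin p), rep p i * g ∈ Gamma0 p := by
  by_cases h : (p : ℤ) ∣ g 1 0
  · refine ⟨none, ?_⟩
    rw [mem_Gamma0_iff]
    simpa [rep] using h
  · have : Fact p.Prime := ⟨hp⟩
    have h0 : ((g 1 0 : ℤ) : ZMod p) ≠ 0 := by
      rwa [Ne, ZMod.intCast_zmod_eq_zero_iff_dvd]
    let x : ZMod p := -((g 0 0 : ℤ) : ZMod p) * ((g 1 0 : ℤ) : ZMod p)⁻¹
    refine ⟨some ⟨x.val, ZMod.val_lt x⟩, ?_⟩
    rw [Gamma0_mem]
    simp only [rep]
    rw [rep_mul_lower]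
    push_cast
    rw [ZMod.natCast_zmod_val]
    simp only [x]
    field_simp
    ring

theorem rep_inj_aux {p : ℕ} (hp : p.Prime) (i j : Option (Fin p))
    (h : rep p i * (rep p j)⁻¹ ∈ Gamma0 p) : i = j := by
  rw [mem_Gamma0_iff] at h
  have hp1 : ¬ (p : ℤ) ∣ 1 := by
    intro h
    have := Int.natCast_dvd_natCast.1 (by simpa using h : (p : ℤ) ∣ ((1 : ℕ) : ℤ))
    exact hp.one_lt.ne' (Nat.dvd_one.1 this)
  rcases i with _ | i <;> rcases j with _ | j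
  · rfl
  · exfalso
    simp only [rep, one_mul] at h
    rw [Matrix.SpecialLinearGroup.coe_inv, coe_ST] at h
    simp [Matrix.adjugate_fin_two] at h
    exact hp1 (by simpa using h)
  · exfalso
    simp only [rep, inv_one, mul_one] at h
    rw [coe_ST] at h
    simp at h
    exact hp1 (by simpa using h)
  · simp only [rep] at h
    rw [rep_mul_inv_lower] at h
    congr 1
    apply Fin.ext
    have h1 := i.2
    have h2 := j.2
    have h3 := Int.eq_zero_of_abs_lt_dvd h (by rw [abs_lt]; constructor <;> omega)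
    omega

variable {p : ℕ}

local notation "ΓGL" p => (Subgroup.map (Matrix.SpecialLinearGroup.mapGL ℝ) (Gamma0 p))

theorem mapGL_mem_iff (g : SL(2, ℤ)) : mapGL ℝ g ∈ (ΓGL p) ↔ g ∈ Gamma0 p := by
  constructor
  · rintro ⟨g', hg', h⟩
    rwa [(mapGL_inj g' g).1 h] at hg'
  · intro h
    exact ⟨g, h, rfl⟩

/-- The coset attached to a representative. -/
def repQ (p : ℕ) (i : Option (Fin p)) : 𝒮ℒ ⧸ ((ΓGL p).subgroupOf 𝒮ℒ) :=
  QuotientGroup.mk ⟨(mapGL ℝ (rep p i))⁻¹, inv_mem ⟨_, rfl⟩⟩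

theorem repQ_bijective (hp : p.Prime) : Function.Bijective (repQ p) := by
  constructor
  · intro i j h
    unfold repQ at h
    rw [QuotientGroup.eq, Subgroup.mem_subgroupOf] at h
    apply rep_inj_aux hp
    rw [← mapGL_mem_iff, map_mul, map_inv]
    simpa using h
  · intro q
    obtain ⟨⟨_, g, rfl⟩, rfl⟩ := QuotientGroup.mk_surjective q
    obtain ⟨i, hi⟩ := rep_bij_aux hp g
    refine ⟨i, ?_⟩
    unfold repQ
    rw [QuotientGroup.eq, Subgroup.mem_subgroupOf]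
    rw [← mapGL_mem_iff, map_mul] at hi
    simpa using hi

/-- The equivalence between the explicit index set and the quotient. -/
def repEquiv (hp : p.Prime) : Option (Fin p) ≃ 𝒮ℒ ⧸ ((ΓGL p).subgroupOf 𝒮ℒ) :=
  Equiv.ofBijective _ (repQ_bijective hp)

theorem natCard_quotient (hp : p.Prime) :
    Nat.card (𝒮ℒ ⧸ ((ΓGL p).subgroupOf 𝒮ℒ)) = p + 1 := by
  rw [← Nat.card_congr (repEquiv hp)]
  simp

variable {F : Type*} [FunLike F ℍ ℂ] {k : ℤ}

theorem quotientFunc_repQ [SlashInvariantFormClass F (ΓGL p) k] (f : F) (i : Option (Fin p)) :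
    SlashInvariantForm.quotientFunc (ℋ := 𝒮ℒ) f (repQ p i) = (f : ℍ → ℂ) ∣[k] (rep p i) := by
  have : SlashInvariantForm.quotientFunc (ℋ := 𝒮ℒ) f (repQ p i) =
      (f : ℍ → ℂ) ∣[k] ((mapGL ℝ (rep p i))⁻¹)⁻¹ := rfl
  rw [this, inv_inv]
  rfl

variable [Fact p.Prime]

theorem coe_trace_eq [ModularFormClass F (ΓGL p) k] (f : F) :
    ((ModularForm.trace 𝒮ℒ f : ModularForm 𝒮ℒ k) : ℍ → ℂ) =
      (f : ℍ → ℂ) + ∑ j : Fin p, (f : ℍ → ℂ) ∣[k] (S * T ^ ((j : ℕ) : ℤ)) := by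
  have hp : p.Prime := Fact.out
  rw [ModularForm.coe_trace]
  let := Fintype.ofFinite (𝒮ℒ ⧸ ((ΓGL p).subgroupOf 𝒮ℒ))
  rw [← (repEquiv hp).sum_comp]
  rw [Fintype.sum_option]
  have h0 : SlashInvariantForm.quotientFunc (ℋ := 𝒮ℒ) f (repEquiv hp none) = (f : ℍ → ℂ) := by
    change SlashInvariantForm.quotientFunc (ℋ := 𝒮ℒ) f (repQ p none) = _
    rw [quotientFunc_repQ]
    simp [rep]
  rw [h0]
  congr 1

theorem coe_norm_eq [ModularFormClass F (ΓGL p) k] (f : F) :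
    ((ModularForm.norm 𝒮ℒ f : ModularForm 𝒮ℒ _) : ℍ → ℂ) =
      (f : ℍ → ℂ) * ∏ j : Fin p, (f : ℍ → ℂ) ∣[k] (S * T ^ ((j : ℕ) : ℤ)) := by
  have hp : p.Prime := Fact.out
  rw [ModularForm.coe_norm]
  let := Fintype.ofFinite (𝒮ℒ ⧸ ((ΓGL p).subgroupOf 𝒮ℒ))
  rw [← (repEquiv hp).prod_comp]
  rw [Fintype.prod_option]
  have h0 : SlashInvariantForm.quotientFunc (ℋ := 𝒮ℒ) f (repEquiv hp none) = (f : ℍ → ℂ) := by
    change SlashInvariantForm.quotientFunc (ℋ := 𝒮ℒ) f (repQ p none) = _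
    rw [quotientFunc_repQ]
    simp [rep]
  rw [h0]
  congr 1

/-- A function invariant under the slash action of `Γ₀(p)`, given by power series at both cusps,
is a modular form. -/
theorem isBoundedAt_of_two_cusps {k : ℤ} {f : ℍ → ℂ}
    (hinv : ∀ g ∈ Gamma0 p, f ∣[k] g = f)
    (h1 : IsBoundedAtImInfty f) (h2 : IsBoundedAtImInfty (f ∣[k] S)) (g : SL(2, ℤ)) :
    IsBoundedAtImInfty (f ∣[k] g) := by
  have hp : p.Prime := Fact.out
  obtain ⟨i, hi⟩ := rep_bij_aux hp g⁻¹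
  -- `rep i * g⁻¹ ∈ Γ₀(p)`, so `g = (rep i * g⁻¹)⁻¹ * rep i`
  have h3 : g = (rep p i * g⁻¹)⁻¹ * rep p i := by group
  rw [h3, SlashAction.slash_mul, hinv _ (inv_mem hi)]
  rcases i with _ | j
  · simpa [rep] using h1
  · simp only [rep]
    rw [SlashAction.slash_mul]
    have := h2.slash (g := (mapGL ℝ (T ^ ((j : ℕ) : ℤ)))) (k := k)
    apply this
    exact T_lower _

theorem isZeroAt_of_two_cusps {k : ℤ} {f : ℍ → ℂ}
    (hinv : ∀ g ∈ Gamma0 p, f ∣[k] g = f)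
    (h1 : IsZeroAtImInfty f) (h2 : IsZeroAtImInfty (f ∣[k] S)) (g : SL(2, ℤ)) :
    IsZeroAtImInfty (f ∣[k] g) := by
  have hp : p.Prime := Fact.out
  obtain ⟨i, hi⟩ := rep_bij_aux hp g⁻¹
  have h3 : g = (rep p i * g⁻¹)⁻¹ * rep p i := by group
  rw [h3, SlashAction.slash_mul, hinv _ (inv_mem hi)]
  rcases i with _ | j
  · simpa [rep] using h1
  · simp only [rep]
    rw [SlashAction.slash_mul]
    have := h2.slash (g := (mapGL ℝ (T ^ ((j : ℕ) : ℤ)))) (k := k)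
    apply this
    exact T_lower _

end

end Fermat.Agent.Eis16
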