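import Mathlib
import Fermat.Agent.Eis16.QSer
import Fermat.Agent.Eis16.Coset

set_option autoImplicit false

/-!
# Slash computations and construction of forms on `Γ₀(p)`
-/

open Matrix.SpecialLinearGroup CongruenceSubgroup ModularGroup
open scoped MatrixGroups ModularForm Manifold
open UpperHalfPlane hiding I
open Complex (I)

namespace Fermat.Agent.Eis16

noncomputable section

local notation "𝕢" => Function.Periodic.qParam
local notation "ΓGL" p => (Subgroup.map (Matrix.SpecialLinearGroup.mapGL ℝ) (Gamma0 p))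

variable (p : ℕ) [NeZero p]

/-- `τ ↦ p τ`. -/
def up (τ : ℍ) : ℍ := ⟨(p : ℂ) * τ, by
  have hp : (0 : ℝ) < p := Nat.cast_pos.2 (Nat.pos_of_ne_zero (NeZero.ne p))
  simpa using mul_pos hp τ.im_pos⟩

/-- `τ ↦ τ / p`. -/
def dn (τ : ℍ) : ℍ := ⟨(τ : ℂ) / p, by
  have hp : (0 : ℝ) < p := Nat.cast_pos.2 (Nat.pos_of_ne_zero (NeZero.ne p))
  rw [Complex.div_natCast_im]
  exact div_pos τ.im_pos hp⟩

@[simp] theorem coe_up (τ : ℍ) : ((up p τ : ℍ) : ℂ) = p * τ := rfl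
@[simp] theorem coe_dn (τ : ℍ) : ((dn p τ : ℍ) : ℂ) = τ / p := rfl

theorem p_ne : (p : ℂ) ≠ 0 := Nat.cast_ne_zero.2 (NeZero.ne p)

theorem dn_up (τ : ℍ) : dn p (up p τ) = τ := by
  ext
  simp only [coe_dn, coe_up]
  field_simp [p_ne p]

theorem up_dn (τ : ℍ) : up p (dn p τ) = τ := by
  ext
  simp only [coe_dn, coe_up]
  field_simp [p_ne p]

theorem qParam_up (τ : ℍ) : 𝕢 1 (up p τ) = 𝕢 1 τ ^ p := by
  simp only [Function.Periodic.qParam, coe_up]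
  rw [← Complex.exp_nat_mul]
  congr 1
  push_cast
  ring

theorem qParam_dn (τ : ℍ) : 𝕢 1 (dn p τ) = 1 * 𝕢 p τ := by
  simp only [Function.Periodic.qParam, coe_dn]
  rw [one_mul]
  congr 1
  push_cast
  field_simp [p_ne p]

theorem HasQ.up {f : ℍ → ℂ} {A : PowerSeries ℂ} (hf : HasQ 1 f A) :
    HasQ 1 (fun τ => f (up p τ)) (A.expand p (NeZero.ne p)) :=
  hf.comp_pow p (NeZero.ne p) (qParam_up p)

theorem HasQ.dn {f : ℍ → ℂ} {A : PowerSeries ℂ} (hf : HasQ 1 f A) :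
    HasQ p (fun τ => f (dn p τ)) A := by
  have := hf.comp_rescale 1 (qParam_dn p)
  rwa [PowerSeries.rescale_one] at this

theorem HasQ.width {f : ℍ → ℂ} {A : PowerSeries ℂ} (hf : HasQ 1 f A) :
    HasQ p f (A.expand p (NeZero.ne p)) := by
  have := hf.change_width p (NeZero.ne p)
  rwa [mul_one] at this

theorem qParam_T (h : ℝ) (j : ℤ) (τ : ℍ) :
    𝕢 h ((T ^ j : SL(2, ℤ)) • τ : ℍ) = Complex.exp (2 * Real.pi * I * j / h) * 𝕢 h τ := by
  simp only [Function.Periodic.qParam, coe_T_zpow_smul_eq]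
  rw [← Complex.exp_add]
  congr 1
  ring

theorem HasQ.translate {h : ℝ} {f : ℍ → ℂ} {A : PowerSeries ℂ} (hf : HasQ h f A) (j : ℤ) :
    HasQ h (fun τ => f ((T ^ j : SL(2, ℤ)) • τ))
      (PowerSeries.rescale (Complex.exp (2 * Real.pi * I * j / h)) A) :=
  hf.comp_rescale _ (qParam_T h j)

theorem slash_T (k : ℤ) (f : ℍ → ℂ) (j : ℤ) :
    f ∣[k] (T ^ j : SL(2, ℤ)) = fun τ => f ((T ^ j : SL(2, ℤ)) • τ) := by
  ext τ
  rw [ModularForm.SL_slash_apply]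
  have h : denom (T ^ j : SL(2, ℤ)) τ = 1 := by
    rw [ModularGroup.denom_apply, coe_T_zpow]
    simp
  rw [h, one_zpow, mul_one]

theorem HasQ.slash_T {h : ℝ} {k : ℤ} {f : ℍ → ℂ} {A : PowerSeries ℂ} (hf : HasQ h f A) (j : ℤ) :
    HasQ h (f ∣[k] (T ^ j : SL(2, ℤ)))
      (PowerSeries.rescale (Complex.exp (2 * Real.pi * I * j / h)) A) := by
  rw [Fermat.Agent.Eis16.slash_T]
  exact hf.translate j

theorem slash_S_apply (k : ℤ) (f : ℍ → ℂ) (τ : ℍ) :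
    (f ∣[k] S) τ = f (S • τ) * (τ : ℂ) ^ (-k) := by
  rw [ModularForm.SL_slash_apply, denom_S]

theorem coe_S_smul (τ : ℍ) : ((S • τ : ℍ) : ℂ) = -1 / (τ : ℂ) := by
  rw [modular_S_smul]
  change (-(τ : ℂ))⁻¹ = _
  rw [inv_neg, neg_div, one_div]

theorem up_S (τ : ℍ) : up p (S • τ) = S • dn p τ := by
  ext
  rw [coe_up, coe_S_smul, coe_S_smul, coe_dn]
  have := τ.ne_zero
  field_simp [p_ne p]

theorem slash_up_S (k : ℤ) (f : ℍ → ℂ) :
    (fun τ => f (up p τ)) ∣[k] S = fun τ => (p : ℂ) ^ (-k) * (f ∣[k] S) (dn p τ) := by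
  ext τ
  rw [slash_S_apply, slash_S_apply, up_S, coe_dn, div_zpow]
  have h := zpow_ne_zero (-k) (p_ne p)
  field_simp

variable {p}

/-- Conjugation of an element of `Γ₀(p)` by `diag(p, 1)`. -/
def cj (g : SL(2, ℤ)) (hg : g ∈ Gamma0 p) : SL(2, ℤ) :=
  ⟨!![g 0 0, p * g 0 1; g 1 0 / p, g 1 1], by
    rw [mem_Gamma0_iff] at hg
    obtain ⟨c, hc⟩ := hg
    have hp : (p : ℤ) ≠ 0 := by exact_mod_cast NeZero.ne p
    have hdet := g.2
    rw [Matrix.det_fin_two] at hdet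
    rw [Matrix.det_fin_two_of, hc, Int.mul_ediv_cancel_left _ hp]
    rw [hc] at hdet
    linarith⟩

theorem cj_coe (g : SL(2, ℤ)) (hg : g ∈ Gamma0 p) :
    ((cj g hg : SL(2, ℤ)) : Matrix (Fin 2) (Fin 2) ℤ) =
      !![g 0 0, p * g 0 1; g 1 0 / p, g 1 1] := rfl

omit [NeZero p] in
theorem cj_lower (g : SL(2, ℤ)) (hg : g ∈ Gamma0 p) : (p : ℤ) * (g 1 0 / p) = g 1 0 := by
  rw [mem_Gamma0_iff] at hg
  exact Int.mul_ediv_cancel' hg

theorem cj_lowerC (g : SL(2, ℤ)) (hg : g ∈ Gamma0 p) :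
    (p : ℂ) * ((g 1 0 / p : ℤ) : ℂ) = ((g 1 0 : ℤ) : ℂ) := by
  have := congrArg (Int.cast (R := ℂ)) (cj_lower g hg)
  rwa [Int.cast_mul, Int.cast_natCast] at this

theorem denom_cj (g : SL(2, ℤ)) (hg : g ∈ Gamma0 p) (τ : ℍ) :
    denom (cj g hg) (up p τ) = denom g τ := by
  rw [ModularGroup.denom_apply, ModularGroup.denom_apply, coe_up]
  have h1 : ((cj g hg : SL(2, ℤ)) 1 0 : ℤ) = g 1 0 / p := rfl
  have h2 : ((cj g hg : SL(2, ℤ)) 1 1 : ℤ) = g 1 1 := rfl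
  rw [h1, h2, ← cj_lowerC g hg]
  ring

theorem up_smul (g : SL(2, ℤ)) (hg : g ∈ Gamma0 p) (τ : ℍ) :
    up p (g • τ) = cj g hg • up p τ := by
  ext
  rw [coe_up, UpperHalfPlane.coe_specialLinearGroup_apply,
    UpperHalfPlane.coe_specialLinearGroup_apply, coe_up]
  have h00 : ((cj g hg : SL(2, ℤ)) 0 0 : ℤ) = g 0 0 := rfl
  have h01 : ((cj g hg : SL(2, ℤ)) 0 1 : ℤ) = p * g 0 1 := rfl
  have h1 : ((cj g hg : SL(2, ℤ)) 1 0 : ℤ) = g 1 0 / p := rfl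
  have h2 : ((cj g hg : SL(2, ℤ)) 1 1 : ℤ) = g 1 1 := rfl
  rw [h00, h01, h1, h2]
  simp only [eq_intCast, Int.cast_mul, Int.cast_natCast, Complex.ofReal_intCast,
    Complex.ofReal_mul, Complex.ofReal_natCast]
  rw [← cj_lowerC g hg]
  ring

theorem slash_up (k : ℤ) (f : ℍ → ℂ) (g : SL(2, ℤ)) (hg : g ∈ Gamma0 p) :
    (fun τ => f (up p τ)) ∣[k] g = fun τ => (f ∣[k] (cj g hg)) (up p τ) := by
  ext τ
  rw [ModularForm.SL_slash_apply, ModularForm.SL_slash_apply, denom_cj, up_smul g hg]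

/-- The conjugate of an element of `Γ₀(p)` by the Atkin-Lehner matrix. -/
def wj (g : SL(2, ℤ)) (hg : g ∈ Gamma0 p) : SL(2, ℤ) := S * cj g hg * S⁻¹

theorem wj_mem (g : SL(2, ℤ)) (hg : g ∈ Gamma0 p) : wj g hg ∈ Gamma0 p := by
  rw [mem_Gamma0_iff]
  have : (wj g hg) 1 0 = -(p * g 0 1) := by
    unfold wj
    rw [coe_mul, coe_mul, cj_coe, Matrix.SpecialLinearGroup.coe_inv, coe_S]
    simp [Matrix.mul_apply, Fin.sum_univ_two, Matrix.adjugate_fin_two]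
  rw [this]
  exact (dvd_mul_right _ _).neg_right

/-- The Atkin-Lehner transform (unnormalised). -/
def atkin (p : ℕ) [NeZero p] (k : ℤ) (f : ℍ → ℂ) : ℍ → ℂ := fun τ => (f ∣[k] S) (up p τ)

theorem atkin_slash {k : ℤ} {f : ℍ → ℂ} (hinv : ∀ g ∈ Gamma0 p, f ∣[k] g = f)
    (g : SL(2, ℤ)) (hg : g ∈ Gamma0 p) : (atkin p k f) ∣[k] g = atkin p k f := by
  unfold atkin
  rw [slash_up k _ g hg, ← SlashAction.slash_mul]
  have : S * cj g hg = wj g hg * S := by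
    unfold wj
    group
  rw [this, SlashAction.slash_mul, hinv _ (wj_mem g hg)]

omit [NeZero p] in
theorem neg_one_mem : (-1 : SL(2, ℤ)) ∈ Gamma0 p := by
  rw [mem_Gamma0_iff]
  simp

theorem S_mul_S : (S * S : SL(2, ℤ)) = -1 := by
  ext i j
  rw [coe_mul, coe_S]
  fin_cases i <;> fin_cases j <;> simp [Matrix.mul_apply, Fin.sum_univ_two]

theorem atkin_slash_S {k : ℤ} {f : ℍ → ℂ} (hinv : ∀ g ∈ Gamma0 p, f ∣[k] g = f) :
    (atkin p k f) ∣[k] S = fun τ => (p : ℂ) ^ (-k) * f (dn p τ) := by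
  unfold atkin
  rw [slash_up_S, ← SlashAction.slash_mul, S_mul_S, hinv _ neg_one_mem]

/-- Construct a modular form on `Γ₀(p)` from a function with power series expansions at both
cusps. -/
def mkForm [Fact p.Prime] (k : ℤ) (f : ℍ → ℂ) (hinv : ∀ g ∈ Gamma0 p, f ∣[k] g = f)
    (A B : PowerSeries ℂ) (hA : HasQ 1 f A) (hB : HasQ p (f ∣[k] S) B) :
    ModularForm (ΓGL p) k where
  toFun := f
  slash_action_eq' := by
    rintro _ ⟨g, hg, rfl⟩
    exact hinv g hg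
  holo' := hA.mdiff one_pos
  bdd_at_cusps' := by
    intro c hc
    have hp : (0 : ℝ) < p := Nat.cast_pos.2 (Nat.pos_of_ne_zero (NeZero.ne p))
    rw [Subgroup.IsArithmetic.isCusp_iff_isCusp_SL2Z] at hc
    rw [OnePoint.isBoundedAt_iff_forall_SL2Z hc]
    intro g _
    exact isBoundedAt_of_two_cusps hinv (hA.isBounded one_pos) (hB.isBounded hp) g

@[simp] theorem coe_mkForm [Fact p.Prime] (k : ℤ) (f : ℍ → ℂ)
    (hinv : ∀ g ∈ Gamma0 p, f ∣[k] g = f)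
    (A B : PowerSeries ℂ) (hA : HasQ 1 f A) (hB : HasQ p (f ∣[k] S) B) :
    ⇑(mkForm k f hinv A B hA hB) = f := rfl

/-- Construct a cusp form on `Γ₀(p)` from a function with power series expansions at both
cusps. -/
def mkCusp [Fact p.Prime] (k : ℤ) (f : ℍ → ℂ) (hinv : ∀ g ∈ Gamma0 p, f ∣[k] g = f)
    (A B : PowerSeries ℂ) (hA : HasQ 1 f A) (hB : HasQ p (f ∣[k] S) B)
    (hA0 : A.coeff 0 = 0) (hB0 : B.coeff 0 = 0) :
    CuspForm (ΓGL p) k where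
  toFun := f
  slash_action_eq' := by
    rintro _ ⟨g, hg, rfl⟩
    exact hinv g hg
  holo' := hA.mdiff one_pos
  zero_at_cusps' := by
    intro c hc
    have hp : (0 : ℝ) < p := Nat.cast_pos.2 (Nat.pos_of_ne_zero (NeZero.ne p))
    rw [Subgroup.IsArithmetic.isCusp_iff_isCusp_SL2Z] at hc
    rw [OnePoint.isZeroAt_iff_forall_SL2Z hc]
    intro g _
    exact isZeroAt_of_two_cusps hinv (hA.isZero one_pos hA0) (hB.isZero hp hB0) g

@[simp] theorem coe_mkCusp [Fact p.Prime] (k : ℤ) (f : ℍ → ℂ)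
    (hinv : ∀ g ∈ Gamma0 p, f ∣[k] g = f)
    (A B : PowerSeries ℂ) (hA : HasQ 1 f A) (hB : HasQ p (f ∣[k] S) B)
    (hA0 : A.coeff 0 = 0) (hB0 : B.coeff 0 = 0) :
    ⇑(mkCusp k f hinv A B hA hB hA0 hB0) = f := rfl

end

end Fermat.Agent.Eis16
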