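import Mathlib

set_option autoImplicit false

/-!
# The divisor sum `∑_{d ∣ n, p ∤ d} d`
-/

namespace Fermat.Agent.Eis16

/-- The weight of a divisor: `d` if `p ∤ d`, `0` otherwise. -/
def wt (p d : ℕ) : ℤ := if p ∣ d then 0 else (d : ℤ)

/-- `sig p n = ∑_{d ∣ n, p ∤ d} d`. -/
def sig (p n : ℕ) : ℤ := ∑ d ∈ n.divisors, wt p d

theorem sig_zero (p : ℕ) : sig p 0 = 0 := by simp [sig]

theorem sig_one {p : ℕ} (hp : p.Prime) : sig p 1 = 1 := by
  simp [sig, wt, hp.one_lt.ne']

theorem sig_mul_self {p : ℕ} (hp : p.Prime) (n : ℕ) : sig p (n * p) = sig p n := by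
  rcases Nat.eq_zero_or_pos n with rfl | hn
  · simp
  unfold sig
  symm
  apply Finset.sum_subset
  · exact Nat.divisors_subset_of_dvd (mul_ne_zero hn.ne' hp.ne_zero) (dvd_mul_right n p)
  · intro d hd hd'
    rw [Nat.mem_divisors] at hd hd'
    unfold wt
    rw [if_pos]
    by_contra h
    apply hd'
    refine ⟨?_, hn.ne'⟩
    exact (Nat.Coprime.dvd_mul_right ((Nat.Prime.coprime_iff_not_dvd hp).2 h).symm).1 hd.1

theorem wt_mul {p l : ℕ} (hp : p.Prime) (hl : l.Prime) (hlp : l ≠ p) (d : ℕ) :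
    wt p (l * d) = l * wt p d := by
  unfold wt
  have : p ∣ l * d ↔ p ∣ d := by
    rw [hp.dvd_mul]
    constructor
    · rintro (h | h)
      · exact absurd ((Nat.prime_dvd_prime_iff_eq hp hl).1 h).symm hlp
      · exact h
    · exact Or.inr
  simp only [this]
  split_ifs <;> simp

theorem sig_mul_prime {p l : ℕ} (hp : p.Prime) (hl : l.Prime) (hlp : l ≠ p) (n : ℕ) :
    sig p (n * l) + (if l ∣ n then (l : ℤ) * sig p (n / l) else 0) = (1 + l) * sig p n := by
  rcases Nat.eq_zero_or_pos n with rfl | hn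
  · simp [sig_zero]
  have hl0 : l ≠ 0 := hl.ne_zero
  have h1 : (n * l).divisors = n.divisors ∪ n.divisors.image (fun d => l * d) := by
    ext d
    simp only [Nat.mem_divisors, Finset.mem_union, Finset.mem_image]
    constructor
    · rintro ⟨hd, -⟩
      by_cases h : l ∣ d
      · obtain ⟨e, rfl⟩ := h
        right
        refine ⟨e, ⟨?_, hn.ne'⟩, rfl⟩
        rw [mul_comm n l] at hd
        exact Nat.dvd_of_mul_dvd_mul_left hl.pos hd
      · left
        exact ⟨(Nat.Coprime.dvd_mul_right ((Nat.Prime.coprime_iff_not_dvd hl).2 h).symm).1 hd,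
          hn.ne'⟩
    · rintro (⟨hd, -⟩ | ⟨e, ⟨he, -⟩, rfl⟩)
      · exact ⟨hd.mul_right l, mul_ne_zero hn.ne' hl0⟩
      · rw [mul_comm n l]
        exact ⟨mul_dvd_mul_left l he, mul_ne_zero hl0 hn.ne'⟩
  have h2 : ∑ d ∈ n.divisors ∩ n.divisors.image (fun d => l * d), wt p d =
      (if l ∣ n then (l : ℤ) * sig p (n / l) else 0) := by
    split_ifs with hln
    · obtain ⟨m, rfl⟩ := hln
      have hm : m ≠ 0 := by rintro rfl; simp at hn
      rw [Nat.mul_div_cancel_left m hl.pos]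
      have h3 : (l * m).divisors ∩ (l * m).divisors.image (fun d => l * d) =
          m.divisors.image (fun d => l * d) := by
        ext d
        simp only [Nat.mem_divisors, Finset.mem_inter, Finset.mem_image]
        constructor
        · rintro ⟨⟨hd, -⟩, e, -, rfl⟩
          exact ⟨e, ⟨Nat.dvd_of_mul_dvd_mul_left hl.pos hd, hm⟩, rfl⟩
        · rintro ⟨e, ⟨he, -⟩, rfl⟩
          exact ⟨⟨mul_dvd_mul_left l he, hn.ne'⟩, e, ⟨he.mul_left l, hn.ne'⟩, rfl⟩
      rw [h3, Finset.sum_image (fun a _ b _ h => Nat.eq_of_mul_eq_mul_left hl.pos h)]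
      simp only [wt_mul hp hl hlp]
      rw [← Finset.mul_sum]
      rfl
    · apply Finset.sum_eq_zero
      intro d hd
      exfalso
      simp only [Nat.mem_divisors, Finset.mem_inter, Finset.mem_image] at hd
      obtain ⟨⟨hd, -⟩, e, -, rfl⟩ := hd
      exact hln (dvd_trans (dvd_mul_right l e) hd)
  rw [← h2]
  unfold sig
  rw [h1, Finset.sum_union_inter,
    Finset.sum_image (fun a _ b _ h => Nat.eq_of_mul_eq_mul_left hl.pos h)]
  simp only [wt_mul hp hl hlp]
  rw [← Finset.mul_sum]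
  ring

end Fermat.Agent.Eis16
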