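import Mathlib
import Fermat.Agent.Eis16.Forms
import Fermat.Agent.Eis16.Sig

set_option autoImplicit false

/-!
# The Eisenstein series of weight two on `Γ₀(p)`
-/

open Matrix.SpecialLinearGroup CongruenceSubgroup ModularGroup
open scoped MatrixGroups ModularForm Manifold
open UpperHalfPlane hiding I
open Complex (I)
open EisensteinSeries

namespace Fermat.Agent.Eis16

noncomputable section

local notation "𝕢" => Function.Periodic.qParam

variable (p : ℕ) [NeZero p]

/-- The weight two Eisenstein series `(p E₂(p τ) - E₂(τ)) / 24`. -/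
def eisTwo : ℍ → ℂ := fun τ => ((p : ℂ) * E2 (up p τ) - E2 τ) / 24

theorem E2_slash_apply (g : SL(2, ℤ)) (τ : ℍ) :
    (E2 ∣[(2 : ℤ)] g) τ = E2 τ - (1 / (2 * riemannZeta 2)) * D2 g τ := by
  rw [E2_slash_action]
  simp

variable {p}

theorem eisTwo_slash (g : SL(2, ℤ)) (hg : g ∈ Gamma0 p) :
    (eisTwo p) ∣[(2 : ℤ)] g = eisTwo p := by
  have h1 : eisTwo p = ((p : ℂ) / 24) • (fun τ => E2 (up p τ)) - (1 / 24 : ℂ) • E2 := by
    ext τ
    simp only [eisTwo, Pi.sub_apply, Pi.smul_apply, smul_eq_mul]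
    ring
  rw [h1, sub_eq_add_neg, SlashAction.add_slash, SlashAction.neg_slash,
    ModularForm.SL_smul_slash, ModularForm.SL_smul_slash, slash_up 2 _ g hg]
  ext τ
  simp only [Pi.add_apply, Pi.neg_apply, Pi.smul_apply, smul_eq_mul]
  rw [E2_slash_apply, E2_slash_apply]
  have h2 : (p : ℂ) * D2 (cj g hg) (up p τ) = D2 g τ := by
    unfold D2
    rw [denom_cj]
    have h3 : ((cj g hg : SL(2, ℤ)) 1 0 : ℤ) = g 1 0 / p := rfl
    rw [h3, ← cj_lowerC g hg]
    ring
  linear_combination (-(1 / (2 * riemannZeta 2)) / 24) * h2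

theorem eisTwo_slash_S :
    (eisTwo p) ∣[(2 : ℤ)] S = fun τ => -(p : ℂ)⁻¹ * eisTwo p (dn p τ) := by
  have h1 : eisTwo p = ((p : ℂ) / 24) • (fun τ => E2 (up p τ)) - (1 / 24 : ℂ) • E2 := by
    ext τ
    simp only [eisTwo, Pi.sub_apply, Pi.smul_apply, smul_eq_mul]
    ring
  have h5 : (p : ℂ) ≠ 0 := p_ne p
  have h4 : (p : ℂ) ^ (-2 : ℤ) = (p : ℂ)⁻¹ * (p : ℂ)⁻¹ := by
    rw [zpow_neg, show (2 : ℤ) = ((2 : ℕ) : ℤ) from rfl, zpow_natCast, pow_two, mul_inv]
  conv_lhs => rw [h1]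
  rw [sub_eq_add_neg, SlashAction.add_slash, SlashAction.neg_slash,
    ModularForm.SL_smul_slash, ModularForm.SL_smul_slash, slash_up_S]
  ext τ
  simp only [Pi.add_apply, Pi.neg_apply, Pi.smul_apply, smul_eq_mul]
  rw [E2_slash_apply, E2_slash_apply, D2_S, D2_S, coe_dn, h4]
  unfold eisTwo
  rw [up_dn]
  have hτ := τ.ne_zero
  have h6 : 2 * (Real.pi : ℂ) * I / ((τ : ℂ) / p) = p * (2 * (Real.pi : ℂ) * I / (τ : ℂ)) := by
    field_simp
  rw [h6]
  field_simp
  ring

/-- `E₂` as a power series. -/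
theorem hasQ_E2 : HasQ 1 E2 (PowerSeries.mk fun m =>
    if m = 0 then 1 else -24 * (ArithmeticFunction.sigma 1 m : ℂ)) := by
  intro τ
  have := hasSum_qExpansion_E2 (z := τ)
  simpa [Function.Periodic.qParam] using this

theorem sigma_eq (hp : p.Prime) (n : ℕ) : (ArithmeticFunction.sigma 1 n : ℤ) =
    sig p n + if p ∣ n then (p : ℤ) * (ArithmeticFunction.sigma 1 (n / p) : ℤ) else 0 := by
  rcases Nat.eq_zero_or_pos n with rfl | hn
  · simp [sig_zero]
  rw [ArithmeticFunction.sigma_one_apply]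
  have h1 : ((∑ d ∈ n.divisors, d : ℕ) : ℤ) =
      sig p n + ∑ d ∈ n.divisors with p ∣ d, (d : ℤ) := by
    unfold sig wt
    rw [Finset.sum_filter, ← Finset.sum_add_distrib]
    push_cast
    apply Finset.sum_congr rfl
    intro d _
    split_ifs <;> simp
  rw [h1]
  congr 1
  split_ifs with h
  · obtain ⟨m, rfl⟩ := h
    have hm : m ≠ 0 := by rintro rfl; simp at hn
    rw [Nat.mul_div_cancel_left m hp.pos, ArithmeticFunction.sigma_one_apply]
    have h2 : (p * m).divisors.filter (fun d => p ∣ d) = m.divisors.image (fun e => p * e) := by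
      ext d
      simp only [Finset.mem_filter, Nat.mem_divisors, Finset.mem_image]
      constructor
      · rintro ⟨⟨hd, -⟩, e, rfl⟩
        exact ⟨e, ⟨Nat.dvd_of_mul_dvd_mul_left hp.pos hd, hm⟩, rfl⟩
      · rintro ⟨e, ⟨he, -⟩, rfl⟩
        exact ⟨⟨mul_dvd_mul_left p he, hn.ne'⟩, dvd_mul_right p e⟩
    rw [h2, Finset.sum_image (fun a _ b _ h => Nat.eq_of_mul_eq_mul_left hp.pos h)]
    push_cast
    rw [Finset.mul_sum]
  · apply Finset.sum_eq_zero
    intro d hd
    exfalso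
    simp only [Finset.mem_filter, Nat.mem_divisors] at hd
    exact h (hd.2.trans hd.1.1)

/-- The `q`-expansion of `eisTwo p`. -/
def eisSer (p : ℕ) : PowerSeries ℂ :=
  PowerSeries.mk fun n => if n = 0 then ((p : ℂ) - 1) / 24 else ((sig p n : ℤ) : ℂ)

theorem hasQ_eisTwo (hp : p.Prime) : HasQ 1 (eisTwo p) (eisSer p) := by
  have h1 := ((HasQ.up p hasQ_E2).smul ((p : ℂ) / 24)).sub (hasQ_E2.smul (1 / 24 : ℂ))
  have h2 : ((p : ℂ) / 24) • (PowerSeries.expand p (NeZero.ne p) (PowerSeries.mk fun m =>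
      if m = 0 then 1 else -24 * (ArithmeticFunction.sigma 1 m : ℂ))) -
      (1 / 24 : ℂ) • (PowerSeries.mk fun m =>
      if m = 0 then 1 else -24 * (ArithmeticFunction.sigma 1 m : ℂ)) = eisSer p := by
    ext n
    rw [map_sub, PowerSeries.coeff_smul, PowerSeries.coeff_smul, PowerSeries.coeff_expand,
      PowerSeries.coeff_mk, PowerSeries.coeff_mk, eisSer, PowerSeries.coeff_mk]
    by_cases hn : n = 0
    · subst hn
      simp
      ring
    · rw [if_neg hn, if_neg hn]
      have h3 := congrArg (Int.cast (R := ℂ)) (sigma_eq hp n)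
      push_cast at h3
      by_cases hpn : p ∣ n
      · have hnp : n / p ≠ 0 := by
          obtain ⟨m, rfl⟩ := hpn
          rw [Nat.mul_div_cancel_left m hp.pos]
          rintro rfl
          simp at hn
        rw [if_pos hpn] at h3 ⊢
        rw [if_neg hnp]
        push_cast at h3 ⊢
        simp only [smul_eq_mul]
        linear_combination h3
      · rw [if_neg hpn] at h3 ⊢
        simp only [smul_eq_mul]
        push_cast at h3 ⊢
        linear_combination h3
  rw [h2] at h1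
  refine h1.congr fun τ => ?_
  simp only [eisTwo, Pi.sub_apply, Pi.smul_apply, smul_eq_mul]
  ring

theorem hasQ_eisTwo_S (hp : p.Prime) :
    HasQ p ((eisTwo p) ∣[(2 : ℤ)] S) (-(p : ℂ)⁻¹ • eisSer p) := by
  rw [eisTwo_slash_S]
  exact (HasQ.dn p (hasQ_eisTwo hp)).smul _

end

end Fermat.Agent.Eis16
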