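import Mathlib
import Fermat.Prelude.Def_CuspForm_HeckeLocal
import Fermat.Prelude.Def_CuspForm_HeckeEvalForms
import Fermat.Prelude.Def_HeckeGalois_EichlerShimura
import Fermat.Prelude.Def_ModularCurve_ModularUnit
import Fermat.Agent.Hecke.Duality
import Fermat.Agent.Hecke.Integral
import Fermat.Agent.Eis16.Sig

set_option autoImplicit false

/-!
# The Eisenstein quotient of the Hecke algebra: algebraic reduction
-/

open ModularFormClass CongruenceSubgroup ModularCurve CuspForm Fermat.Agent.Hecke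

namespace Fermat.Agent.Eis16

noncomputable section

variable (p : ℕ) [Fact p.Prime]

/-- The action of the abstract Hecke algebra on cusp forms. -/
def act (x : HeckeAlg) : Module.End ℂ (CuspForm (Gamma0 p) 2) :=
  (heckeEvalForms p 2 x : heckeAlgebra p 2 ∅)

/-- The map from the abstract Hecke algebra to the lattice Hecke algebra. -/
def phi : HeckeAlg →+* ↥(heckeLatticeAlgebra p ∅) :=
  (latticeRestrictHom p ∅).toRingHom.comp (heckeEvalForms p 2)

/-- Evaluation at the Eisenstein system. -/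
def ev : HeckeAlg →ₐ[ℤ] ℤ := MvPolynomial.aeval (eisensteinSystem p)

variable {p}

theorem act_add (x y : HeckeAlg) : act p (x + y) = act p x + act p y := by
  simp [act]

theorem act_mul (x y : HeckeAlg) : act p (x * y) = act p x * act p y := by
  simp [act]

theorem act_one : act p 1 = 1 := by
  simp [act]

theorem act_C (a : ℤ) (f : CuspForm (Gamma0 p) 2) :
    act p (MvPolynomial.C a) f = (a : ℂ) • f := by
  unfold act
  rw [heckeEvalForms_C]
  have : (((algebraMap ℤ (heckeAlgebra p 2 ∅)) a : heckeAlgebra p 2 ∅) :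
      Module.End ℂ (CuspForm (Gamma0 p) 2)) f = a • f := by simp
  rw [this]
  exact (Int.cast_smul_eq_zsmul ℂ a f).symm

theorem qCoeff_act_gen (l : Nat.Primes) (f : CuspForm (Gamma0 p) 2) (n : ℕ) :
    qCoeff (act p (heckeGen l) f) n = qCoeff f (n * l) +
      (if (l : ℕ) = p then 0 else if (l : ℕ) ∣ n then ((l : ℕ) : ℂ) * qCoeff f (n / l) else 0) := by
  have hp : p.Prime := Fact.out
  by_cases h : (l : ℕ) ∣ p
  · have h' : (l : ℕ) = p := (Nat.prime_dvd_prime_iff_eq l.2 hp).1 h
    rw [if_pos h', add_zero]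
    unfold act
    rw [heckeEvalForms_heckeGen_of_dvd h]
    exact qCoeff_heckeULin l.2 h f n
  · have h' : (l : ℕ) ≠ p := fun h' => h (h' ▸ dvd_rfl)
    rw [if_neg h']
    unfold act
    rw [heckeEvalForms_heckeGen_of_not_dvd h]
    have := qCoeff_heckeTLin (k := 2) l.2 h f n
    rw [show (2 : ℤ) - 1 = 1 from rfl, zpow_one] at this
    exact this

theorem ev_gen_self (l : Nat.Primes) (h : (l : ℕ) = p) : ev p (heckeGen l) = 1 := by
  unfold ev
  rw [aeval_heckeGen, eisensteinSystem_of_dvd (h ▸ dvd_rfl)]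

theorem ev_gen (l : Nat.Primes) (h : (l : ℕ) ≠ p) : ev p (heckeGen l) = 1 + (l : ℕ) := by
  unfold ev
  have hp : p.Prime := Fact.out
  rw [aeval_heckeGen, eisensteinSystem_of_not_dvd]
  exact fun h' => h ((Nat.prime_dvd_prime_iff_eq l.2 hp).1 h')

/-- `f ≡ e ∑ sig(n) qⁿ` modulo `m`. -/
def Cong (p : ℕ) (e m : ℤ) (f : CuspForm (Gamma0 p) 2) : Prop :=
  ∀ n : ℕ, ∃ k : ℤ, qCoeff f n = ((e * sig p n + m * k : ℤ) : ℂ)

theorem Cong.act_gen {e m : ℤ} {f : CuspForm (Gamma0 p) 2} (h : Cong p e m f)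
    (l : Nat.Primes) : Cong p (e * ev p (heckeGen l)) m (act p (heckeGen l) f) := by
  have hp : p.Prime := Fact.out
  intro n
  rw [qCoeff_act_gen]
  obtain ⟨k1, hk1⟩ := h (n * l)
  obtain ⟨k2, hk2⟩ := h (n / l)
  by_cases hl : (l : ℕ) = p
  · rw [ev_gen_self l hl, if_pos hl, hk1]
    refine ⟨k1, ?_⟩
    rw [add_zero, mul_one, hl, sig_mul_self hp]
  · rw [ev_gen l hl, if_neg hl]
    have h3 := sig_mul_prime hp l.2 hl n
    by_cases hln : (l : ℕ) ∣ n
    · rw [if_pos hln] at h3 ⊢
      rw [hk1, hk2]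
      refine ⟨k1 + ((l : ℕ) : ℤ) * k2, ?_⟩
      rw [mul_assoc e, ← h3]
      push_cast
      ring
    · rw [if_neg hln] at h3 ⊢
      rw [hk1]
      refine ⟨k1, ?_⟩
      rw [mul_assoc e, ← h3]
      push_cast
      ring

theorem Cong.act (x : HeckeAlg) : ∀ {e m : ℤ} {f : CuspForm (Gamma0 p) 2}, Cong p e m f →
    Cong p (e * ev p x) m (act p x f) := by
  induction x using MvPolynomial.induction_on with
  | C a =>
    intro e m f h n
    obtain ⟨k, hk⟩ := h n
    refine ⟨a * k, ?_⟩
    rw [act_C, Fermat.Agent.Hecke.qCoeff_smul, hk]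
    unfold ev
    rw [MvPolynomial.aeval_C]
    simp only [algebraMap_int_eq, eq_intCast, Int.cast_id]
    push_cast
    ring
  | add x y hx hy =>
    intro e m f h n
    obtain ⟨k1, hk1⟩ := hx h n
    obtain ⟨k2, hk2⟩ := hy h n
    refine ⟨k1 + k2, ?_⟩
    rw [act_add, LinearMap.add_apply, Fermat.Agent.Hecke.qCoeff_add, hk1, hk2, map_add]
    push_cast
    ring
  | mul_X x l hx =>
    intro e m f h
    have h1 := hx (Cong.act_gen h l)
    rw [act_mul]
    have : e * ev p (x * MvPolynomial.X l) = e * ev p (heckeGen l) * ev p x := by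
      rw [map_mul, heckeGen]
      ring
    rw [this]
    exact h1

/-- The Hecke operator `T_n` as an element of the abstract Hecke algebra. -/
theorem exists_tau (n : ℕ) (hn : 0 < n) : ∃ t : HeckeAlg, ev p t = sig p n ∧
    ∀ f : CuspForm (Gamma0 p) 2, qCoeff (act p t f) 1 = qCoeff f n := by
  have hp : p.Prime := Fact.out
  induction n using Nat.strong_induction_on with
  | _ n ih =>
    rcases Nat.eq_or_lt_of_le hn with h1 | h1
    · refine ⟨1, ?_, fun f => ?_⟩
      · rw [map_one, ← h1, sig_one hp]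
      · rw [← h1, act_one]
        rfl
    · obtain ⟨l', hl, m, rfl⟩ := Nat.exists_prime_and_dvd (n := n) (by omega)
      have hm : 0 < m := Nat.pos_of_ne_zero (by rintro rfl; simp at hn)
      have hlt : m < l' * m := by nlinarith [hl.two_le]
      obtain ⟨t, ht1, ht2⟩ := ih m hlt hm
      obtain ⟨l, hll⟩ : ∃ l : Nat.Primes, (l : ℕ) = l' := ⟨⟨l', hl⟩, rfl⟩
      subst hll
      by_cases hlp : (l : ℕ) = p
      · refine ⟨t * heckeGen l, ?_, fun f => ?_⟩
        · rw [map_mul, ht1, ev_gen_self _ hlp, mul_one, hlp, mul_comm p m, sig_mul_self hp]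
        · rw [act_mul]
          change qCoeff (act p t (act p (heckeGen l) f)) 1 = _
          rw [ht2, qCoeff_act_gen, if_pos hlp, add_zero, mul_comm (l : ℕ) m]
      · have h3 := sig_mul_prime hp hl hlp m
        by_cases hlm : (l : ℕ) ∣ m
        · rw [if_pos hlm] at h3
          have hml : 0 < m / l := Nat.div_pos (Nat.le_of_dvd hm hlm) hl.pos
          obtain ⟨s, hs1, hs2⟩ := ih (m / l) (lt_of_le_of_lt (Nat.div_le_self _ _) hlt) hml
          refine ⟨t * heckeGen l - MvPolynomial.C ((l : ℕ) : ℤ) * s, ?_, fun f => ?_⟩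
          · rw [map_sub, map_mul, map_mul, ht1, hs1, ev_gen _ hlp, mul_comm (l : ℕ) m]
            have : ev p (MvPolynomial.C ((l : ℕ) : ℤ)) = (l : ℕ) := by
              unfold ev
              rw [MvPolynomial.aeval_C]
              rfl
            rw [this]
            linarith
          · have h4 : act p (t * heckeGen l - MvPolynomial.C ((l : ℕ) : ℤ) * s) f =
                act p t (act p (heckeGen l) f) - (((l : ℕ) : ℤ) : ℂ) • (act p s f) := by
              rw [sub_eq_add_neg, act_add]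
              have h5 : act p (-(MvPolynomial.C ((l : ℕ) : ℤ) * s)) =
                  - act p (MvPolynomial.C ((l : ℕ) : ℤ) * s) := by
                simp [act]
              rw [h5, LinearMap.add_apply, LinearMap.neg_apply, act_mul, act_mul,
                Module.End.mul_apply, Module.End.mul_apply, act_C, sub_eq_add_neg]
            rw [h4, qCoeff_sub_smul, ht2, hs2, qCoeff_act_gen, if_neg hlp, if_pos hlm,
              mul_comm (l : ℕ) m]
            push_cast
            ring
        · rw [if_neg hlm, add_zero] at h3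
          refine ⟨t * heckeGen l, ?_, fun f => ?_⟩
          · rw [map_mul, ht1, ev_gen _ hlp, mul_comm (l : ℕ) m, h3]
            ring
          · rw [act_mul]
            change qCoeff (act p t (act p (heckeGen l) f)) 1 = _
            rw [ht2, qCoeff_act_gen, if_neg hlp, if_neg hlm, add_zero, mul_comm (l : ℕ) m]

theorem phi_apply_coe (x : HeckeAlg) (f : ↥(intLattice p 2)) :
    (((phi p x : ↥(heckeLatticeAlgebra p ∅)) : Module.End ℤ ↥(intLattice p 2)) f :
      CuspForm (Gamma0 p) 2) = act p x f := rfl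

theorem heckeEvalForms_surjective : Function.Surjective (heckeEvalForms p 2) := by
  intro t
  obtain ⟨t, ht⟩ := t
  have h : ∀ t ∈ heckeAlgebra p 2 ∅, ∃ x : HeckeAlg, act p x = t := by
    intro t ht
    refine Algebra.adjoin_induction (p := fun t _ => ∃ x : HeckeAlg, act p x = t)
      ?_ ?_ ?_ ?_ ht
    · rintro t (⟨l, hl, hlN, -, rfl⟩ | ⟨q, hqN, hq, -, rfl⟩)
      · refine ⟨heckeGen ⟨l, hl⟩, ?_⟩
        unfold act
        rw [heckeEvalForms_heckeGen_of_not_dvd (ℓ := ⟨l, hl⟩) hlN]
        rfl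
      · refine ⟨heckeGen ⟨q, hq⟩, ?_⟩
        unfold act
        rw [heckeEvalForms_heckeGen_of_dvd (q := ⟨q, hq⟩) hqN]
        rfl
    · intro r
      refine ⟨MvPolynomial.C r, ?_⟩
      unfold act
      rw [heckeEvalForms_C]
      rfl
    · rintro x y _ _ ⟨a, rfl⟩ ⟨b, rfl⟩
      exact ⟨a + b, act_add a b⟩
    · rintro x y _ _ ⟨a, rfl⟩ ⟨b, rfl⟩
      exact ⟨a * b, act_mul a b⟩
  obtain ⟨x, hx⟩ := h t ht
  exact ⟨x, Subtype.ext hx⟩

theorem phi_surjective : Function.Surjective (phi p) :=
  (latticeRestrictHom_surjective p ∅).comp heckeEvalForms_surjective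

/-- Integral `q`-coefficients on the lattice. -/
def coeffZ (p : ℕ) (n : ℕ) : ↥(intLattice p 2) →ₗ[ℤ] ℤ where
  toFun f := Classical.choose ((mem_intLattice_iff f.1).1 f.2 n)
  map_add' f g := by
    have h1 := Classical.choose_spec ((mem_intLattice_iff f.1).1 f.2 n)
    have h2 := Classical.choose_spec ((mem_intLattice_iff g.1).1 g.2 n)
    have h3 := Classical.choose_spec ((mem_intLattice_iff (f + g).1).1 (f + g).2 n)
    apply Int.cast_injective (α := ℂ)
    rw [← h3]
    push_cast
    rw [← h1, ← h2]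
    exact Fermat.Agent.Hecke.qCoeff_add f.1 g.1 n
  map_smul' c f := by
    have h1 := Classical.choose_spec ((mem_intLattice_iff f.1).1 f.2 n)
    have h3 := Classical.choose_spec ((mem_intLattice_iff (c • f).1).1 (c • f).2 n)
    apply Int.cast_injective (α := ℂ)
    rw [← h3]
    simp only [smul_eq_mul, RingHom.id_apply]
    push_cast
    rw [← h1]
    have := Fermat.Agent.Hecke.qCoeff_smul (c : ℂ) f.1 n
    rw [← this, Int.cast_smul_eq_zsmul ℂ c f.1]
    rfl

theorem coeffZ_spec (n : ℕ) (f : ↥(intLattice p 2)) :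
    ((coeffZ p n f : ℤ) : ℂ) = qCoeff f.1 n :=
  (Classical.choose_spec ((mem_intLattice_iff f.1).1 f.2 n)).symm

theorem eq_zero_of_coeffZ (f : ↥(intLattice p 2)) (h : ∀ n, coeffZ p n f = 0) : f = 0 := by
  apply Subtype.ext
  apply eq_zero_of_forall_qCoeff
  intro n
  have := coeffZ_spec n f
  rw [h n, Int.cast_zero] at this
  exact this.symm

/-- The integral pairing `(f, t) ↦ a₁(t f)`. -/
def pairZ (p : ℕ) [Fact p.Prime] :
    ↥(intLattice p 2) →ₗ[ℤ] (↥(heckeLatticeAlgebra p ∅) →ₗ[ℤ] ℤ) where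
  toFun f := (coeffZ p 1).comp
    ((LinearMap.applyₗ f).comp (heckeLatticeAlgebra p ∅).val.toLinearMap)
  map_add' f g := by
    ext t
    simp [map_add]
  map_smul' c f := by
    ext t
    simp [map_smul]

theorem pairZ_apply (f : ↥(intLattice p 2)) (t : ↥(heckeLatticeAlgebra p ∅)) :
    pairZ p f t = coeffZ p 1 ((t : Module.End ℤ ↥(intLattice p 2)) f) := rfl

theorem pairZ_phi (f : ↥(intLattice p 2)) (x : HeckeAlg) :
    ((pairZ p f (phi p x) : ℤ) : ℂ) = qCoeff (act p x f.1) 1 := by
  rw [pairZ_apply, coeffZ_spec]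
  rfl

theorem pairZ_injective : Function.Injective (pairZ p) := by
  refine (injective_iff_map_eq_zero _).mpr fun f hf ↦ ?_
  apply eq_zero_of_coeffZ
  intro n
  apply Int.cast_injective (α := ℂ)
  rw [coeffZ_spec, Int.cast_zero]
  rcases Nat.eq_zero_or_pos n with rfl | hn
  · exact qCoeff_zero_eq f.1
  obtain ⟨t, -, ht⟩ := exists_tau (p := p) n hn
  rw [← ht f.1, ← pairZ_phi, hf]
  simp

theorem pairZ_flip_injective : Function.Injective (pairZ p).flip := by
  refine (injective_iff_map_eq_zero _).mpr fun t ht ↦ ?_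
  apply Subtype.ext
  ext1 f
  rw [ZeroMemClass.coe_zero, LinearMap.zero_apply]
  apply pairZ_injective
  rw [map_zero]
  ext s
  rw [pairZ_apply, LinearMap.zero_apply]
  have h1 : pairZ p ((s : Module.End ℤ ↥(intLattice p 2)) f) t = 0 := LinearMap.congr_fun ht _
  rw [pairZ_apply] at h1
  have h2 : (t : Module.End ℤ ↥(intLattice p 2)) * s = s * t :=
    congrArg Subtype.val (mul_comm t s)
  rw [← Module.End.mul_apply, ← h2]
  exact h1

theorem exists_nsmul_mem_range {L T : Type} [AddCommGroup L] [AddCommGroup T]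
    [Module.Finite ℤ L] [Module.Free ℤ L] [Module.Finite ℤ T] [Module.Free ℤ T]
    (B : L →ₗ[ℤ] (T →ₗ[ℤ] ℤ)) (hB : Function.Injective B) (hB' : Function.Injective B.flip)
    (g : T →ₗ[ℤ] ℤ) : ∃ N : ℕ, N ≠ 0 ∧ ∃ f, B f = N • g := by
  have h1 : Module.finrank ℤ T ≤ Module.finrank ℤ L := by
    have := LinearMap.finrank_le_finrank_of_injective hB'
    rwa [Module.finrank_linearMap_self] at this
  have h2 : Module.finrank ℤ L ≤ Module.finrank ℤ T := by
    have := LinearMap.finrank_le_finrank_of_injective hB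
    rwa [Module.finrank_linearMap_self] at this
  have h3 : Module.finrank ℤ (LinearMap.range B) = Module.finrank ℤ (T →ₗ[ℤ] ℤ) := by
    rw [LinearMap.finrank_range_of_inj hB, Module.finrank_linearMap_self]
    exact le_antisymm h2 h1
  have := Submodule.finiteQuotientOfFreeOfRankEq (LinearMap.range B) h3
  refine ⟨Nat.card ((T →ₗ[ℤ] ℤ) ⧸ LinearMap.range B), Nat.card_ne_zero.2
    ⟨inferInstance, inferInstance⟩, ?_⟩
  have h5 : Nat.card ((T →ₗ[ℤ] ℤ) ⧸ LinearMap.range B) • (Submodule.Quotient.mk g :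
      (T →ₗ[ℤ] ℤ) ⧸ LinearMap.range B) = 0 :=
    card_nsmul_eq_zero'
  rw [← Submodule.Quotient.mk_smul, Submodule.Quotient.mk_eq_zero] at h5
  exact h5

theorem exists_form (g : ↥(heckeLatticeAlgebra p ∅) →ₗ[ℤ] ℤ) :
    ∃ f : ↥(intLattice p 2), ∀ (n : ℕ) (t : HeckeAlg),
      (∀ f : CuspForm (Gamma0 p) 2, qCoeff (act p t f) 1 = qCoeff f n) →
        qCoeff f.1 n = ((g (phi p t) : ℤ) : ℂ) := by
  have := intLattice.moduleFinite p
  have := intLattice.moduleFree p
  obtain ⟨N, hN0, f0, hf0⟩ := exists_nsmul_mem_range (pairZ p) pairZ_injective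
    pairZ_flip_injective g
  have key : ∀ (n : ℕ) (t : HeckeAlg),
      (∀ f : CuspForm (Gamma0 p) 2, qCoeff (act p t f) 1 = qCoeff f n) →
        qCoeff f0.1 n = (N : ℂ) * ((g (phi p t) : ℤ) : ℂ) := by
    intro n t ht
    rw [← ht f0.1, ← pairZ_phi, hf0]
    simp
  have hNC : (N : ℂ) ≠ 0 := Nat.cast_ne_zero.2 hN0
  have key2 : ∀ (n : ℕ) (t : HeckeAlg),
      (∀ f : CuspForm (Gamma0 p) 2, qCoeff (act p t f) 1 = qCoeff f n) →
        qCoeff (⇑((N : ℂ)⁻¹ • f0.1)) n = ((g (phi p t) : ℤ) : ℂ) := by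
    intro n t ht
    rw [Fermat.Agent.Hecke.qCoeff_smul, key n t ht]
    field_simp
  refine ⟨⟨(N : ℂ)⁻¹ • f0.1, ?_⟩, key2⟩
  rw [mem_intLattice_iff]
  intro n
  rcases Nat.eq_zero_or_pos n with rfl | hn
  · exact ⟨0, by rw [qCoeff_zero_eq]; simp⟩
  obtain ⟨t, -, ht⟩ := exists_tau (p := p) n hn
  exact ⟨_, key2 n t ht⟩

theorem exists_cong_form (m : ℤ) (hm : ∀ x : HeckeAlg, phi p x = 0 → m ∣ ev p x) :
    ∃ f ∈ intLattice p 2, Cong p 1 m f := by
  let q : ℤ →+* ℤ ⧸ Ideal.span {m} := Ideal.Quotient.mk (Ideal.span {m})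
  let psi : HeckeAlg →+* ℤ ⧸ Ideal.span {m} := q.comp (ev p).toRingHom
  have hpsi : RingHom.ker (phi p) ≤ RingHom.ker psi := by
    intro x hx
    rw [RingHom.mem_ker] at hx ⊢
    change Ideal.Quotient.mk _ (ev p x) = 0
    rw [Ideal.Quotient.eq_zero_iff_mem, Ideal.mem_span_singleton]
    exact hm x hx
  let psiT : ↥(heckeLatticeAlgebra p ∅) →+* ℤ ⧸ Ideal.span {m} :=
    RingHom.liftOfSurjective (phi p) phi_surjective ⟨psi, hpsi⟩
  have hpsiT : ∀ x, psiT (phi p x) = psi x := by
    intro x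
    exact RingHom.liftOfRightInverse_comp_apply _ _ _ _ x
  obtain ⟨g, hg⟩ := Module.projective_lifting_property
    (Submodule.mkQ (Ideal.span {m} : Submodule ℤ ℤ))
    (psiT.toAddMonoidHom.toIntLinearMap) (Submodule.mkQ_surjective _)
  obtain ⟨f, hf⟩ := exists_form g
  refine ⟨f.1, f.2, fun n => ?_⟩
  rcases Nat.eq_zero_or_pos n with rfl | hn
  · exact ⟨0, by rw [qCoeff_zero_eq, sig_zero]; simp⟩
  obtain ⟨t, ht1, ht⟩ := exists_tau (p := p) n hn
  have h1 : Ideal.Quotient.mk (Ideal.span {m}) (g (phi p t)) =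
      Ideal.Quotient.mk (Ideal.span {m}) (ev p t) := by
    have := LinearMap.congr_fun hg (phi p t)
    have h2 : psiT (phi p t) = Ideal.Quotient.mk (Ideal.span {m}) (ev p t) := hpsiT t
    exact this.trans h2
  rw [Ideal.Quotient.eq, Ideal.mem_span_singleton] at h1
  obtain ⟨k, hk⟩ := h1
  refine ⟨k, ?_⟩
  rw [hf n t ht]
  norm_cast
  rw [one_mul, ← ht1, ← hk]
  ring

/-- The algebraic reduction of the computation of the index of the Eisenstein ideal. -/
theorem card_quotient_eq (n : ℕ) (hn : 0 < n)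
    (H1 : ∃ f ∈ intLattice p 2, Cong p 1 n f)
    (H2 : ∀ m : ℤ, (∃ f ∈ intLattice p 2, Cong p 1 m f) → m ∣ n) :
    Nat.card (↥(heckeLatticeAlgebra p ∅) ⧸ Ideal.map (phi p) (eisensteinIdeal p)) = n := by
  have hp : p.Prime := Fact.out
  have : NeZero n := ⟨hn.ne'⟩
  let a : HeckeAlg →+* ZMod n := (Int.castRingHom (ZMod n)).comp (ev p).toRingHom
  let b : HeckeAlg →+* ↥(heckeLatticeAlgebra p ∅) ⧸ Ideal.map (phi p) (eisensteinIdeal p) :=
    (Ideal.Quotient.mk _).comp (phi p)
  have ha : Function.Surjective a := by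
    intro x
    obtain ⟨y, rfl⟩ := ZMod.intCast_surjective x
    refine ⟨MvPolynomial.C y, ?_⟩
    change ((ev p (MvPolynomial.C y) : ℤ) : ZMod n) = y
    unfold ev
    rw [MvPolynomial.aeval_C]
    rfl
  have hb : Function.Surjective b := Ideal.Quotient.mk_surjective.comp phi_surjective
  have hker_b : RingHom.ker b = eisensteinIdeal p ⊔ RingHom.ker (phi p) := by
    change RingHom.ker ((Ideal.Quotient.mk _).comp (phi p)) = _
    rw [← RingHom.comap_ker, Ideal.mk_ker, Ideal.comap_map_of_surjective _ phi_surjective]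
    rfl
  have hmem_a : ∀ x, x ∈ RingHom.ker a ↔ (n : ℤ) ∣ ev p x := by
    intro x
    rw [RingHom.mem_ker]
    exact ZMod.intCast_zmod_eq_zero_iff_dvd _ _
  have hker : RingHom.ker b = RingHom.ker a := by
    rw [hker_b]
    apply le_antisymm
    · apply sup_le
      · intro x hx
        rw [hmem_a]
        have : ev p x = 0 := hx
        rw [this]
        exact dvd_zero _
      · intro x hx
        rw [hmem_a]
        obtain ⟨f, hf, hc⟩ := H1
        obtain ⟨k, hk⟩ := Cong.act x hc 1
        have h0 : act p x f = 0 := by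
          rw [RingHom.mem_ker] at hx
          rw [← phi_apply_coe x ⟨f, hf⟩, hx]
          rfl
        rw [h0, sig_one hp] at hk
        have h1 : qCoeff (⇑(0 : CuspForm (Gamma0 p) 2)) 1 = 0 := map_zero (qCoeffLin p 2 1)
        rw [h1] at hk
        have h2 : 1 * ev p x * 1 + (n : ℤ) * k = 0 := by exact_mod_cast hk.symm
        exact ⟨-k, by linarith⟩
    · intro x hx
      rw [hmem_a] at hx
      -- the ideal of values on the kernel
      obtain ⟨m, hm⟩ : ∃ m : ℤ, Ideal.map (ev p).toRingHom (RingHom.ker (phi p)) =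
          Ideal.span {m} := (inferInstance : (Ideal.map (ev p).toRingHom
            (RingHom.ker (phi p))).IsPrincipal).principal
      have hsurj : Function.Surjective (ev p).toRingHom := by
        intro y
        refine ⟨MvPolynomial.C y, ?_⟩
        change ev p (MvPolynomial.C y) = y
        unfold ev
        rw [MvPolynomial.aeval_C]
        rfl
      have hmn : m ∣ n := by
        apply H2
        apply exists_cong_form
        intro y hy
        rw [← Ideal.mem_span_singleton, ← hm]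
        exact Ideal.mem_map_of_mem (ev p).toRingHom hy
      have hx2 : ev p x ∈ Ideal.map (ev p).toRingHom (RingHom.ker (phi p)) := by
        rw [hm, Ideal.mem_span_singleton]
        exact hmn.trans hx
      rw [Ideal.mem_map_iff_of_surjective _ hsurj] at hx2
      obtain ⟨y, hy, hxy⟩ := hx2
      have hxy' : ev p y = ev p x := hxy
      have : x = (x - y) + y := by ring
      rw [this]
      apply Submodule.add_mem_sup _ hy
      change ev p (x - y) = 0
      rw [map_sub, hxy', sub_self]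
  have e := (RingHom.quotientKerEquivOfSurjective hb).symm.trans
    ((Ideal.quotEquivOfEq hker).trans (RingHom.quotientKerEquivOfSurjective ha))
  rw [Nat.card_congr e.toEquiv, Nat.card_zmod]

end

end Fermat.Agent.Eis16
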