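import Fermat.Agent.Eis16.Theta4
import Fermat.Agent.Eis16.EisTwo
import Fermat.Agent.Eis16.LevelOne
import Fermat.Agent.Eis16.Algebra

set_option autoImplicit false

/-!
# The lower bound for the Eisenstein index
-/

open Complex Filter Topology Function
open UpperHalfPlane hiding I
open ModularGroup Matrix.SpecialLinearGroup CongruenceSubgroup ModularCurve CuspForm
open ModularFormClass
open scoped Manifold ModularForm MatrixGroups Real

namespace Fermat.Agent.Eis16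

noncomputable section

local notation "𝕢" => Function.Periodic.qParam
local notation "ΓGL" p => (Subgroup.map (Matrix.SpecialLinearGroup.mapGL ℝ) (Gamma0 p))

/-- Choice of the auxiliary prime. -/
theorem exists_aux_prime {p : ℕ} (hp : p.Prime) (hp2 : p ≠ 2) :
    ∃ r : ℕ, r.Prime ∧ r % 4 = 3 ∧ r ≠ p ∧ ¬ IsSquare (p : ZMod r) := by
  have : Fact p.Prime := ⟨hp⟩
  have hodd : p % 2 = 1 := hp.eq_two_or_odd.resolve_left hp2
  have hcop : Nat.Coprime 4 p := by
    rw [show (4 : ℕ) = 2 ^ 2 by norm_num]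
    exact (Nat.Coprime.pow_left 2 ((Nat.coprime_primes Nat.prime_two hp).2 (Ne.symm hp2)))
  have key : ∀ a : ℕ, Nat.Coprime a p → ∃ r : ℕ, r > p ∧ r.Prime ∧ r % 4 = 3 ∧
      (r : ZMod p) = a := by
    intro a ha
    obtain ⟨b, hb1, hb2⟩ := Nat.chineseRemainder hcop 3 a
    have hb4 : Nat.Coprime b 4 := by
      have h1 : Nat.gcd b 4 = Nat.gcd 3 4 := Nat.ModEq.gcd_eq hb1
      rw [Nat.Coprime, h1]
      norm_num
    have hbp : Nat.Coprime b p := by
      have h1 : Nat.gcd b p = Nat.gcd a p := Nat.ModEq.gcd_eq hb2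
      rw [Nat.Coprime, h1]
      exact ha
    obtain ⟨r, hr1, hr2, hr3⟩ := Nat.forall_exists_prime_gt_and_modEq p
      (q := 4 * p) (a := b) (by have := hp.pos; omega) (Nat.Coprime.mul_right hb4 hbp)
    refine ⟨r, hr1, hr2, ?_, ?_⟩
    · have h2 : r ≡ 3 [MOD 4] := (hr3.of_mul_right p).trans hb1
      exact h2
    · rw [ZMod.natCast_eq_natCast_iff]
      exact (hr3.of_mul_left 4).trans hb2
  have h13 : p % 4 = 1 ∨ p % 4 = 3 := by omega
  rcases h13 with h1 | h3
  · obtain ⟨x, hx⟩ : ∃ x : ZMod p, ¬ IsSquare x := by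
      have := FiniteField.exists_nonsquare (F := ZMod p) (by rwa [ZMod.ringChar_zmod_n])
      exact this
    have hx0 : x ≠ 0 := by
      rintro rfl
      exact hx ⟨0, by simp⟩
    obtain ⟨r, hr1, hr2, hr3, hr4⟩ := key x.val (by
      have := (ZMod.isUnit_iff_coprime x.val p).1 (by
        rw [ZMod.natCast_zmod_val]
        exact isUnit_iff_ne_zero.2 hx0)
      exact this)
    have : Fact r.Prime := ⟨hr2⟩
    refine ⟨r, hr2, hr3, by omega, ?_⟩
    rw [← ZMod.exists_sq_eq_prime_iff_of_mod_four_eq_one h1 (by rintro rfl; omega), hr4,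
      ZMod.natCast_zmod_val]
    exact hx
  · obtain ⟨r, hr1, hr2, hr3, hr4⟩ := key 1 (Nat.coprime_one_left p)
    have : Fact r.Prime := ⟨hr2⟩
    refine ⟨r, hr2, hr3, by omega, ?_⟩
    rw [← ZMod.exists_sq_eq_prime_iff_of_mod_four_eq_three h3 hr3 (by omega), hr4]
    exact ⟨1, by simp⟩

variable {p : ℕ} [Fact p.Prime]

/-- A weight two form on `Γ₀(p)` with constant term one and even higher coefficients. -/
theorem exists_theta_form (hp2 : p ≠ 2) : ∃ G : ℍ → ℂ,
    (∀ g ∈ Gamma0 p, G ∣[(2 : ℤ)] g = G) ∧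
    (∃ a : ℕ → ℕ, a 0 = 1 ∧ (∀ n, n ≠ 0 → Even (a n)) ∧
      HasQ 1 G (PowerSeries.mk fun n => (a n : ℂ))) ∧ ∃ B, HasQ p (G ∣[(2 : ℤ)] S) B := by
  obtain ⟨r, hr, h3, hrp, hsq⟩ := exists_aux_prime (Fact.out : p.Prime) hp2
  have : Fact r.Prime := ⟨hr⟩
  have hr2 : r ≠ 2 := by rintro rfl; omega
  have hP : chi (p : ZMod r) = -1 := by
    have := (quadraticChar_neg_one_iff_not_isSquare (F := ZMod r)).2 hsq
    rw [chi, this]
    simp
  have hp0 : (p : ZMod r) ≠ 0 := by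
    intro h
    rw [h] at hsq
    exact hsq ⟨0, by simp⟩
  obtain ⟨m, hm⟩ : IsSquare (-(p : ZMod r)) := by
    rw [← quadraticChar_one_iff_isSquare (neg_ne_zero.2 hp0)]
    have h1 := chi_mul (-1 : ZMod r) (p : ZMod r)
    rw [chi_neg_one h3, hP] at h1
    have h2 : chi (-(p : ZMod r)) = 1 := by
      rw [show -(p : ZMod r) = -1 * p by ring, h1]
      norm_num
    unfold chi at h2
    exact_mod_cast h2
  have hm0 : m ≠ 0 := by
    rintro rfl
    exact (neg_ne_zero.2 hp0) (by rw [hm]; ring)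
  have hl : (p : ZMod r) * m⁻¹ ^ 2 = -1 := by
    field_simp
    linear_combination -hm
  exact ⟨G0 r p m⁻¹, fun g hg => G0_slash h3 hP hl g hg, G0_coeffs h3 hl, hasQ_G0_S h3 hP hl⟩

theorem lower_bound (hp5 : 5 ≤ p) :
    ∃ f ∈ intLattice p 2, Cong p 1 (eisensteinNumerator p : ℤ) f := by
  have hp : p.Prime := Fact.out
  obtain ⟨G, hG, ⟨a, ha0, haev, hGA⟩, B, hGB⟩ := exists_theta_form (p := p) (by omega)
  set d := Nat.gcd (p - 1) 12 with hd
  have hd0 : 0 < d := Nat.gcd_pos_of_pos_right _ (by norm_num)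
  set n := eisensteinNumerator p with hn
  have hnd : n * d = p - 1 := Nat.div_mul_cancel (Nat.gcd_dvd_left _ _)
  obtain ⟨s, hs⟩ : d ∣ 12 := Nat.gcd_dvd_right _ _
  have hcop : Nat.Coprime s n := by
    have h1 : s = 12 / d := by rw [hs, Nat.mul_div_cancel_left _ hd0]
    have h2 : n = (p - 1) / d := rfl
    rw [h1, h2]
    exact (Nat.coprime_div_gcd_div_gcd hd0).symm
  -- `s (p - 1) = 12 n`
  have hspn : (s : ℂ) * ((p : ℂ) - 1) = 12 * n := by
    have h1 : s * (p - 1) = 12 * n := by rw [← hnd, hs]; ring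
    have h2 := congrArg (Nat.cast (R := ℂ)) h1
    rw [Nat.cast_mul, Nat.cast_sub (by omega)] at h2
    push_cast at h2
    exact h2
  set F : ℍ → ℂ := (s : ℂ) • eisTwo p - ((n : ℂ) / 2) • G with hF
  set A : PowerSeries ℂ := (s : ℂ) • eisSer p -
    ((n : ℂ) / 2) • (PowerSeries.mk fun k => (a k : ℂ)) with hA
  set B' : PowerSeries ℂ := (s : ℂ) • (-(p : ℂ)⁻¹ • eisSer p) - ((n : ℂ) / 2) • B with hB'
  have hFA : HasQ 1 F A := ((hasQ_eisTwo hp).smul _).sub (hGA.smul _)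
  have hFB : HasQ p (F ∣[(2 : ℤ)] S) B' := by
    have h1 : F ∣[(2 : ℤ)] S = (s : ℂ) • ((eisTwo p) ∣[(2 : ℤ)] S) -
        ((n : ℂ) / 2) • (G ∣[(2 : ℤ)] S) := by
      rw [hF, sub_eq_add_neg, SlashAction.add_slash, SlashAction.neg_slash,
        ModularForm.SL_smul_slash, ModularForm.SL_smul_slash, ← sub_eq_add_neg]
    rw [h1]
    exact ((hasQ_eisTwo_S hp).smul _).sub (hGB.smul _)
  have hinv : ∀ g ∈ Gamma0 p, F ∣[(2 : ℤ)] g = F := by
    intro g hg
    rw [hF, sub_eq_add_neg, SlashAction.add_slash, SlashAction.neg_slash,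
      ModularForm.SL_smul_slash, ModularForm.SL_smul_slash, eisTwo_slash g hg, hG g hg]
  have hA0 : A.coeff 0 = 0 := by
    rw [hA, map_sub, PowerSeries.coeff_smul, PowerSeries.coeff_smul, eisSer,
      PowerSeries.coeff_mk, PowerSeries.coeff_mk, ha0]
    simp only [if_true, smul_eq_mul]
    linear_combination (1 / 24 : ℂ) * hspn
  have hB0 : B'.coeff 0 = 0 := by
    let g : ModularForm (ΓGL p) 2 := mkForm 2 F hinv A B' hFA hFB
    have h1 : (ModularForm.trace 𝒮ℒ g : ModularForm 𝒮ℒ 2) = 0 := levelOne_two_eq_zero _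
    have h3 := trace_coeff (k := 2) g hFA hFB 0
    rw [h1, FunLike.coe_zero, qExpansion_zero, map_zero, hA0, mul_zero, zero_add] at h3
    rcases mul_eq_zero.1 h3.symm with h | h
    · exact absurd h (p_ne p)
    · exact h
  let f : CuspForm (Gamma0 p) 2 := mkCusp 2 F hinv A B' hFA hFB hA0 hB0
  have hfF : (f : ℍ → ℂ) = F := rfl
  have hq : ∀ k, k ≠ 0 → ∃ b : ℤ, qCoeff f k = ((s * sig p k + n * b : ℤ) : ℂ) := by
    intro k hk
    obtain ⟨b, hb⟩ := haev k hk
    refine ⟨-b, ?_⟩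
    have h1 : qCoeff f k = A.coeff k := by
      unfold ModularFormClass.qCoeff
      rw [hfF, hFA.qExpansion_eq one_pos]
    rw [h1, hA, map_sub, PowerSeries.coeff_smul, PowerSeries.coeff_smul, eisSer,
      PowerSeries.coeff_mk, PowerSeries.coeff_mk, if_neg hk, hb]
    simp only [smul_eq_mul]
    push_cast
    ring
  have hq0 : qCoeff f 0 = 0 := by
    have h1 : qCoeff f 0 = A.coeff 0 := by
      unfold ModularFormClass.qCoeff
      rw [hfF, hFA.qExpansion_eq one_pos]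
    rw [h1, hA0]
  obtain ⟨t, ht⟩ : ∃ t : ℤ, ∃ u : ℤ, t * s + u * n = 1 := by
    have := Nat.isCoprime_iff_coprime.2 hcop
    obtain ⟨t, u, htu⟩ := this
    exact ⟨t, u, htu⟩
  obtain ⟨u, hu⟩ := ht
  have hcong : Cong p 1 (n : ℤ) ((t : ℂ) • f) := by
    intro k
    have hsm : qCoeff (((t : ℂ) • f : CuspForm (Gamma0 p) 2) : ℍ → ℂ) k =
        (t : ℂ) * qCoeff f k := by
      unfold ModularFormClass.qCoeff
      have h1 : ((((t : ℂ) • f : CuspForm (Gamma0 p) 2)) : ℍ → ℂ) = (t : ℂ) • F := rfl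
      rw [h1, (hFA.smul (t : ℂ)).qExpansion_eq one_pos, hfF, hFA.qExpansion_eq one_pos,
        PowerSeries.coeff_smul, smul_eq_mul]
    rw [hsm]
    by_cases hk : k = 0
    · subst hk
      refine ⟨0, ?_⟩
      rw [hq0, sig_zero]
      simp
    · obtain ⟨b, hb⟩ := hq k hk
      refine ⟨t * b - u * sig p k, ?_⟩
      rw [hb]
      have h1 := congrArg (Int.cast (R := ℂ)) hu
      push_cast at h1 ⊢
      linear_combination ((sig p k : ℤ) : ℂ) * h1
  refine ⟨(t : ℂ) • f, ?_, hcong⟩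
  rw [Hecke.mem_intLattice_iff]
  intro k
  obtain ⟨b, hb⟩ := hcong k
  exact ⟨_, hb⟩

/-- There are no nonzero cusp forms of weight two for `p = 2, 3`. -/
theorem cusp_eq_zero_of_le (hp3 : p ≤ 3) (f : CuspForm (ΓGL p) 2) : (f : ℍ → ℂ) = 0 := by
  have hp : p.Prime := Fact.out
  rw [← ModularForm.norm_eq_zero_iff 𝒮ℒ]
  set G := ModularForm.norm 𝒮ℒ f with hG
  have hk : ((2 : ℤ) * (Nat.card (𝒮ℒ ⧸ ((ΓGL p).subgroupOf 𝒮ℒ)) : ℕ)) = ((2 * (p + 1) : ℕ) : ℤ) := by
    rw [natCard_quotient hp]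
    push_cast
    ring
  have hG1 : HasQ 1 G (qExpansion 1 G) :=
    HasQ.of_modularForm G one_pos one_mem_strictPeriods_SL
  have hlim : Tendsto (G : ℍ → ℂ) atImInfty (𝓝 0) := by
    rw [hG, coe_norm_eq]
    have h1 : Tendsto (f : ℍ → ℂ) atImInfty (𝓝 0) := CuspFormClass.zero_at_infty f
    have h2 : ∀ j : Fin p, Tendsto ((f : ℍ → ℂ) ∣[(2 : ℤ)] (S * T ^ ((j : ℕ) : ℤ) : SL(2, ℤ)))
        atImInfty (𝓝 0) := fun j => CuspFormClass.zero_at_infty_slash f _
    have h3 : Tendsto (fun τ => (f : ℍ → ℂ) τ *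
        ∏ j : Fin p, ((f : ℍ → ℂ) ∣[(2 : ℤ)] (S * T ^ ((j : ℕ) : ℤ) : SL(2, ℤ))) τ) atImInfty
        (𝓝 (0 * ∏ j : Fin p, (0 : ℂ))) :=
      h1.mul (tendsto_finsetProd _ fun j _ => h2 j)
    rw [zero_mul] at h3
    convert h3 using 2 with τ
    simp
  have hG0 : (qExpansion 1 G).coeff 0 = 0 :=
    tendsto_nhds_unique (hG1.tendsto one_pos) hlim
  have h4 := sturm_addSubgroup ⊥ (2 * (p + 1)) (ModularForm.mcast hk G) (by
    intro n hn
    have : n = 0 := by
      have := hp.two_le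
      omega
    subst this
    rw [AddSubgroup.mem_bot]
    exact hG0)
  have h5 : qExpansion 1 G = 0 := by
    ext n
    have := h4 n
    rw [AddSubgroup.mem_bot] at this
    exact this
  rw [h5] at hG1
  have h6 := hG1.ext (HasQ.zero 1)
  exact DFunLike.coe_injective h6

end

end Fermat.Agent.Eis16
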