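import Mathlib
import Fermat.Agent.Eis16.Forms
import Fermat.Agent.Eis16.LevelOne

set_option autoImplicit false

/-!
# The trace from `Γ₀(p)` to level one on `q`-expansions
-/

open Matrix.SpecialLinearGroup CongruenceSubgroup ModularGroup
open scoped MatrixGroups ModularForm Manifold
open UpperHalfPlane hiding I
open Complex (I)

namespace Fermat.Agent.Eis16

noncomputable section

local notation "𝕢" => Function.Periodic.qParam
local notation "ΓGL" p => (Subgroup.map (Matrix.SpecialLinearGroup.mapGL ℝ) (Gamma0 p))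

variable {p : ℕ} [Fact p.Prime] {k : ℤ}

instance : NeZero p := ⟨(Fact.out : p.Prime).ne_zero⟩

theorem p_pos : (0 : ℝ) < p := Nat.cast_pos.2 (Fact.out : p.Prime).pos

section

variable {F : Type*} [FunLike F ℍ ℂ]

omit [Fact p.Prime] in
theorem slash_mem [SlashInvariantFormClass F (ΓGL p) k] (f : F) (g : SL(2, ℤ))
    (hg : g ∈ Gamma0 p) : (f : ℍ → ℂ) ∣[k] g = f := by
  have := SlashInvariantFormClass.slash_action_eq f (mapGL ℝ g) ⟨g, hg, rfl⟩
  exact this

omit [Fact p.Prime] in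
theorem S_T_inv_mem : S * T ^ (p : ℤ) * S⁻¹ ∈ Gamma0 p := by
  rw [mem_Gamma0_iff]
  have : (S * T ^ (p : ℤ) * S⁻¹ : SL(2, ℤ)) 1 0 = -p := by
    rw [coe_mul, coe_ST, Matrix.SpecialLinearGroup.coe_inv, coe_S]
    simp [Matrix.mul_apply, Fin.sum_univ_two, Matrix.adjugate_fin_two]
  rw [this]
  simp

theorem slash_S_T [SlashInvariantFormClass F (ΓGL p) k] (f : F) :
    ((f : ℍ → ℂ) ∣[k] S) ∣[k] (T ^ (p : ℤ)) = (f : ℍ → ℂ) ∣[k] S := by
  rw [← SlashAction.slash_mul]
  have : (S * T ^ (p : ℤ) : SL(2, ℤ)) = (S * T ^ (p : ℤ) * S⁻¹) * S := by group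
  rw [this, SlashAction.slash_mul, slash_mem f _ S_T_inv_mem]

theorem periodic_of_translate {f : ℍ → ℂ} {n : ℤ}
    (h : ∀ τ : ℍ, f ((T ^ n : SL(2, ℤ)) • τ) = f τ) :
    Function.Periodic (f ∘ ofComplex) (n : ℝ) := by
  intro z
  by_cases! hz : 0 < z.im
  · have hz' : 0 < (z + ((n : ℝ) : ℂ)).im := by simpa using hz
    rw [Function.comp_apply, Function.comp_apply, UpperHalfPlane.ofComplex_apply_of_im_pos hz,
      UpperHalfPlane.ofComplex_apply_of_im_pos hz', ← h ⟨z, hz⟩]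
    congr 1
    ext
    rw [coe_T_zpow_smul_eq]
    simp
  · have hz' : (z + ((n : ℝ) : ℂ)).im ≤ 0 := by simpa using hz
    rw [Function.comp_apply, Function.comp_apply, UpperHalfPlane.ofComplex_apply_of_im_nonpos hz,
      UpperHalfPlane.ofComplex_apply_of_im_nonpos hz']

theorem hasQ_slash_S [ModularFormClass F (ΓGL p) k] (f : F) :
    HasQ p ((f : ℍ → ℂ) ∣[k] S) (qExpansion p ((f : ℍ → ℂ) ∣[k] S)) := by
  apply HasQ.of_periodic p_pos
  · have := periodic_of_translate (f := (f : ℍ → ℂ) ∣[k] S) (n := (p : ℤ)) ?_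
    · simpa using this
    · intro τ
      have h := congrFun (slash_S_T (k := k) f) τ
      rw [Fermat.Agent.Eis16.slash_T] at h
      exact h
  · exact (ModularForm.translate f (mapGL ℝ S)).holo'
  · exact ModularFormClass.bdd_at_infty_slash f S

omit [Fact p.Prime] in
theorem one_mem_periods : (1 : ℝ) ∈ (ΓGL p).strictPeriods := by
  simp

theorem hasQ_self [ModularFormClass F (ΓGL p) k] (f : F) :
    HasQ 1 (f : ℍ → ℂ) (qExpansion 1 f) :=
  HasQ.of_modularForm f one_pos one_mem_periods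

theorem qExpansion_slash_S_coeff_zero [CuspFormClass F (ΓGL p) k] (f : F) :
    (qExpansion p ((f : ℍ → ℂ) ∣[k] S)).coeff 0 = 0 := by
  have h1 := (hasQ_slash_S (k := k) f).tendsto p_pos
  have h2 : IsZeroAtImInfty ((f : ℍ → ℂ) ∣[k] S) := CuspFormClass.zero_at_infty_slash f S
  exact tendsto_nhds_unique h1 h2

theorem zeta_pow (j : ℕ) (n : ℕ) :
    Complex.exp (2 * Real.pi * I * ((j : ℤ) : ℂ) / ((p : ℝ) : ℂ)) ^ (p * n) = 1 := by
  rw [← Complex.exp_nat_mul]
  rw [Complex.exp_eq_one_iff]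
  refine ⟨j * n, ?_⟩
  have := p_ne p
  push_cast
  field_simp

theorem trace_coeff [ModularFormClass F (ΓGL p) k] (f : F) {A B : PowerSeries ℂ}
    (hA : HasQ 1 (f : ℍ → ℂ) A) (hB : HasQ p ((f : ℍ → ℂ) ∣[k] S) B) (n : ℕ) :
    (qExpansion 1 (ModularForm.trace 𝒮ℒ f : ModularForm 𝒮ℒ k)).coeff n =
      A.coeff n + p * B.coeff (p * n) := by
  set G : ModularForm 𝒮ℒ k := ModularForm.trace 𝒮ℒ f with hG
  have h1 : HasQ 1 G (qExpansion 1 G) :=
    HasQ.of_modularForm G one_pos one_mem_strictPeriods_SL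
  have h2 := HasQ.width p h1
  have h3 : HasQ p G (A.expand p (NeZero.ne p) + ∑ j : Fin p,
      PowerSeries.rescale (Complex.exp (2 * Real.pi * I * (((j : ℕ) : ℤ) : ℂ) / ((p : ℝ) : ℂ))) B) := by
    rw [hG, coe_trace_eq]
    apply (HasQ.width p hA).add
    apply HasQ.finset_sum
    intro j _
    rw [SlashAction.slash_mul]
    exact hB.slash_T _
  have h4 := h2.unique p_pos h3
  have h5 := congrArg (PowerSeries.coeff (p * n)) h4
  rw [map_add, map_sum, PowerSeries.coeff_expand_mul, PowerSeries.coeff_expand_mul] at h5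
  rw [h5]
  congr 1
  have h6 : ∀ j : Fin p, (PowerSeries.coeff (p * n)) (PowerSeries.rescale
      (Complex.exp (2 * Real.pi * I * (((j : ℕ) : ℤ) : ℂ) / ((p : ℝ) : ℂ))) B) =
      B.coeff (p * n) := by
    intro j
    rw [PowerSeries.coeff_rescale, zeta_pow, one_mul]
  rw [Finset.sum_congr rfl fun j _ => h6 j]
  simp

end

/-- The Atkin-Lehner transform of a function with expansions. -/
theorem hasQ_atkin {f : ℍ → ℂ} {B : PowerSeries ℂ} (hB : HasQ p (f ∣[k] S) B) :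
    HasQ 1 (atkin p k f) B := by
  have := hB.comp_rescale (h' := 1) (u := up p) 1 (fun τ => by
    simp only [Function.Periodic.qParam, coe_up, one_mul]
    congr 1
    have := p_ne p
    push_cast
    field_simp)
  rwa [PowerSeries.rescale_one] at this

theorem hasQ_atkin_S {f : ℍ → ℂ} (hinv : ∀ g ∈ Gamma0 p, f ∣[k] g = f) {A : PowerSeries ℂ}
    (hA : HasQ 1 f A) : HasQ p ((atkin p k f) ∣[k] S) ((p : ℂ) ^ (-k) • A) := by
  rw [atkin_slash_S hinv]
  exact (HasQ.dn p hA).smul _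

/-- The expansion of a weight two cusp form at the cusp `0`. -/
theorem cusp_expansion_at_zero (f : CuspForm (ΓGL p) 2) :
    HasQ p ((f : ℍ → ℂ) ∣[(2 : ℤ)] S)
      (PowerSeries.mk fun n => -(p : ℂ)⁻¹ * (qExpansion 1 f).coeff (p * n)) := by
  have hA := hasQ_self (k := 2) f
  have hB := hasQ_slash_S (k := 2) f
  have hB0 := qExpansion_slash_S_coeff_zero (k := 2) f
  have hA0 : (qExpansion 1 f).coeff 0 = 0 :=
    CuspFormClass.qExpansion_coeff_zero f one_pos one_mem_periods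
  set B := qExpansion p ((f : ℍ → ℂ) ∣[(2 : ℤ)] S) with hBdef
  have hinv : ∀ g ∈ Gamma0 p, (f : ℍ → ℂ) ∣[(2 : ℤ)] g = f := fun g hg => slash_mem f g hg
  let g : ModularForm (ΓGL p) 2 := mkForm 2 (atkin p 2 f) (atkin_slash hinv) B _
    (hasQ_atkin hB) (hasQ_atkin_S hinv hA)
  have h1 : (ModularForm.trace 𝒮ℒ g : ModularForm 𝒮ℒ 2) = 0 := levelOne_two_eq_zero _
  have h2 : ∀ n, B.coeff n = -(p : ℂ)⁻¹ * (qExpansion 1 f).coeff (p * n) := by
    intro n
    have h3 := trace_coeff (k := 2) g (hasQ_atkin hB) (hasQ_atkin_S hinv hA) n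
    rw [h1, FunLike.coe_zero, qExpansion_zero, map_zero, PowerSeries.coeff_smul] at h3
    have h4 : (p : ℂ) ^ (-2 : ℤ) = (p : ℂ)⁻¹ * (p : ℂ)⁻¹ := by
      rw [zpow_neg, show (2 : ℤ) = ((2 : ℕ) : ℤ) from rfl, zpow_natCast, pow_two, mul_inv]
    rw [h4, smul_eq_mul] at h3
    have h5 := p_ne p
    have h6 : (p : ℂ) * ((p : ℂ)⁻¹ * (p : ℂ)⁻¹ * (qExpansion 1 f).coeff (p * n)) =
        (p : ℂ)⁻¹ * (qExpansion 1 f).coeff (p * n) := by
      field_simp
    rw [h6] at h3
    linear_combination -h3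
  have h7 : B = PowerSeries.mk fun n => -(p : ℂ)⁻¹ * (qExpansion 1 f).coeff (p * n) := by
    ext n
    rw [h2, PowerSeries.coeff_mk]
  rw [← h7]
  exact hB

end

end Fermat.Agent.Eis16
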