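import Mathlib
import Fermat.Agent.Eis16.Trace

set_option autoImplicit false

/-!
# Reduction of expansions at a place of `ℂ` and the norm argument
-/

open Matrix.SpecialLinearGroup CongruenceSubgroup ModularGroup
open scoped MatrixGroups ModularForm Manifold
open UpperHalfPlane hiding I
open Complex (I)

namespace Fermat.Agent.Eis16

noncomputable section

local notation "ΓGL" p => (Subgroup.map (Matrix.SpecialLinearGroup.mapGL ℝ) (Gamma0 p))

/-- The power series `A` has coefficients in `V` with reduction `φ`. -/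
def Red (V : ValuationSubring ℂ) (A : PowerSeries ℂ)
    (φ : PowerSeries (IsLocalRing.ResidueField V)) : Prop :=
  ∃ B : PowerSeries V, B.map V.subtype = A ∧ B.map (IsLocalRing.residue V) = φ

namespace Red

variable {V : ValuationSubring ℂ} {A B : PowerSeries ℂ}
  {φ ψ : PowerSeries (IsLocalRing.ResidueField V)}

theorem add (hA : Red V A φ) (hB : Red V B ψ) : Red V (A + B) (φ + ψ) := by
  obtain ⟨A', rfl, rfl⟩ := hA
  obtain ⟨B', rfl, rfl⟩ := hB
  exact ⟨A' + B', by rw [map_add], by rw [map_add]⟩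

theorem sub (hA : Red V A φ) (hB : Red V B ψ) : Red V (A - B) (φ - ψ) := by
  obtain ⟨A', rfl, rfl⟩ := hA
  obtain ⟨B', rfl, rfl⟩ := hB
  exact ⟨A' - B', by rw [map_sub], by rw [map_sub]⟩

theorem mul (hA : Red V A φ) (hB : Red V B ψ) : Red V (A * B) (φ * ψ) := by
  obtain ⟨A', rfl, rfl⟩ := hA
  obtain ⟨B', rfl, rfl⟩ := hB
  exact ⟨A' * B', by rw [map_mul], by rw [map_mul]⟩

theorem finset_prod {ι : Type*} (s : Finset ι) {A : ι → PowerSeries ℂ}
    {φ : ι → PowerSeries (IsLocalRing.ResidueField V)}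
    (h : ∀ i ∈ s, Red V (A i) (φ i)) : Red V (∏ i ∈ s, A i) (∏ i ∈ s, φ i) := by
  classical
  induction s using Finset.induction_on with
  | empty => exact ⟨1, by simp, by simp⟩
  | insert i s hi ih =>
    rw [Finset.prod_insert hi, Finset.prod_insert hi]
    exact (h i (Finset.mem_insert_self i s)).mul
      (ih fun j hj => h j (Finset.mem_insert_of_mem hj))

theorem toC (Z : PowerSeries ℤ) :
    Red V (toC Z) (Z.map (Int.castRingHom (IsLocalRing.ResidueField V))) := by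
  refine ⟨Z.map (Int.castRingHom V), ?_, ?_⟩
  · ext n
    simp
  · ext n
    simp

theorem expand (hA : Red V A φ) (p : ℕ) (hp : p ≠ 0) :
    Red V (A.expand p hp) (φ.expand p hp) := by
  obtain ⟨A', rfl, rfl⟩ := hA
  exact ⟨A'.expand p hp, by rw [PowerSeries.map_expand], by rw [PowerSeries.map_expand]⟩

theorem smul (v : V) (hA : Red V A φ) :
    Red V ((v : ℂ) • A) (IsLocalRing.residue V v • φ) := by
  obtain ⟨A', rfl, rfl⟩ := hA
  refine ⟨v • A', ?_, ?_⟩
  · ext n
    simp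
  · ext n
    simp

theorem smul_zero (v : V) (hv : v ∈ IsLocalRing.maximalIdeal V) (hA : Red V A φ) :
    Red V ((v : ℂ) • A) 0 := by
  have := hA.smul v
  rwa [(IsLocalRing.residue_eq_zero_iff v).2 hv, zero_smul] at this

theorem coeff_mem (hA : Red V A φ) (n : ℕ) (h : φ.coeff n = 0) :
    ∃ v : V, v ∈ IsLocalRing.maximalIdeal V ∧ (v : ℂ) = A.coeff n := by
  obtain ⟨A', rfl, rfl⟩ := hA
  refine ⟨A'.coeff n, ?_, by simp⟩
  rw [PowerSeries.coeff_map] at h
  exact (IsLocalRing.residue_eq_zero_iff _).1 h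

theorem coeff_eq_zero (hA : Red V A φ) (n : ℕ)
    (h : ∃ v : V, v ∈ IsLocalRing.maximalIdeal V ∧ (v : ℂ) = A.coeff n) : φ.coeff n = 0 := by
  obtain ⟨A', rfl, rfl⟩ := hA
  obtain ⟨v, hv, hv'⟩ := h
  rw [PowerSeries.coeff_map] at hv' ⊢
  have : v = A'.coeff n := Subtype.ext hv'
  rw [← this]
  exact (IsLocalRing.residue_eq_zero_iff _).2 hv

theorem rescale_expand {p : ℕ} (hp : p ≠ 0) (hA : Red V A (φ.expand p hp)) (z : ℂ)
    (hz : z ^ p = 1) : Red V (PowerSeries.rescale z A) (φ.expand p hp) := by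
  have hzV : z ∈ V := by
    rcases V.mem_or_inv_mem z with h | h
    · exact h
    · have h1 : z = (z⁻¹) ^ (p - 1) := by
        have hz0 : z ≠ 0 := by
          rintro rfl
          rw [zero_pow hp] at hz
          exact zero_ne_one hz
        have h2 : z ^ (p - 1) * z = 1 := by
          rw [← pow_succ, Nat.sub_add_cancel (Nat.one_le_iff_ne_zero.2 hp), hz]
        rw [inv_pow]
        exact eq_inv_of_mul_eq_one_right h2
      rw [h1]
      exact pow_mem h _
  obtain ⟨A', rfl, hA'⟩ := hA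
  refine ⟨PowerSeries.rescale (⟨z, hzV⟩ : V) A', ?_, ?_⟩
  · ext n
    simp [PowerSeries.coeff_rescale]
  · have hz' : (⟨z, hzV⟩ : V) ^ p = 1 := Subtype.ext (by simpa using hz)
    rw [← hA']
    ext n
    rw [PowerSeries.coeff_map, PowerSeries.coeff_rescale, map_mul, map_pow,
      PowerSeries.coeff_map]
    by_cases hn : p ∣ n
    · obtain ⟨m, rfl⟩ := hn
      have h3 : (IsLocalRing.residue V (⟨z, hzV⟩ : V)) ^ p = 1 := by
        rw [← map_pow, hz', map_one]
      rw [pow_mul, h3, one_pow, one_mul]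
    · have h3 : (PowerSeries.map (IsLocalRing.residue V) A').coeff n = 0 := by
        rw [hA', PowerSeries.coeff_expand_of_not_dvd p hp _ hn]
      rw [PowerSeries.coeff_map] at h3
      rw [h3, mul_zero]

end Red

/-- The maximal ideal of `V` as an additive subgroup of `ℂ`. -/
def maxSub (V : ValuationSubring ℂ) : AddSubgroup ℂ where
  carrier := {x | ∃ v : V, v ∈ IsLocalRing.maximalIdeal V ∧ (v : ℂ) = x}
  zero_mem' := ⟨0, zero_mem _, by simp⟩
  add_mem' := by
    rintro _ _ ⟨a, ha, rfl⟩ ⟨b, hb, rfl⟩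
    exact ⟨a + b, add_mem ha hb, by simp⟩
  neg_mem' := by
    rintro _ ⟨a, ha, rfl⟩
    exact ⟨-a, neg_mem ha, by simp⟩

theorem mem_maxSub {V : ValuationSubring ℂ} {x : ℂ} :
    x ∈ maxSub V ↔ ∃ v : V, v ∈ IsLocalRing.maximalIdeal V ∧ (v : ℂ) = x := Iff.rfl

variable {p : ℕ} [Fact p.Prime]

/-- The norm argument. -/
theorem norm_lemma (V : ValuationSubring ℂ) (k : ℕ) (hk : k < 12)
    (P : ModularForm (ΓGL p) (k : ℤ)) {A B : PowerSeries ℂ} (hA : HasQ 1 P A)
    (hB : HasQ p ((P : ℍ → ℂ) ∣[(k : ℤ)] S) B)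
    (Φ : PowerSeries (IsLocalRing.ResidueField V)) (hΦ0 : Φ.coeff 0 = 0)
    (hAr : Red V A Φ) (hBr : Red V B (Φ.expand p (NeZero.ne p))) : Φ = 0 := by
  have hp : p.Prime := Fact.out
  have hcard := natCard_quotient hp
  let N0 : ModularForm 𝒮ℒ ((k : ℤ) * Nat.card (𝒮ℒ ⧸ ((ΓGL p).subgroupOf 𝒮ℒ))) :=
    ModularForm.norm 𝒮ℒ P
  have hw : ((k : ℤ) * Nat.card (𝒮ℒ ⧸ ((ΓGL p).subgroupOf 𝒮ℒ))) = ((k * (p + 1) : ℕ) : ℤ) := by
    rw [hcard]
    push_cast
    ring
  let N : ModularForm 𝒮ℒ ((k * (p + 1) : ℕ) : ℤ) := ModularForm.mcast hw N0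
  have hN : HasQ 1 N (qExpansion 1 N) :=
    HasQ.of_modularForm N one_pos one_mem_strictPeriods_SL
  set C := qExpansion 1 N with hC
  let ζ : ℕ → ℂ := fun j => Complex.exp (2 * Real.pi * I * ((j : ℤ) : ℂ) / ((p : ℝ) : ℂ))
  have hζ : ∀ j, ζ j ^ p = 1 := by
    intro j
    have := zeta_pow (p := p) j 1
    rwa [mul_one] at this
  have h2 : HasQ p N (A.expand p (NeZero.ne p) *
      ∏ j : Fin p, PowerSeries.rescale (ζ j) B) := by
    have h3 : (N : ℍ → ℂ) = (P : ℍ → ℂ) *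
        ∏ j : Fin p, (P : ℍ → ℂ) ∣[(k : ℤ)] (S * T ^ ((j : ℕ) : ℤ)) := coe_norm_eq P
    rw [h3]
    apply (HasQ.width p hA).mul
    apply HasQ.finset_prod
    intro j _
    rw [SlashAction.slash_mul]
    exact hB.slash_T _
  have h4 := (HasQ.width p hN).unique p_pos h2
  have h5 : Red V (C.expand p (NeZero.ne p)) ((Φ ^ (p + 1)).expand p (NeZero.ne p)) := by
    rw [h4]
    have h6 : (Φ ^ (p + 1)).expand p (NeZero.ne p) = Φ.expand p (NeZero.ne p) *
        ∏ j : Fin p, Φ.expand p (NeZero.ne p) := by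
      rw [map_pow, Finset.prod_const, Finset.card_univ, Fintype.card_fin, pow_succ, mul_comm]
    rw [h6]
    apply (hAr.expand p (NeZero.ne p)).mul
    apply Red.finset_prod
    intro j _
    exact hBr.rescale_expand _ _ (hζ j)
  have h7 : ∀ n, (Φ ^ (p + 1)).coeff n = 0 ↔ C.coeff n ∈ maxSub V := by
    intro n
    rw [mem_maxSub]
    have e1 : (C.expand p (NeZero.ne p)).coeff (p * n) = C.coeff n :=
      PowerSeries.coeff_expand_mul _ _ _ _
    have e2 : ((Φ ^ (p + 1)).expand p (NeZero.ne p)).coeff (p * n) = (Φ ^ (p + 1)).coeff n :=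
      PowerSeries.coeff_expand_mul _ _ _ _
    constructor
    · intro h
      have := h5.coeff_mem (p * n) (by rw [e2, h])
      rwa [e1] at this
    · intro h
      rw [← e2]
      apply h5.coeff_eq_zero
      rwa [e1]
  have h8 : ∀ n ≤ k * (p + 1) / 12, C.coeff n ∈ maxSub V := by
    intro n hn
    rw [← h7]
    have hX : (PowerSeries.X : PowerSeries (IsLocalRing.ResidueField V)) ∣ Φ := by
      rw [PowerSeries.X_dvd_iff]
      rwa [PowerSeries.coeff_zero_eq_constantCoeff_apply] at hΦ0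
    have hX2 := pow_dvd_pow_of_dvd hX (p + 1)
    rw [PowerSeries.X_pow_dvd_iff] at hX2
    apply hX2
    have : k * (p + 1) / 12 < p + 1 := by
      rw [Nat.div_lt_iff_lt_mul (by norm_num)]
      nlinarith
    omega
  have h9 := sturm_addSubgroup (maxSub V) (k * (p + 1)) N h8
  have h10 : Φ ^ (p + 1) = 0 := by
    ext n
    rw [map_zero]
    exact (h7 n).2 (h9 n)
  exact pow_eq_zero_iff (Nat.succ_ne_zero p) |>.1 h10

/-- Existence of a place above a prime. -/
theorem exists_valuationSubring {l : ℕ} (hl : l.Prime) :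
    ∃ V : ValuationSubring ℂ, ((l : ℕ) : V) ∈ IsLocalRing.maximalIdeal V := by
  let A : Subring ℂ := ⊥
  let I0 : Ideal A := Ideal.span {((l : ℕ) : A)}
  have hI : I0 ≠ ⊤ := by
    intro h
    rw [Ideal.span_singleton_eq_top, isUnit_iff_exists_inv] at h
    obtain ⟨⟨x, hx⟩, hx2⟩ := h
    obtain ⟨n, rfl⟩ := Subring.mem_bot.1 hx
    have h3 : ((l : ℕ) : ℂ) * (n : ℂ) = 1 := congrArg Subtype.val hx2
    have h4 : (l : ℤ) * n = 1 := by exact_mod_cast h3
    have h5 := Int.isUnit_iff.1 (IsUnit.of_mul_eq_one _ h4)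
    have := hl.two_le
    omega
  obtain ⟨V, -, hV⟩ := Ideal.image_subset_nonunits_valuationSubring I0 hI
  refine ⟨V, ?_⟩
  have h1 : ((l : ℕ) : ℂ) ∈ V.nonunits := hV ⟨((l : ℕ) : A), Ideal.subset_span rfl, by simp⟩
  rw [ValuationSubring.mem_nonunits_iff] at h1
  rw [ValuationSubring.valuation_lt_one_iff]
  simpa using h1

theorem charP_residue {l : ℕ} (hl : l.Prime) {V : ValuationSubring ℂ}
    (hV : ((l : ℕ) : V) ∈ IsLocalRing.maximalIdeal V) :
    CharP (IsLocalRing.ResidueField V) l := by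
  have h1 : ((l : ℕ) : IsLocalRing.ResidueField V) = 0 := by
    have := (IsLocalRing.residue_eq_zero_iff _).2 hV
    rwa [map_natCast] at this
  obtain ⟨q, hq⟩ := CharP.exists (IsLocalRing.ResidueField V)
  have h2 : q ∣ l := (CharP.cast_eq_zero_iff (IsLocalRing.ResidueField V) q l).1 h1
  rcases (Nat.dvd_prime hl).1 h2 with h | h
  · exfalso
    subst h
    exact CharP.char_ne_one (IsLocalRing.ResidueField V) 1 rfl
  · rwa [← h]

theorem int_eq_zero_iff {l : ℕ} (hl : l.Prime) {V : ValuationSubring ℂ}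
    (hV : ((l : ℕ) : V) ∈ IsLocalRing.maximalIdeal V) (n : ℤ) :
    ((n : ℤ) : IsLocalRing.ResidueField V) = 0 ↔ (l : ℤ) ∣ n := by
  have := charP_residue hl hV
  exact CharP.intCast_eq_zero_iff (IsLocalRing.ResidueField V) l n

theorem inv_mem_of_not_dvd {l : ℕ} (hl : l.Prime) {V : ValuationSubring ℂ}
    (hV : ((l : ℕ) : V) ∈ IsLocalRing.maximalIdeal V) (n : ℤ) (hn : ¬ (l : ℤ) ∣ n) :
    ((n : ℂ))⁻¹ ∈ V := by
  have h1 : IsLocalRing.residue V ((n : ℤ) : V) ≠ 0 := by
    rw [map_intCast]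
    rwa [Ne, int_eq_zero_iff hl hV]
  rw [Ne, IsLocalRing.residue_eq_zero_iff, IsLocalRing.mem_maximalIdeal, mem_nonunits_iff,
    not_not] at h1
  obtain ⟨w, hw⟩ := isUnit_iff_exists_inv.1 h1
  have h2 : (n : ℂ) * (w : ℂ) = 1 := by
    have := congrArg Subtype.val hw
    simpa using this
  rw [← eq_inv_of_mul_eq_one_right h2]
  exact w.2

end

end Fermat.Agent.Eis16
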