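import Mathlib

set_option autoImplicit false

/-!
# The Weil representation matrices modulo an odd prime
-/

open Finset

namespace Fermat.Agent.Eis16

noncomputable section

variable {r : ℕ} [Fact r.Prime]

/-- The standard additive character of `ZMod r`. -/
def psi (x : ZMod r) : ℂ := ZMod.stdAddChar x

/-- The quadratic character of `ZMod r`. -/
def chi (x : ZMod r) : ℂ := ((quadraticChar (ZMod r) x : ℤ) : ℂ)

/-- The quadratic Gauss sum. -/
def gs (r : ℕ) [Fact r.Prime] : ℂ := ∑ k : ZMod r, psi (k ^ 2)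

theorem psi_add (x y : ZMod r) : psi (x + y) = psi x * psi y := AddChar.map_add_eq_mul _ _ _

theorem psi_zero : psi (0 : ZMod r) = 1 := AddChar.map_zero_eq_one _

theorem psi_neg (x : ZMod r) : psi (-x) = (psi x)⁻¹ := AddChar.map_neg_eq_inv _ _

theorem chi_mul (x y : ZMod r) : chi (x * y) = chi x * chi y := by
  simp [chi, map_mul]

theorem chi_one : chi (1 : ZMod r) = 1 := by simp [chi]

theorem chi_sq {x : ZMod r} (hx : x ≠ 0) : chi x * chi x = 1 := by
  have := quadraticChar_sq_one hx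
  rw [← chi_mul, chi, ← pow_two, map_pow, this]
  simp

theorem chi_mul_self {x : ZMod r} (hx : x ≠ 0) (y : ZMod r) : chi x * (chi x * y.val) = y.val := by
  rw [← mul_assoc, chi_sq hx, one_mul]

theorem chi_inv (x : ZMod r) : chi x⁻¹ = chi x := by
  by_cases hx : x = 0
  · simp [hx]
  · have h1 : chi x * chi x⁻¹ = 1 := by rw [← chi_mul, mul_inv_cancel₀ hx, chi_one]
    have h2 := chi_sq hx
    have h3 : chi x ≠ 0 := fun h => by simp [h] at h2
    exact mul_left_cancel₀ h3 (h1.trans h2.symm)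

theorem sum_psi_mul (b : ZMod r) : ∑ x : ZMod r, psi (x * b) = if b = 0 then (r : ℂ) else 0 := by
  have h := AddChar.sum_mulShift (R := ZMod r) (R' := ℂ) (ψ := ZMod.stdAddChar) b
    (ZMod.isPrimitive_stdAddChar r)
  rw [ZMod.card] at h
  simp only [psi]
  rw [h]
  split_ifs <;> simp

theorem four_ne (hr : r ≠ 2) : (2 : ZMod r) ≠ 0 := by
  intro h
  have h1 : ((2 : ℕ) : ZMod r) = 0 := by exact_mod_cast h
  rw [ZMod.natCast_eq_zero_iff] at h1
  exact hr ((Nat.prime_dvd_prime_iff_eq (Fact.out) Nat.prime_two).1 h1)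

theorem ringChar_ne (hr : r ≠ 2) : ringChar (ZMod r) ≠ 2 := by
  rwa [ZMod.ringChar_zmod_n]

theorem sum_sq_eq (hr : r ≠ 2) (f : ZMod r → ℂ) :
    ∑ k : ZMod r, f (k ^ 2) = ∑ a : ZMod r, (chi a + 1) * f a := by
  classical
  have h1 : ∑ k : ZMod r, f (k ^ 2) =
      ∑ a : ZMod r, ∑ k ∈ (univ.filter fun k : ZMod r => k ^ 2 = a), f (k ^ 2) :=
    (Finset.sum_fiberwise (s := univ) (g := fun k : ZMod r => k ^ 2)
      (f := fun k => f (k ^ 2))).symm
  rw [h1]
  apply Finset.sum_congr rfl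
  intro a _
  have h2 : ∑ k ∈ (univ.filter fun k : ZMod r => k ^ 2 = a), f (k ^ 2) =
      ∑ k ∈ (univ.filter fun k : ZMod r => k ^ 2 = a), f a := by
    apply Finset.sum_congr rfl
    intro k hk
    rw [(Finset.mem_filter.1 hk).2]
  rw [h2, Finset.sum_const, nsmul_eq_mul]
  congr 1
  have h3 := quadraticChar_card_sqrts (F := ZMod r) (ringChar_ne hr) a
  have h4 : (univ.filter fun k : ZMod r => k ^ 2 = a) = {x : ZMod r | x ^ 2 = a}.toFinset := by
    ext x
    simp
  rw [h4, chi]
  exact_mod_cast congrArg (fun z : ℤ => (z : ℂ)) h3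

theorem gs_eq (hr : r ≠ 2) : gs r = ∑ a : ZMod r, chi a * psi a := by
  rw [gs, sum_sq_eq hr (fun a => psi a)]
  simp only [add_mul, one_mul, Finset.sum_add_distrib]
  have h := sum_psi_mul (r := r) 1
  simp only [mul_one, one_ne_zero, if_false] at h
  rw [h, add_zero]

theorem sum_psi_sq (hr : r ≠ 2) {x : ZMod r} (hx : x ≠ 0) :
    ∑ k : ZMod r, psi (x * k ^ 2) = chi x * gs r := by
  rw [sum_sq_eq hr (fun a => psi (x * a))]
  simp only [add_mul, one_mul, Finset.sum_add_distrib]
  have h := sum_psi_mul (r := r) x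
  simp only [hx, if_false] at h
  simp only [mul_comm x]
  rw [h, add_zero, gs_eq hr, Finset.mul_sum]
  refine Fintype.sum_equiv (Equiv.mulRight₀ x hx) _ _ fun a => ?_
  simp only [Equiv.mulRight₀_apply]
  rw [chi_mul]
  have := chi_sq hx
  linear_combination (- chi a * psi (a * x)) * this

/-- Complete quadratic Gauss sum with a shift. -/
theorem sum_psi_shift (hr : r ≠ 2) {x : ZMod r} (hx : x ≠ 0) (y : ZMod r) :
    ∑ k : ZMod r, psi (x * (k - y) ^ 2) = chi x * gs r := by
  rw [← sum_psi_sq hr hx]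
  exact Fintype.sum_equiv (Equiv.subRight y) _ _ fun k => by simp

/-- The Weil representation matrix. -/
def weil (s : ℂ) (a b c d : ZMod r) (h k : ZMod r) : ℂ :=
  if c = 0 then (if k = a * h then chi a * psi (4⁻¹ * a * b * h ^ 2) else 0)
  else chi c / s * psi (4⁻¹ * c⁻¹ * (a * h ^ 2 - 2 * h * k + d * k ^ 2))

theorem weil_one (s : ℂ) (h k : ZMod r) : weil s 1 0 0 1 h k = if k = h then 1 else 0 := by
  simp [weil, chi_one, psi_zero]

theorem weil_T (hr : r ≠ 2) (s : ℂ) {a b c d : ZMod r} (hdet : a * d - b * c = 1) (n : ZMod r)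
    (h k : ZMod r) :
    weil s a (a * n + b) c (c * n + d) h k = weil s a b c d h k * psi (n * 4⁻¹ * k ^ 2) := by
  have h2 := four_ne hr
  have h4 : (4 : ZMod r) ≠ 0 := by
    have : (4 : ZMod r) = 2 * 2 := by norm_num
    rw [this]; exact mul_ne_zero h2 h2
  unfold weil
  by_cases hc : c = 0
  · subst hc
    simp only [if_true]
    by_cases hk : k = a * h
    · subst hk
      simp only [if_true]
      rw [mul_assoc (chi a), ← psi_add]
      congr 2
      ring
    · simp [hk]
  · simp only [hc, if_false]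
    rw [mul_assoc (chi c / s), ← psi_add]
    congr 2
    field_simp
    ring

theorem weil_S (hr : r ≠ 2) (hneg : chi (-1 : ZMod r) = -1) {s : ℂ} (hs : gs r = s)
    (hs2 : s * s = -(r : ℂ)) {a b c d : ZMod r} (hdet : a * d - b * c = 1) (h j : ZMod r) :
    ∑ k : ZMod r, weil s a b c d h k * (1 / s * psi (-(2⁻¹ * k * j))) =
      weil s b (-a) d (-c) h j := by
  have h2 := four_ne hr
  have h4 : (4 : ZMod r) ≠ 0 := by
    have : (4 : ZMod r) = 2 * 2 := by norm_num
    rw [this]; exact mul_ne_zero h2 h2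
  have h42 : (4 : ZMod r)⁻¹ * 2 = 2⁻¹ := by
    have : (4 : ZMod r) = 2 * 2 := by norm_num
    rw [this, mul_inv]
    field_simp
  have hr0 : (r : ℂ) ≠ 0 := Nat.cast_ne_zero.2 (Fact.out : r.Prime).ne_zero
  have hs0 : s ≠ 0 := by
    rintro rfl
    exact hr0 (by linear_combination hs2)
  by_cases hc : c = 0
  · subst hc
    have had : a * d = 1 := by simpa using hdet
    have hd : d ≠ 0 := right_ne_zero_of_mul_eq_one had
    have hda : d⁻¹ = a := (eq_inv_of_mul_eq_one_left had).symm
    unfold weil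
    simp only [if_true, hd, if_false, ite_mul, zero_mul]
    rw [Finset.sum_ite_eq' univ (a * h) (fun k => chi a * psi (4⁻¹ * a * b * h ^ 2) *
      (1 / s * psi (-(2⁻¹ * k * j))))]
    simp only [Finset.mem_univ, if_true, hda]
    rw [← chi_inv d, hda]
    have e1 : chi a * psi (4⁻¹ * a * b * h ^ 2) * (1 / s * psi (-(2⁻¹ * (a * h) * j))) =
      chi a / s * (psi (4⁻¹ * a * b * h ^ 2) * psi (-(2⁻¹ * (a * h) * j))) := by ring
    rw [e1, ← psi_add]
    congr 2
    rw [← h42]
    ring
  · by_cases hd : d = 0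
    · subst hd
      have hbc : b * c = -1 := by linear_combination -hdet
      have hb : b = -c⁻¹ := by
        field_simp
        linear_combination hbc
      unfold weil
      simp only [hc, if_true, if_false]
      have e1 : ∀ k : ZMod r, chi c / s * psi (4⁻¹ * c⁻¹ * (a * h ^ 2 - 2 * h * k + 0 * k ^ 2)) *
          (1 / s * psi (-(2⁻¹ * k * j))) = chi c / (s * s) * psi (4⁻¹ * c⁻¹ * a * h ^ 2) *
            psi (k * (-(2⁻¹ * (c⁻¹ * h + j)))) := by
        intro k
        have e2 : (4⁻¹ * c⁻¹ * (a * h ^ 2 - 2 * h * k + 0 * k ^ 2)) + (-(2⁻¹ * k * j)) =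
            4⁻¹ * c⁻¹ * a * h ^ 2 + k * (-(2⁻¹ * (c⁻¹ * h + j))) := by
          rw [← h42]
          ring
        have e3 := congrArg psi e2
        rw [psi_add, psi_add] at e3
        have e4 : chi c / s * psi (4⁻¹ * c⁻¹ * (a * h ^ 2 - 2 * h * k + 0 * k ^ 2)) *
          (1 / s * psi (-(2⁻¹ * k * j))) = chi c / (s * s) *
          (psi (4⁻¹ * c⁻¹ * (a * h ^ 2 - 2 * h * k + 0 * k ^ 2)) * psi (-(2⁻¹ * k * j))) := by
          field_simp
        rw [e4, e3]
        ring
      rw [Finset.sum_congr rfl (fun k _ => e1 k), ← Finset.mul_sum, sum_psi_mul]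
      have e5 : (-(2⁻¹ * (c⁻¹ * h + j)) = 0) ↔ j = b * h := by
        rw [hb, neg_eq_zero, mul_eq_zero, or_iff_right (inv_ne_zero h2)]
        constructor
        · intro h; linear_combination h
        · intro h; linear_combination h
      simp only [e5]
      by_cases hj : j = b * h
      · simp only [hj, if_true]
        have e6 : chi b = chi (-1 : ZMod r) * chi c := by
          rw [hb, ← chi_inv c, ← chi_mul]
          congr 1
          ring
        have e7 : (4⁻¹ * b * -a * h ^ 2 : ZMod r) = 4⁻¹ * c⁻¹ * a * h ^ 2 := by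
          rw [hb]; ring
        rw [e7, hs2, e6, hneg]
        field_simp
      · simp only [hj, if_false, mul_zero]
    · unfold weil
      simp only [hc, hd, if_false]
      have e1 : ∀ k : ZMod r, chi c / s * psi (4⁻¹ * c⁻¹ * (a * h ^ 2 - 2 * h * k + d * k ^ 2)) *
          (1 / s * psi (-(2⁻¹ * k * j))) =
          chi c / (s * s) * psi (4⁻¹ * d⁻¹ * (b * h ^ 2 - 2 * h * j + -c * j ^ 2)) *
            psi (4⁻¹ * c⁻¹ * d * (k - d⁻¹ * (h + c * j)) ^ 2) := by
        intro k
        have e2 : (4⁻¹ * c⁻¹ * (a * h ^ 2 - 2 * h * k + d * k ^ 2)) + (-(2⁻¹ * k * j)) =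
            (4⁻¹ * d⁻¹ * (b * h ^ 2 - 2 * h * j + -c * j ^ 2)) +
            4⁻¹ * c⁻¹ * d * (k - d⁻¹ * (h + c * j)) ^ 2 := by
          rw [← h42]
          field_simp
          linear_combination (h ^ 2) * hdet
        have e3 := congrArg psi e2
        rw [psi_add, psi_add] at e3
        have e4 : chi c / s * psi (4⁻¹ * c⁻¹ * (a * h ^ 2 - 2 * h * k + d * k ^ 2)) *
          (1 / s * psi (-(2⁻¹ * k * j))) = chi c / (s * s) *
          (psi (4⁻¹ * c⁻¹ * (a * h ^ 2 - 2 * h * k + d * k ^ 2)) * psi (-(2⁻¹ * k * j))) := by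
          field_simp
        rw [e4, e3]
        ring
      have hx : (4⁻¹ * c⁻¹ * d : ZMod r) ≠ 0 :=
        mul_ne_zero (mul_ne_zero (inv_ne_zero h4) (inv_ne_zero hc)) hd
      rw [Finset.sum_congr rfl (fun k _ => e1 k), ← Finset.mul_sum, sum_psi_shift hr hx, hs]
      have e8 : chi (4⁻¹ * c⁻¹ * d : ZMod r) = chi c * chi d := by
        have : (4⁻¹ : ZMod r) = 2⁻¹ * 2⁻¹ := by rw [← mul_inv]; norm_num
        rw [chi_mul, chi_mul, this, chi_mul, chi_sq (inv_ne_zero h2), one_mul, chi_inv]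
      rw [e8]
      have e9 := chi_sq hc
      generalize psi (4⁻¹ * d⁻¹ * (b * h ^ 2 - 2 * h * j + -c * j ^ 2)) = X
      field_simp
      linear_combination (X * chi d) * e9

/-- The pairing used to build a form on `Γ₀(p)`. -/
theorem weil_pair (hr : r ≠ 2) {s : ℂ} (hs2 : s * s = -(r : ℂ)) {a b c d c' P l : ZMod r}
    (hdet : a * d - b * c = 1) (hP : chi P = -1) (hl : P * l ^ 2 = -1) (hc' : P * c' = c)
    (k k' : ZMod r) :
    ∑ h : ZMod r, weil s a b c d h k * weil s a (P * b) c' d (l * h) k' =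
      if k' = l * k then 1 else 0 := by
  have h2 := four_ne hr
  have h4 : (4 : ZMod r) ≠ 0 := by
    have : (4 : ZMod r) = 2 * 2 := by norm_num
    rw [this]; exact mul_ne_zero h2 h2
  have h42 : (4 : ZMod r)⁻¹ * 2 = 2⁻¹ := by
    have : (4 : ZMod r) = 2 * 2 := by norm_num
    rw [this, mul_inv]
    field_simp
  have hr0 : (r : ℂ) ≠ 0 := Nat.cast_ne_zero.2 (Fact.out : r.Prime).ne_zero
  have hs0 : s ≠ 0 := by
    rintro rfl
    exact hr0 (by linear_combination hs2)
  have hP0 : P ≠ 0 := by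
    rintro rfl
    simp at hl
  have hl0 : l ≠ 0 := by
    rintro rfl
    simp at hl
  by_cases hc : c = 0
  · have hc0 : c' = 0 := by
      rcases mul_eq_zero.1 (hc'.trans hc) with h | h
      · exact absurd h hP0
      · exact h
    subst hc
    subst hc0
    have had : a * d = 1 := by simpa using hdet
    have ha : a ≠ 0 := left_ne_zero_of_mul_eq_one had
    unfold weil
    simp only [if_true]
    rw [Finset.sum_eq_single (a⁻¹ * k)]
    · have e1 : k = a * (a⁻¹ * k) := by rw [mul_inv_cancel_left₀ ha]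
      have e2 : (k' = a * (l * (a⁻¹ * k))) ↔ k' = l * k := by
        have : a * (l * (a⁻¹ * k)) = l * k := by field_simp
        rw [this]
      rw [if_pos e1]
      simp only [e2]
      split_ifs with h
      · have e3 := chi_sq ha
        have e4 : (4⁻¹ * a * b * (a⁻¹ * k) ^ 2) + (4⁻¹ * a * (P * b) * (l * (a⁻¹ * k)) ^ 2) = 0 := by
          linear_combination (4⁻¹ * a * b * (a⁻¹ * k) ^ 2) * hl
        have e5 := congrArg psi e4
        rw [psi_add, psi_zero] at e5
        calc _ = chi a * chi a * (psi (4⁻¹ * a * b * (a⁻¹ * k) ^ 2) *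
            psi (4⁻¹ * a * (P * b) * (l * (a⁻¹ * k)) ^ 2)) := by ring
          _ = 1 := by rw [e3, e5, one_mul]
      · rw [mul_zero]
    · intro h _ hh
      rw [if_neg, zero_mul]
      rintro rfl
      exact hh (by rw [inv_mul_cancel_left₀ ha])
    · intro h
      exact absurd (Finset.mem_univ _) h
  · have hc0 : c' ≠ 0 := by
      rintro rfl
      exact hc (by rw [← hc', mul_zero])
    unfold weil
    simp only [hc, hc0, if_false]
    have e1 : ∀ h : ZMod r, chi c / s * psi (4⁻¹ * c⁻¹ * (a * h ^ 2 - 2 * h * k + d * k ^ 2)) *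
        (chi c' / s * psi (4⁻¹ * c'⁻¹ * (a * (l * h) ^ 2 - 2 * (l * h) * k' + d * k' ^ 2))) =
        chi c * chi c' / (s * s) * psi (4⁻¹ * c⁻¹ * d * (k ^ 2 + P * k' ^ 2)) *
          psi (h * (-(2⁻¹ * c⁻¹ * (k + P * l * k')))) := by
      intro h
      have e2 : (4⁻¹ * c⁻¹ * (a * h ^ 2 - 2 * h * k + d * k ^ 2)) +
          (4⁻¹ * c'⁻¹ * (a * (l * h) ^ 2 - 2 * (l * h) * k' + d * k' ^ 2)) =
          (4⁻¹ * c⁻¹ * d * (k ^ 2 + P * k' ^ 2)) + (h * (-(2⁻¹ * c⁻¹ * (k + P * l * k')))) := by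
        rw [← h42, ← hc']
        field_simp
        linear_combination (a * h ^ 2) * hl
      have e3 := congrArg psi e2
      rw [psi_add, psi_add] at e3
      calc _ = chi c * chi c' / (s * s) *
            (psi (4⁻¹ * c⁻¹ * (a * h ^ 2 - 2 * h * k + d * k ^ 2)) *
            psi (4⁻¹ * c'⁻¹ * (a * (l * h) ^ 2 - 2 * (l * h) * k' + d * k' ^ 2))) := by
            field_simp
        _ = _ := by rw [e3]; ring
    rw [Finset.sum_congr rfl (fun h _ => e1 h), ← Finset.mul_sum, sum_psi_mul]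
    have e5 : (-(2⁻¹ * c⁻¹ * (k + P * l * k')) = 0) ↔ k' = l * k := by
      rw [neg_eq_zero, mul_eq_zero, or_iff_right (mul_ne_zero (inv_ne_zero h2) (inv_ne_zero hc))]
      constructor
      · intro h
        linear_combination (- l) * h + k' * hl
      · intro h
        rw [h]
        linear_combination k * hl
    simp only [e5]
    split_ifs with hk
    · have e6 : (4⁻¹ * c⁻¹ * d * (k ^ 2 + P * k' ^ 2)) = 0 := by
        rw [hk]
        linear_combination (4⁻¹ * c⁻¹ * d * k ^ 2) * hl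
      have e7 : chi c = - chi c' := by
        rw [← hc', chi_mul, hP]
        ring
      rw [e6, psi_zero, hs2, e7]
      have e8 := chi_sq hc0
      field_simp
      linear_combination e8
    · rw [mul_zero]

end

end Fermat.Agent.Eis16
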