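import Fermat.Agent.Eis16.Forms
import Fermat.Agent.Eis16.WeilRep

set_option autoImplicit false

/-!
# Theta series of the lattice `{(v,u) : v ≡ u mod 2}` with the form `(r v² + u²)/4`
-/

open Complex Filter Topology Function
open UpperHalfPlane hiding I
open ModularGroup Matrix.SpecialLinearGroup
open scoped Manifold ModularForm MatrixGroups Real

namespace Fermat.Agent.Eis16

noncomputable section

local notation "𝕢" => Function.Periodic.qParam

theorem hasSum_of_eq {ι : Type*} {f g : ι → ℂ} {a : ℂ} (h : HasSum f a) (hfg : ∀ x, f x = g x) :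
    HasSum g a := by
  rwa [← funext hfg]

/-- A function which is a sum of powers of `q_h` has a `q`-expansion. -/
theorem hasQ_of_hasSum {ι : Type*} {h : ℝ} {G : ℍ → ℂ} {Q : ι → ℕ}
    (H : ∀ τ : ℍ, HasSum (fun x => 𝕢 h τ ^ Q x) (G τ)) :
    (∀ n, Finite {x // Q x = n}) ∧
      HasQ h G (PowerSeries.mk fun n => (Nat.card {x // Q x = n} : ℂ)) := by
  have hq : ∀ τ : ℍ, 𝕢 h τ ≠ 0 := fun τ => Complex.exp_ne_zero _
  have hfin : ∀ n, Finite {x // Q x = n} := by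
    intro n
    by_contra hinf
    rw [not_finite_iff_infinite] at hinf
    have h1 := (H UpperHalfPlane.I).summable.comp_injective
      (Subtype.val_injective (p := fun x => Q x = n))
    have h2 : ((fun x => 𝕢 h UpperHalfPlane.I ^ Q x) ∘ (Subtype.val : {x // Q x = n} → ι)) =
        fun _ => 𝕢 h UpperHalfPlane.I ^ n := by
      funext x
      simp [x.2]
    rw [h2, summable_const_iff] at h1
    exact pow_ne_zero _ (hq _) h1
  refine ⟨hfin, fun τ => ?_⟩
  have h1 := (Equiv.sigmaFiberEquiv Q).hasSum_iff.2 (H τ)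
  refine h1.sigma fun n => ?_
  have := Fintype.ofFinite {x // Q x = n}
  have h2 := hasSum_fintype (fun c : {x // Q x = n} =>
    ((fun x => 𝕢 h τ ^ Q x) ∘ (Equiv.sigmaFiberEquiv Q)) ⟨n, c⟩)
  convert h2 using 1
  rw [PowerSeries.coeff_mk, Nat.card_eq_fintype_card]
  rw [Finset.sum_congr rfl (g := fun _ => 𝕢 h τ ^ n)]
  · simp [Finset.card_univ]
  · intro c _
    simp [Equiv.sigmaFiberEquiv, c.2]

/-- One-dimensional theta function with characteristic. -/
def th1 (N : ℕ) (j : ℤ) (z : ℂ) : ℂ :=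
  cexp (π * I * z * j ^ 2 / (2 * N)) * jacobiTheta₂ (j * z) (2 * N * z)

/-- The transformed one-dimensional theta function. -/
def th1' (N : ℕ) (j : ℤ) (z : ℂ) : ℂ := jacobiTheta₂ (j / (2 * N)) (z / (2 * N))

theorem hasSum_th1 {N : ℕ} (hN : 0 < N) (j : ℤ) {z : ℂ} (hz : 0 < z.im) :
    HasSum (fun n : ℤ => cexp (2 * π * I * z * ((2 * N * n + j) ^ 2 / (4 * N)))) (th1 N j z) := by
  have hN' : (N : ℂ) ≠ 0 := Nat.cast_ne_zero.2 hN.ne'
  have h1 : 0 < (2 * (N : ℂ) * z).im := by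
    have : (2 * (N : ℂ) * z).im = 2 * N * z.im := by simp [Complex.mul_im]
    rw [this]
    positivity
  have h2 := (hasSum_jacobiTheta₂_term (j * z) h1).mul_left (cexp (π * I * z * j ^ 2 / (2 * N)))
  refine hasSum_of_eq h2 fun n => ?_
  rw [jacobiTheta₂_term, ← Complex.exp_add]
  congr 1
  field_simp
  ring

theorem hasSum_th1' {N : ℕ} (hN : 0 < N) (j : ℤ) {z : ℂ} (hz : 0 < z.im) :
    HasSum (fun m : ℤ => cexp (2 * π * I * (j * m / (2 * N))) *
      cexp (2 * π * I * z * (m ^ 2 / (4 * N)))) (th1' N j z) := by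
  have hN' : (N : ℂ) ≠ 0 := Nat.cast_ne_zero.2 hN.ne'
  have h1 : 0 < (z / (2 * N)).im := by
    have : z / (2 * (N : ℂ)) = ((2 * N : ℝ)⁻¹ : ℝ) * z := by
      push_cast
      field_simp
    rw [this, Complex.im_ofReal_mul]
    positivity
  have h2 := hasSum_jacobiTheta₂_term (j / (2 * N)) h1
  refine hasSum_of_eq h2 fun n => ?_
  rw [jacobiTheta₂_term, ← Complex.exp_add]
  congr 1
  field_simp
  ring

theorem th1_neg_inv {N : ℕ} (hN : 0 < N) (j : ℤ) {z : ℂ} (hz : z ≠ 0) :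
    th1 N j (-1 / z) = 1 / (N * (2 * I / z)) ^ (1 / 2 : ℂ) * th1' N j z := by
  have hN' : (N : ℂ) ≠ 0 := Nat.cast_ne_zero.2 hN.ne'
  rw [th1, th1', jacobiTheta₂_functional_equation]
  have e1 : -I * (2 * N * (-1 / z)) = N * (2 * I / z) := by
    field_simp
  have e2 : (j * (-1 / z)) / (2 * N * (-1 / z)) = (j / (2 * N) : ℂ) := by
    field_simp
  have e3 : -1 / (2 * N * (-1 / z)) = z / (2 * N) := by
    field_simp
  rw [e1, e2, e3]
  have e4 : cexp (π * I * (-1 / z) * j ^ 2 / (2 * N)) *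
      cexp (-π * I * (j * (-1 / z)) ^ 2 / (2 * N * (-1 / z))) = 1 := by
    rw [← Complex.exp_add, ← Complex.exp_zero]
    congr 1
    field_simp
    ring
  linear_combination (1 / (N * (2 * I / z)) ^ (1 / 2 : ℂ) * jacobiTheta₂ (j / (2 * N)) (z / (2 * N))) * e4

theorem two_factors {r : ℕ} (hr : 0 < r) {z : ℂ} (hz : z ≠ 0) :
    1 / ((1 : ℕ) * (2 * I / z)) ^ (1 / 2 : ℂ) * (1 / (r * (2 * I / z)) ^ (1 / 2 : ℂ)) * 2 =
      z * (1 / (I * (Real.sqrt r : ℂ))) := by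
  have hw : (2 * I / z) ≠ 0 := by
    simp [hz]
  have hr' : (0 : ℝ) < r := Nat.cast_pos.2 hr
  have e1 : ((r : ℂ) * (2 * I / z)) ^ (1 / 2 : ℂ) =
      (Real.sqrt r : ℂ) * (2 * I / z) ^ (1 / 2 : ℂ) := by
    have h1 : ((r : ℂ) * (2 * I / z)) ≠ 0 := mul_ne_zero (Nat.cast_ne_zero.2 hr.ne') hw
    rw [Complex.cpow_def_of_ne_zero h1, Complex.cpow_def_of_ne_zero hw]
    have h2 := Complex.log_ofReal_mul hr' hw
    rw [Complex.ofReal_natCast] at h2
    rw [h2, Real.sqrt_eq_rpow, Real.rpow_def_of_pos hr']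
    push_cast
    rw [← Complex.exp_add]
    congr 1
    ring
  have e2 : (2 * I / z) ^ (1 / 2 : ℂ) * (2 * I / z) ^ (1 / 2 : ℂ) = 2 * I / z := by
    rw [← Complex.cpow_add _ _ hw]
    norm_num
  have e3 : (Real.sqrt r : ℂ) ≠ 0 := by
    rw [Complex.ofReal_ne_zero]
    positivity
  have e4 : (2 * I / z) ^ (1 / 2 : ℂ) ≠ 0 := by
    intro h
    rw [h, mul_zero] at e2
    exact hw e2.symm
  rw [e1, Nat.cast_one, one_mul]
  have e5 : 1 / (2 * I / z) ^ (1 / 2 : ℂ) * (1 / ((Real.sqrt r : ℂ) * (2 * I / z) ^ (1 / 2 : ℂ))) =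
      1 / (Real.sqrt r : ℂ) * (1 / ((2 * I / z) ^ (1 / 2 : ℂ) * (2 * I / z) ^ (1 / 2 : ℂ))) := by
    field_simp
  rw [e5, e2]
  field_simp

end

end Fermat.Agent.Eis16
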