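import Fermat.Agent.Eis16.Theta1

set_option autoImplicit false

/-!
# Theta series `Θ_h` and their transformation under `S` and `T`
-/

open Complex Filter Topology Function
open UpperHalfPlane hiding I
open ModularGroup Matrix.SpecialLinearGroup
open scoped Manifold ModularForm MatrixGroups Real

namespace Fermat.Agent.Eis16

noncomputable section

local notation "𝕢" => Function.Periodic.qParam

/-- The coset condition. -/
def Cst (r : ℕ) (h : ZMod r) (x : ℤ × ℤ) : Prop := (x.1 + x.2) % 2 = 0 ∧ (x.2 : ZMod r) = h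

instance (r : ℕ) (h : ZMod r) : DecidablePred (Cst r h) := fun x => by
  unfold Cst; infer_instance

/-- The exponential attached to a lattice vector. -/
def eV (r : ℕ) (z : ℂ) (x : ℤ × ℤ) : ℂ :=
  cexp (2 * π * I * z * ((r * x.1 ^ 2 + x.2 ^ 2) / (4 * r)))

/-- The theta series. -/
def theta (r : ℕ) (h : ZMod r) (z : ℂ) : ℂ := ∑' x, if Cst r h x then eV r z x else 0

theorem hasSum_mul' {f g : ℤ → ℂ} {a b : ℂ} (hf : HasSum f a) (hg : HasSum g b) :
    HasSum (fun x : ℤ × ℤ => f x.1 * g x.2) (a * b) :=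
  hf.mul hg (summable_mul_of_summable_norm hf.summable.norm hg.summable.norm)

variable {r : ℕ} [Fact r.Prime]

theorem hasSum_coset (hr : r ≠ 2) (h : ZMod r) (H : ℤ) (hH : (H : ZMod r) = h) (e : ℤ) {z : ℂ}
    (hz : 0 < z.im) :
    HasSum (fun x : ℤ × ℤ => if (2 ∣ x.1 - e ∧ 2 ∣ x.2 - e ∧ (x.2 : ZMod r) = h)
      then eV r z x else 0) (th1 1 e z * th1 r (r * e + (r + 1) * H) z) := by
  have hrp : r.Prime := Fact.out
  have hodd : r % 2 = 1 := (hrp.eq_two_or_odd).resolve_left hr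
  set j : ℤ := r * e + (r + 1) * H with hj
  have h1 := hasSum_th1 (N := 1) Nat.one_pos e hz
  have h2 := hasSum_th1 (N := r) hrp.pos j hz
  have h3 := hasSum_mul' h1 h2
  set φ : ℤ × ℤ → ℤ × ℤ := fun x => (2 * x.1 + e, 2 * r * x.2 + j) with hφ
  have hinj : Function.Injective φ := by
    rintro ⟨a, b⟩ ⟨c, d⟩ hab
    simp only [hφ, Prod.mk.injEq] at hab
    have h5 : (2 * (r : ℤ)) ≠ 0 := by
      have := hrp.pos
      positivity
    have h4 : b = d := mul_left_cancel₀ h5 (by linarith [hab.2])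
    have h6 : a = c := by omega
    rw [h4, h6]
  have hmod : ∀ x : ℤ × ℤ, (2 ∣ x.1 - e ∧ 2 ∣ x.2 - e ∧ (x.2 : ZMod r) = h) ↔
      x ∈ Set.range φ := by
    rintro ⟨v, u⟩
    obtain ⟨t, ht⟩ : ∃ t : ℤ, (r : ℤ) = 2 * t + 1 := ⟨r / 2, by omega⟩
    constructor
    · rintro ⟨⟨a, ha⟩, ⟨b, hb⟩, hu⟩
      rw [← hH, ZMod.intCast_eq_intCast_iff_dvd_sub] at hu
      obtain ⟨c, hc⟩ := hu
      simp only at ha hb hc
      have h5 : (2 : ℤ) ∣ u - j := by
        refine ⟨b - t * e - (t + 1) * H, ?_⟩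
        rw [hj, ht]
        linear_combination hb
      have h6 : (r : ℤ) ∣ u - j := by
        refine ⟨-c - e - H, ?_⟩
        rw [hj]
        linear_combination -hc
      have h7 : (2 * r : ℤ) ∣ u - j := by
        refine IsCoprime.mul_dvd ?_ h5 h6
        exact ⟨-t, 1, by rw [ht]; ring⟩
      obtain ⟨m, hm⟩ := h7
      refine ⟨(a, m), ?_⟩
      simp only [hφ, Prod.mk.injEq]
      constructor <;> linarith
    · rintro ⟨⟨a, b⟩, hab⟩
      simp only [hφ, Prod.mk.injEq] at hab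
      obtain ⟨rfl, rfl⟩ := hab
      refine ⟨⟨a, by ring⟩, ⟨r * b + t * e + (t + 1) * H, ?_⟩, ?_⟩
      · simp only
        rw [hj]
        rw [ht]; ring
      · rw [hj]
        push_cast
        simp [hH]
  have h4 : ∀ x, cexp (2 * π * I * z * ((2 * ((1 : ℕ) : ℂ) * x.1 + e) ^ 2 / (4 * ((1 : ℕ) : ℂ)))) *
      cexp (2 * π * I * z * ((2 * (r : ℂ) * x.2 + j) ^ 2 / (4 * (r : ℂ)))) =
      (fun x : ℤ × ℤ => if (2 ∣ x.1 - e ∧ 2 ∣ x.2 - e ∧ (x.2 : ZMod r) = h)
      then eV r z x else 0) (φ x) := by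
    intro x
    have : φ x ∈ Set.range φ := ⟨x, rfl⟩
    simp only
    rw [if_pos ((hmod _).2 this), eV, ← Complex.exp_add]
    congr 1
    have hr0 : (r : ℂ) ≠ 0 := Nat.cast_ne_zero.2 hrp.ne_zero
    simp only [hφ]
    push_cast
    field_simp
  have h5 := hasSum_of_eq h3 h4
  rw [← hinj.hasSum_iff (f := (fun x : ℤ × ℤ => if (2 ∣ x.1 - e ∧ 2 ∣ x.2 - e ∧ (x.2 : ZMod r) = h)
      then eV r z x else 0))]
  · exact h5
  · intro x hx
    rw [if_neg]
    rwa [hmod]

theorem hasSum_theta_aux (hr : r ≠ 2) (h : ZMod r) (H : ℤ) (hH : (H : ZMod r) = h) {z : ℂ}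
    (hz : 0 < z.im) :
    HasSum (fun x : ℤ × ℤ => if Cst r h x then eV r z x else 0)
      (th1 1 0 z * th1 r (r * 0 + (r + 1) * H) z + th1 1 1 z * th1 r (r * 1 + (r + 1) * H) z) := by
  refine hasSum_of_eq ((hasSum_coset hr h H hH 0 hz).add (hasSum_coset hr h H hH 1 hz)) ?_
  rintro ⟨v, u⟩
  unfold Cst
  simp only
  by_cases hu : (u : ZMod r) = h
  · simp only [hu, and_true]
    rcases Int.emod_two_eq_zero_or_one v with hv | hv <;>
    rcases Int.emod_two_eq_zero_or_one u with hu' | hu'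
    · rw [if_pos (by omega), if_neg (by omega), if_pos (by omega), add_zero]
    · rw [if_neg (by omega), if_neg (by omega), if_neg (by omega), add_zero]
    · rw [if_neg (by omega), if_neg (by omega), if_neg (by omega), add_zero]
    · rw [if_neg (by omega), if_pos (by omega), if_pos (by omega), zero_add]
  · simp [hu]

theorem hasSum_theta (hr : r ≠ 2) (h : ZMod r) {z : ℂ} (hz : 0 < z.im) :
    HasSum (fun x : ℤ × ℤ => if Cst r h x then eV r z x else 0) (theta r h z) :=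
  (hasSum_theta_aux hr h h.val (by simp) hz).summable.hasSum

theorem theta_eq (hr : r ≠ 2) (h : ZMod r) (H : ℤ) (hH : (H : ZMod r) = h) {z : ℂ}
    (hz : 0 < z.im) : theta r h z =
      (th1 1 0 z * th1 r (r * 0 + (r + 1) * H) z + th1 1 1 z * th1 r (r * 1 + (r + 1) * H) z) :=
  (hasSum_theta_aux hr h H hH hz).tsum_eq

theorem theta_neg (hr : r ≠ 2) (h : ZMod r) {z : ℂ} (hz : 0 < z.im) :
    theta r (-h) z = theta r h z := by
  have h1 := hasSum_theta hr (-h) hz
  have h2 := (Equiv.neg (ℤ × ℤ)).hasSum_iff.2 h1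
  refine h2.unique (hasSum_of_eq (hasSum_theta hr h hz) ?_)
  rintro ⟨v, u⟩
  rw [Function.comp_apply, Equiv.neg_apply]
  have h3 : Cst r (-h) (-(v, u)) ↔ Cst r h (v, u) := by
    unfold Cst
    simp only [Prod.neg_mk, Int.cast_neg, neg_inj]
    constructor
    · rintro ⟨a, b⟩
      exact ⟨by omega, b⟩
    · rintro ⟨a, b⟩
      exact ⟨by omega, b⟩
  simp only [h3]
  congr 1
  unfold eV
  simp

/-- The sign factor. -/
theorem exp_pi_int (n : ℤ) : cexp (π * I * n) = if n % 2 = 0 then 1 else -1 := by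
  rcases Int.emod_two_eq_zero_or_one n with h | h
  · rw [if_pos h]
    obtain ⟨m, rfl⟩ : ∃ m, n = 2 * m := ⟨n / 2, by omega⟩
    rw [← Complex.exp_int_mul_two_pi_mul_I m]
    congr 1
    push_cast
    ring
  · rw [if_neg (by omega)]
    obtain ⟨m, rfl⟩ : ∃ m, n = 2 * m + 1 := ⟨n / 2, by omega⟩
    have : (π : ℂ) * I * ((2 * m + 1 : ℤ) : ℂ) = m * (2 * π * I) + π * I := by
      push_cast
      ring
    rw [this, Complex.exp_add, Complex.exp_int_mul_two_pi_mul_I, Complex.exp_pi_mul_I, one_mul]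

theorem psi_intCast (j : ℤ) : psi (j : ZMod r) = cexp (2 * π * I * j / r) := by
  unfold psi
  rw [ZMod.stdAddChar_coe]

theorem theta_S (hr : r ≠ 2) (h : ZMod r) {z : ℂ} (hz : 0 < z.im) :
    theta r h (-1 / z) =
      z * ∑ k : ZMod r, (1 / (I * (Real.sqrt r : ℂ)) * psi (-(2⁻¹ * h * k))) * theta r k z := by
  have hrp : r.Prime := Fact.out
  have hodd : r % 2 = 1 := (hrp.eq_two_or_odd).resolve_left hr
  have hr0 : (r : ℂ) ≠ 0 := Nat.cast_ne_zero.2 hrp.ne_zero
  have hz0 : z ≠ 0 := by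
    rintro rfl
    simp at hz
  have hz' : 0 < (-1 / z).im := by
    have := (S • (⟨z, hz⟩ : ℍ)).im_pos
    rwa [← UpperHalfPlane.coe_im, coe_S_smul] at this
  obtain ⟨H, hH⟩ : ∃ H : ℤ, (H : ZMod r) = h := ⟨h.val, by simp⟩
  rw [theta_eq hr h H hH hz']
  rw [th1_neg_inv (N := 1) Nat.one_pos _ hz0, th1_neg_inv (N := 1) Nat.one_pos _ hz0,
    th1_neg_inv (N := r) hrp.pos _ hz0, th1_neg_inv (N := r) hrp.pos _ hz0]
  set C1 := 1 / (((1 : ℕ) : ℂ) * (2 * I / z)) ^ (1 / 2 : ℂ) with hC1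
  set C2 := 1 / ((r : ℂ) * (2 * I / z)) ^ (1 / 2 : ℂ) with hC2
  have hC : C1 * C2 * 2 = z * (1 / (I * (Real.sqrt r : ℂ))) := two_factors hrp.pos hz0
  have hprod : ∀ e : ℤ, HasSum (fun x : ℤ × ℤ =>
      cexp (2 * π * I * (e * x.1 / 2 + (r * e + (r + 1) * H) * x.2 / (2 * r))) * eV r z x)
      (th1' 1 e z * th1' r (r * e + (r + 1) * H) z) := by
    intro e
    have h1 := hasSum_th1' (N := 1) Nat.one_pos e hz
    have h2 := hasSum_th1' (N := r) hrp.pos (r * e + (r + 1) * H) hz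
    have h3 := hasSum_mul' h1 h2
    refine hasSum_of_eq h3 fun x => ?_
    rw [eV, ← Complex.exp_add, ← Complex.exp_add, ← Complex.exp_add, ← Complex.exp_add]
    congr 1
    push_cast
    field_simp
    ring
  have hL := (hprod 0).add (hprod 1)
  have hR : HasSum (fun x : ℤ × ℤ => ∑ k : ZMod r, 2 * psi (2⁻¹ * h * k) *
      (if Cst r k x then eV r z x else 0)) (∑ k : ZMod r, 2 * psi (2⁻¹ * h * k) * theta r k z) :=
    hasSum_sum fun k _ => (hasSum_theta hr k hz).mul_left _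
  have hpsi : ∀ u : ℤ, psi (2⁻¹ * h * (u : ZMod r)) =
      cexp (2 * π * I * ((r + 1) * H * u / (2 * r))) := by
    intro u
    obtain ⟨t, ht⟩ : ∃ t : ℤ, (r : ℤ) = 2 * t + 1 := ⟨r / 2, by omega⟩
    have h2 := four_ne hr
    have h3 : (2⁻¹ : ZMod r) = ((t + 1 : ℤ) : ZMod r) := by
      have h4 : ((2 * (t + 1) : ℤ) : ZMod r) = 1 := by
        have : (2 * (t + 1) : ℤ) = r + 1 := by rw [ht]; ring
        rw [this]
        push_cast
        simp
      push_cast at h4 ⊢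
      exact inv_eq_of_mul_eq_one_right h4
    have h5 : (2⁻¹ * h * (u : ZMod r)) = (((t + 1) * H * u : ℤ) : ZMod r) := by
      rw [h3, ← hH]
      push_cast
      ring
    rw [h5, psi_intCast]
    congr 1
    have h6 : (r : ℂ) + 1 = 2 * (t + 1) := by
      have := congrArg (Int.cast (R := ℂ)) ht
      push_cast at this
      rw [this]
      ring
    rw [h6]
    push_cast
    field_simp
  have hEq := hL.unique (hasSum_of_eq hR ?_)
  · have hsym : ∑ k : ZMod r, 2 * psi (2⁻¹ * h * k) * theta r k z =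
        ∑ k : ZMod r, 2 * psi (-(2⁻¹ * h * k)) * theta r k z := by
      refine Fintype.sum_equiv (Equiv.neg _) _ _ fun k => ?_
      rw [Equiv.neg_apply, theta_neg hr k hz]
      congr 3
      ring
    rw [hsym] at hEq
    have hfin : ∑ k : ZMod r, 2 * psi (-(2⁻¹ * h * k)) * theta r k z =
        2 * ∑ k : ZMod r, psi (-(2⁻¹ * h * k)) * theta r k z := by
      rw [Finset.mul_sum]
      exact Finset.sum_congr rfl fun k _ => by ring
    have hfin2 : ∑ k : ZMod r, (1 / (I * (Real.sqrt r : ℂ)) * psi (-(2⁻¹ * h * k))) * theta r k z =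
        1 / (I * (Real.sqrt r : ℂ)) * ∑ k : ZMod r, psi (-(2⁻¹ * h * k)) * theta r k z := by
      rw [Finset.mul_sum]
      exact Finset.sum_congr rfl fun k _ => by ring
    rw [hfin] at hEq
    rw [hfin2]
    linear_combination (C1 * C2) * hEq +
      (∑ k : ZMod r, psi (-(2⁻¹ * h * k)) * theta r k z) * hC
  · rintro ⟨v, u⟩
    rw [Finset.sum_eq_single (u : ZMod r)]
    · rw [hpsi u, ← add_mul]
      have e1 : cexp (2 * π * I * (((1 : ℤ) : ℂ) * v / 2 + (r * ((1 : ℤ) : ℂ) + (r + 1) * H) * u / (2 * r))) =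
          cexp (π * I * ((v + u : ℤ) : ℂ)) * cexp (2 * π * I * ((r + 1) * H * u / (2 * r))) := by
        rw [← Complex.exp_add]
        congr 1
        push_cast
        field_simp
        ring
      have e0 : cexp (2 * π * I * (((0 : ℤ) : ℂ) * v / 2 + (r * ((0 : ℤ) : ℂ) + (r + 1) * H) * u / (2 * r))) =
          cexp (2 * π * I * ((r + 1) * H * u / (2 * r))) := by
        congr 1
        push_cast
        ring
      rw [e0, e1, exp_pi_int]
      have h6 : Cst r (u : ZMod r) (v, u) ↔ (v + u) % 2 = 0 := by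
        unfold Cst
        simp
      simp only [h6]
      split_ifs with hvu
      · ring
      · ring
    · intro k _ hk
      have h6 : ¬ Cst r k (v, u) := by
        rintro ⟨_, h5⟩
        exact hk h5.symm
      rw [if_neg h6, mul_zero]
    · intro h5
      exact absurd (Finset.mem_univ _) h5

/-- The exponent (times `r`) of a lattice vector is an integer. -/
theorem exists_exponent (h3 : r % 4 = 3) {h : ZMod r} {x : ℤ × ℤ} (hx : Cst r h x) :
    ∃ w : ℕ, (r * x.1 ^ 2 + x.2 ^ 2 : ℤ) = 4 * w ∧ (w : ZMod r) = 4⁻¹ * h ^ 2 := by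
  obtain ⟨v, u⟩ := x
  obtain ⟨hx1, hx2⟩ := hx
  simp only at hx1 hx2 ⊢
  obtain ⟨t, ht⟩ : ∃ t : ℤ, (r : ℤ) = 4 * t + 3 := ⟨r / 4, by omega⟩
  have hr : r ≠ 2 := by rintro rfl; omega
  obtain ⟨w, hw⟩ : ∃ w : ℤ, (r * v ^ 2 + u ^ 2 : ℤ) = 4 * w := by
    obtain ⟨m, hm⟩ : ∃ m, v = u + 2 * m := ⟨(v - u) / 2, by omega⟩
    refine ⟨(t + 1) * u ^ 2 + (4 * t + 3) * (u * m + m ^ 2), ?_⟩
    rw [hm, ht]
    ring
  have hw0 : 0 ≤ w := by
    have : (0 : ℤ) ≤ 4 * w := by rw [← hw]; positivity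
    omega
  refine ⟨w.toNat, by rw [hw, Int.toNat_of_nonneg hw0], ?_⟩
  have e1 : ((w.toNat : ℕ) : ZMod r) = (w : ZMod r) := by
    rw [← Int.cast_natCast, Int.toNat_of_nonneg hw0]
  rw [e1]
  have e2 := congrArg (Int.cast (R := ZMod r)) hw
  push_cast at e2
  rw [ZMod.natCast_self, zero_mul, zero_add, hx2] at e2
  have h2 := four_ne hr
  have h4 : (4 : ZMod r) ≠ 0 := by
    have : (4 : ZMod r) = 2 * 2 := by norm_num
    rw [this]; exact mul_ne_zero h2 h2
  rw [e2, inv_mul_cancel_left₀ h4]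

theorem eV_eq {z : ℂ} {x : ℤ × ℤ} {w : ℕ} (hw : (r * x.1 ^ 2 + x.2 ^ 2 : ℤ) = 4 * w) :
    eV r z x = 𝕢 r z ^ w := by
  have hr0 : (r : ℂ) ≠ 0 := Nat.cast_ne_zero.2 (Fact.out : r.Prime).ne_zero
  unfold eV Function.Periodic.qParam
  rw [← Complex.exp_nat_mul]
  congr 1
  have := congrArg (Int.cast (R := ℂ)) hw
  push_cast at this
  rw [this]
  push_cast
  field_simp

theorem theta_T (h3 : r % 4 = 3) (h : ZMod r) (n : ℤ) {z : ℂ} (hz : 0 < z.im) :
    theta r h (z + n) = psi ((n : ZMod r) * 4⁻¹ * h ^ 2) * theta r h z := by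
  have hr : r ≠ 2 := by rintro rfl; omega
  have hr0 : (r : ℂ) ≠ 0 := Nat.cast_ne_zero.2 (Fact.out : r.Prime).ne_zero
  have hz' : 0 < (z + n).im := by simpa using hz
  refine (hasSum_theta hr h hz').unique
    (hasSum_of_eq ((hasSum_theta hr h hz).mul_left (psi ((n : ZMod r) * 4⁻¹ * h ^ 2))) fun x => ?_)
  split_ifs with hx
  · obtain ⟨w, hw1, hw2⟩ := exists_exponent h3 hx
    have h4 : psi (n * 4⁻¹ * h ^ 2 : ZMod r) = cexp (2 * π * I * (n * w : ℤ) / r) := by
      rw [← psi_intCast]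
      congr 1
      push_cast
      rw [hw2]
      ring
    rw [h4, eV_eq hw1, eV_eq hw1]
    unfold Function.Periodic.qParam
    rw [← Complex.exp_nat_mul, ← Complex.exp_nat_mul, ← Complex.exp_add]
    congr 1
    push_cast
    field_simp
    ring
  · rw [mul_zero]

/-- The set indexing the theta series. -/
def LatC (r : ℕ) (h : ZMod r) : Type := {x : ℤ × ℤ // Cst r h x}

/-- The exponents in the theta series. -/
def expo (r : ℕ) (x : ℤ × ℤ) : ℕ := ((r * x.1 ^ 2 + x.2 ^ 2 : ℤ) / 4).toNat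

omit [Fact r.Prime] in
theorem expo_eq {x : ℤ × ℤ} {w : ℕ} (hw : (r * x.1 ^ 2 + x.2 ^ 2 : ℤ) = 4 * w) : expo r x = w := by
  unfold expo
  rw [hw]
  simp

theorem four_expo (h3 : r % 4 = 3) {h : ZMod r} {x : ℤ × ℤ} (hx : Cst r h x) :
    (r * x.1 ^ 2 + x.2 ^ 2 : ℤ) = 4 * (expo r x : ℕ) := by
  obtain ⟨w, hw1, _⟩ := exists_exponent h3 hx
  rw [expo_eq hw1, hw1]

/-- The `q`-expansion of the theta series. -/
def thetaSer (r : ℕ) (h : ZMod r) : PowerSeries ℂ :=
  PowerSeries.mk fun n => (Nat.card {x : {x : ℤ × ℤ // Cst r h x} // expo r x.1 = n} : ℂ)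

theorem hasQ_theta (h3 : r % 4 = 3) (h : ZMod r) :
    HasQ r (fun τ : ℍ => theta r h τ) (thetaSer r h) := by
  have hr : r ≠ 2 := by rintro rfl; omega
  refine (hasQ_of_hasSum (Q := fun x : {x : ℤ × ℤ // Cst r h x} => expo r x.1) ?_).2
  intro τ
  have h1 := hasSum_theta hr h τ.im_pos
  have h2 : (fun x : ℤ × ℤ => if Cst r h x then eV r τ x else 0) =
      Set.indicator {x | Cst r h x} (fun x => eV r τ x) := by
    funext x
    simp [Set.indicator]
  rw [h2] at h1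
  have h4 := (hasSum_subtype_iff_indicator (s := {x | Cst r h x})).2 h1
  refine hasSum_of_eq h4 fun x => ?_
  rw [Function.comp_apply, eV_eq (four_expo h3 x.2)]

theorem thetaSer_coeff_zero (h3 : r % 4 = 3) (h : ZMod r) :
    (thetaSer r h).coeff 0 = if h = 0 then 1 else 0 := by
  rw [thetaSer, PowerSeries.coeff_mk]
  have hr0 : (r : ℤ) > 0 := by exact_mod_cast (Fact.out : r.Prime).pos
  have key : ∀ x : ℤ × ℤ, Cst r h x → (expo r x = 0 ↔ x = (0, 0)) := by
    rintro ⟨v, u⟩ hx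
    have h4 := four_expo h3 hx
    simp only at h4
    constructor
    · intro h5
      rw [h5] at h4
      have h6 : (r : ℤ) * v ^ 2 + u ^ 2 = 0 := by simpa using h4
      have h7 : 0 ≤ (r : ℤ) * v ^ 2 := by positivity
      have h8 : u ^ 2 = 0 := by nlinarith [sq_nonneg u]
      have h9 : (r : ℤ) * v ^ 2 = 0 := by linarith
      have h10 : v ^ 2 = 0 := by
        rcases mul_eq_zero.1 h9 with h | h
        · omega
        · exact h
      rw [pow_eq_zero_iff two_ne_zero] at h8 h10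
      rw [h8, h10]
    · intro h5
      rw [Prod.mk.injEq] at h5
      rw [h5.1, h5.2]
      simp [expo]
  split_ifs with hh
  · subst hh
    have h0 : Cst r 0 (0, 0) := ⟨by norm_num, by simp⟩
    have : Nat.card {x : {x : ℤ × ℤ // Cst r 0 x} // expo r x.1 = 0} = 1 := by
      rw [Nat.card_eq_one_iff_exists]
      refine ⟨⟨⟨(0, 0), h0⟩, (key _ h0).2 rfl⟩, ?_⟩
      rintro ⟨⟨x, hx⟩, hx'⟩
      have := (key _ hx).1 hx'
      subst this
      rfl
    rw [this, Nat.cast_one]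
  · have : IsEmpty {x : {x : ℤ × ℤ // Cst r h x} // expo r x.1 = 0} := by
      constructor
      rintro ⟨⟨x, hx⟩, hx'⟩
      have h5 := (key _ hx).1 hx'
      subst h5
      apply hh
      rw [← hx.2]
      simp
    rw [Nat.card_of_isEmpty, Nat.cast_zero]

/-- The theta series as a function on the upper half plane. -/
def thetaH (r : ℕ) (h : ZMod r) : ℍ → ℂ := fun τ => theta r h τ

theorem hasQ_thetaH (h3 : r % 4 = 3) (h : ZMod r) : HasQ r (thetaH r h) (thetaSer r h) :=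
  hasQ_theta h3 h

/-- The constant in the transformation formula. -/
def sr (r : ℕ) : ℂ := I * (Real.sqrt r : ℂ)

omit [Fact r.Prime] in
theorem sr_sq : sr r * sr r = -(r : ℂ) := by
  unfold sr
  have : (Real.sqrt r : ℂ) * (Real.sqrt r : ℂ) = r := by
    rw [← Complex.ofReal_mul, Real.mul_self_sqrt (Nat.cast_nonneg r), Complex.ofReal_natCast]
  linear_combination (I * I) * this + (r : ℂ) * Complex.I_mul_I

theorem sr_ne : sr r ≠ 0 := by
  intro h
  have h1 := sr_sq (r := r)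
  rw [h] at h1
  have hr0 : (r : ℂ) ≠ 0 := Nat.cast_ne_zero.2 (Fact.out : r.Prime).ne_zero
  exact hr0 (by linear_combination h1)

theorem thetaH_S (hr : r ≠ 2) (h : ZMod r) :
    (thetaH r h) ∣[(1 : ℤ)] S =
      ∑ k : ZMod r, (1 / sr r * psi (-(2⁻¹ * h * k))) • thetaH r k := by
  ext τ
  rw [slash_S_apply, thetaH, coe_S_smul, theta_S hr h τ.im_pos]
  rw [Finset.sum_apply]
  simp only [Pi.smul_apply, smul_eq_mul, thetaH, sr]
  have := τ.ne_zero
  rw [zpow_neg_one]
  field_simp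

theorem thetaH_T (h3 : r % 4 = 3) (h : ZMod r) (n : ℤ) :
    (thetaH r h) ∣[(1 : ℤ)] (T ^ n : SL(2, ℤ)) = psi ((n : ZMod r) * 4⁻¹ * h ^ 2) • thetaH r h := by
  rw [slash_T]
  ext τ
  rw [thetaH, coe_T_zpow_smul_eq, Pi.smul_apply, smul_eq_mul, theta_T h3 h n τ.im_pos]
  rfl

end

end Fermat.Agent.Eis16
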