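import Fermat.Agent.Eis16.Theta2

set_option autoImplicit false

/-!
# The transformation of the theta series under all of `SL(2, ℤ)`
-/

open Complex Filter Topology Function
open UpperHalfPlane hiding I
open ModularGroup Matrix.SpecialLinearGroup
open scoped Manifold ModularForm MatrixGroups Real

namespace Fermat.Agent.Eis16

noncomputable section

local notation "𝕢" => Function.Periodic.qParam

variable {r : ℕ} [Fact r.Prime]

theorem sum_smul_slash (k : ℤ) (g : SL(2, ℤ)) (c : ZMod r → ℂ) (f : ZMod r → ℍ → ℂ) :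
    (∑ i, c i • f i) ∣[k] g = ∑ i, c i • (f i ∣[k] g) := by
  rw [SlashAction.sum_slash]
  exact Finset.sum_congr rfl fun i _ => by rw [ModularForm.SL_smul_slash]

theorem four_ne' (hr : r ≠ 2) : (4 : ZMod r) ≠ 0 := by
  have h2 := four_ne hr
  have : (4 : ZMod r) = 2 * 2 := by norm_num
  rw [this]; exact mul_ne_zero h2 h2

theorem sum_psi_quarter (hr : r ≠ 2) (y : ZMod r) :
    ∑ k : ZMod r, psi (4⁻¹ * (k - y) ^ 2) = gs r := by
  rw [sum_psi_shift hr (inv_ne_zero (four_ne' hr)) y, chi_inv]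
  have : (4 : ZMod r) = 2 * 2 := by norm_num
  rw [this, chi_mul, chi_sq (four_ne hr), one_mul]

/-- The sign of the quadratic Gauss sum for `r ≡ 3 mod 4`. -/
theorem gs_eq_sr (h3 : r % 4 = 3) : gs r = sr r := by
  have hr : r ≠ 2 := by rintro rfl; omega
  have h2 := four_ne hr
  have h42 : (4 : ZMod r)⁻¹ * 2 = 2⁻¹ := by
    have : (4 : ZMod r) = 2 * 2 := by norm_num
    rw [this, mul_inv]
    field_simp
  have hsr := sr_ne (r := r)
  set F : ℍ → ℂ := ∑ j : ZMod r, psi (-(4⁻¹ * j ^ 2)) • thetaH r j with hF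
  have hS0 : (thetaH r 0) ∣[(1 : ℤ)] S = ∑ k : ZMod r, (1 / sr r) • thetaH r k := by
    rw [thetaH_S hr]
    refine Finset.sum_congr rfl fun k _ => ?_
    rw [mul_zero, zero_mul, neg_zero, psi_zero, mul_one]
  have hrel : (S * T ^ (1 : ℤ) * S : SL(2, ℤ)) = T ^ (-1 : ℤ) * S * T ^ (-1 : ℤ) := by
    ext i j
    rw [coe_mul, coe_mul, coe_mul, coe_mul, coe_S, coe_T_zpow, coe_T_zpow]
    fin_cases i <;> fin_cases j <;> simp [Matrix.mul_apply, Fin.sum_univ_two]
  have hL : (thetaH r 0) ∣[(1 : ℤ)] (S * T ^ (1 : ℤ) * S : SL(2, ℤ)) =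
      (gs r / (sr r * sr r)) • F := by
    rw [SlashAction.slash_mul, SlashAction.slash_mul, hS0, sum_smul_slash, sum_smul_slash]
    simp only [thetaH_T h3, Int.cast_one, one_mul, ModularForm.SL_smul_slash, thetaH_S hr]
    ext τ
    simp only [hF, Finset.sum_apply, Pi.smul_apply, smul_eq_mul, Finset.mul_sum]
    rw [Finset.sum_comm]
    refine Finset.sum_congr rfl fun j _ => ?_
    have e1 : ∀ k : ZMod r, 1 / sr r * (psi (4⁻¹ * k ^ 2) *
        (1 / sr r * psi (-(2⁻¹ * k * j)) * thetaH r j τ)) =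
        psi (4⁻¹ * (k - j) ^ 2) * (1 / (sr r * sr r) * psi (-(4⁻¹ * j ^ 2)) * thetaH r j τ) := by
      intro k
      have e2 : (4⁻¹ * k ^ 2) + (-(2⁻¹ * k * j)) = (4⁻¹ * (k - j) ^ 2) + (-(4⁻¹ * j ^ 2)) := by
        rw [← h42]; ring
      have e3 := congrArg psi e2
      rw [psi_add, psi_add] at e3
      calc _ = 1 / (sr r * sr r) * thetaH r j τ * (psi (4⁻¹ * k ^ 2) * psi (-(2⁻¹ * k * j))) := by
            field_simp
        _ = _ := by rw [e3]; ring
    rw [Finset.sum_congr rfl fun k _ => e1 k, ← Finset.sum_mul, sum_psi_quarter hr]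
    field_simp
  have hR : (thetaH r 0) ∣[(1 : ℤ)] (T ^ (-1 : ℤ) * S * T ^ (-1 : ℤ) : SL(2, ℤ)) =
      (1 / sr r) • F := by
    rw [SlashAction.slash_mul, SlashAction.slash_mul, thetaH_T h3, ModularForm.SL_smul_slash,
      hS0, ModularForm.SL_smul_slash, sum_smul_slash]
    simp only [thetaH_T h3]
    ext τ
    simp only [hF, Finset.sum_apply, Pi.smul_apply, smul_eq_mul, Finset.mul_sum]
    refine Finset.sum_congr rfl fun j _ => ?_
    have e1 : psi (((-1 : ℤ) : ZMod r) * 4⁻¹ * 0 ^ 2) = 1 := by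
      rw [zero_pow two_ne_zero, mul_zero, psi_zero]
    have e2 : (((-1 : ℤ) : ZMod r) * 4⁻¹ * j ^ 2) = -(4⁻¹ * j ^ 2) := by
      push_cast
      ring
    rw [e1, e2, one_mul]
  have hne : F ≠ 0 := by
    intro h0
    have hq : HasQ r F (∑ j : ZMod r, psi (-(4⁻¹ * j ^ 2)) • thetaSer r j) :=
      HasQ.finset_sum _ fun j _ => (hasQ_thetaH h3 j).smul _
    have hr0 : (0 : ℝ) < r := Nat.cast_pos.2 (Fact.out : r.Prime).pos
    rw [h0] at hq
    have h1 := congrArg (PowerSeries.coeff 0) (hq.unique hr0 (HasQ.zero r))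
    rw [map_sum] at h1
    simp only [map_zero] at h1
    rw [Finset.sum_eq_single 0] at h1
    · rw [zero_pow two_ne_zero, mul_zero, neg_zero, psi_zero, one_smul, thetaSer_coeff_zero h3,
        if_pos rfl] at h1
      exact one_ne_zero h1
    · intro j _ hj
      rw [PowerSeries.coeff_smul, thetaSer_coeff_zero h3, if_neg hj, smul_zero]
    · intro h
      exact absurd (Finset.mem_univ _) h
  rw [hrel, hR] at hL
  have h5 : 1 / sr r = gs r / (sr r * sr r) := by
    by_contra hcon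
    apply hne
    have h6 : ((1 / sr r) - gs r / (sr r * sr r)) • F = 0 := by
      rw [sub_smul, hL, sub_self]
    rcases smul_eq_zero.1 h6 with h | h
    · exact absurd (sub_eq_zero.1 h) hcon
    · exact h
  field_simp at h5
  exact h5.symm

theorem chi_neg_one (h3 : r % 4 = 3) : chi (-1 : ZMod r) = -1 := by
  have hr : r ≠ 2 := by rintro rfl; omega
  have h1 := quadraticChar_neg_one (ringChar_ne hr)
  rw [chi, h1, ZMod.card, ZMod.χ₄_nat_three_mod_four h3]
  simp

/-- The transformation formula. -/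
def Trf (r : ℕ) [Fact r.Prime] (g : SL(2, ℤ)) : Prop :=
  ∀ h : ZMod r, (thetaH r h) ∣[(1 : ℤ)] g =
    ∑ k : ZMod r, weil (sr r) (g 0 0 : ZMod r) (g 0 1 : ZMod r) (g 1 0 : ZMod r)
      (g 1 1 : ZMod r) h k • thetaH r k

theorem det_cast (g : SL(2, ℤ)) :
    (g 0 0 : ZMod r) * (g 1 1 : ZMod r) - (g 0 1 : ZMod r) * (g 1 0 : ZMod r) = 1 := by
  have := g.2
  rw [Matrix.det_fin_two] at this
  exact_mod_cast congrArg (Int.cast (R := ZMod r)) this

theorem trf_one : Trf r 1 := by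
  intro h
  rw [SlashAction.slash_one]
  simp only [Matrix.SpecialLinearGroup.coe_one, Matrix.one_apply_eq, Int.cast_one]
  have h01 : (1 : Matrix (Fin 2) (Fin 2) ℤ) 0 1 = 0 := rfl
  have h10 : (1 : Matrix (Fin 2) (Fin 2) ℤ) 1 0 = 0 := rfl
  rw [h01, h10, Int.cast_zero]
  simp only [weil_one, ite_smul, one_smul, zero_smul]
  rw [Finset.sum_ite_eq' Finset.univ h (fun k => thetaH r k)]
  simp

theorem trf_T (h3 : r % 4 = 3) {g : SL(2, ℤ)} (hg : Trf r g) (n : ℤ) : Trf r (g * T ^ n) := by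
  have hr : r ≠ 2 := by rintro rfl; omega
  intro h
  rw [SlashAction.slash_mul, hg h, sum_smul_slash]
  refine Finset.sum_congr rfl fun k _ => ?_
  rw [thetaH_T h3, smul_smul]
  congr 1
  have e00 : (g * T ^ n : SL(2, ℤ)) 0 0 = g 0 0 := by
    rw [coe_mul, coe_T_zpow]; simp [Matrix.mul_apply, Fin.sum_univ_two]
  have e01 : (g * T ^ n : SL(2, ℤ)) 0 1 = g 0 0 * n + g 0 1 := by
    rw [coe_mul, coe_T_zpow]; simp [Matrix.mul_apply, Fin.sum_univ_two]
  have e10 : (g * T ^ n : SL(2, ℤ)) 1 0 = g 1 0 := by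
    rw [coe_mul, coe_T_zpow]; simp [Matrix.mul_apply, Fin.sum_univ_two]
  have e11 : (g * T ^ n : SL(2, ℤ)) 1 1 = g 1 0 * n + g 1 1 := by
    rw [coe_mul, coe_T_zpow]; simp [Matrix.mul_apply, Fin.sum_univ_two]
  rw [e00, e01, e10, e11]
  push_cast
  rw [weil_T hr _ (det_cast g)]

theorem trf_S (h3 : r % 4 = 3) {g : SL(2, ℤ)} (hg : Trf r g) : Trf r (g * S) := by
  have hr : r ≠ 2 := by rintro rfl; omega
  intro h
  rw [SlashAction.slash_mul, hg h, sum_smul_slash]
  have e00 : (g * S : SL(2, ℤ)) 0 0 = g 0 1 := by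
    rw [coe_mul, coe_S]; simp [Matrix.mul_apply, Fin.sum_univ_two]
  have e01 : (g * S : SL(2, ℤ)) 0 1 = - g 0 0 := by
    rw [coe_mul, coe_S]; simp [Matrix.mul_apply, Fin.sum_univ_two]
  have e10 : (g * S : SL(2, ℤ)) 1 0 = g 1 1 := by
    rw [coe_mul, coe_S]; simp [Matrix.mul_apply, Fin.sum_univ_two]
  have e11 : (g * S : SL(2, ℤ)) 1 1 = - g 1 0 := by
    rw [coe_mul, coe_S]; simp [Matrix.mul_apply, Fin.sum_univ_two]
  rw [e00, e01, e10, e11]
  push_cast
  ext τ
  simp only [Finset.sum_apply, Pi.smul_apply, smul_eq_mul, thetaH_S hr, Finset.mul_sum]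
  rw [Finset.sum_comm]
  refine Finset.sum_congr rfl fun j _ => ?_
  rw [← weil_S hr (chi_neg_one h3) (gs_eq_sr h3) sr_sq (det_cast g) h j, Finset.sum_mul]
  refine Finset.sum_congr rfl fun k _ => ?_
  ring

theorem trf_all (h3 : r % 4 = 3) (g : SL(2, ℤ)) : Trf r g := by
  have hg : g ∈ Subgroup.closure {S, T} := by simp [SpecialLinearGroup.SL2Z_generators]
  refine Subgroup.closure_induction_right (p := fun x _ => Trf r x) trf_one ?_ ?_ hg
  · intro x _ y hy hx
    rcases hy with rfl | hy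
    · exact trf_S h3 hx
    · rw [Set.mem_singleton_iff] at hy
      subst hy
      have := trf_T h3 hx 1
      rwa [zpow_one] at this
  · intro x _ y hy hx
    rcases hy with rfl | hy
    · have h4 : (x * S⁻¹ : SL(2, ℤ)) = x * S * S * S := by
        have h5 : (S * S * S : SL(2, ℤ)) = S⁻¹ := by
          rw [eq_inv_iff_mul_eq_one, mul_assoc (S * S), S_mul_S]
          simp
        rw [← h5]
        group
      rw [h4]
      exact trf_S h3 (trf_S h3 (trf_S h3 hx))
    · rw [Set.mem_singleton_iff] at hy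
      subst hy
      have := trf_T h3 hx (-1)
      rwa [zpow_neg_one] at this

end

end Fermat.Agent.Eis16
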