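import Fermat.Agent.Eis16.Theta3
import Fermat.Agent.Eis16.Trace

set_option autoImplicit false

/-!
# A theta series of weight two on `Γ₀(p)` with constant term one
-/

open Complex Filter Topology Function
open UpperHalfPlane hiding I
open ModularGroup Matrix.SpecialLinearGroup CongruenceSubgroup
open scoped Manifold ModularForm MatrixGroups Real

namespace Fermat.Agent.Eis16

noncomputable section

local notation "𝕢" => Function.Periodic.qParam

theorem even_card_of_involution {α : Type*} [Finite α] (σ : α → α) (hσ : ∀ x, σ (σ x) = x)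
    (hfix : ∀ x, σ x ≠ x) : Even (Nat.card α) := by
  classical
  have := Fintype.ofFinite α
  have h1 := Equiv.Perm.card_fixedPoints_modEq (α := α) (f := σ) (p := 2) (n := 1) (by
    funext x
    exact hσ x)
  have h2 : IsEmpty (Function.fixedPoints σ) := ⟨fun x => hfix x.1 x.2⟩
  rw [Fintype.card_eq_zero_iff.2 h2] at h1
  rw [Nat.card_eq_fintype_card, Nat.even_iff]
  exact h1

theorem hasSum_mul_gen {ι κ : Type*} {f : ι → ℂ} {g : κ → ℂ} {a b : ℂ} (hf : HasSum f a)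
    (hg : HasSum g b) : HasSum (fun x : ι × κ => f x.1 * g x.2) (a * b) :=
  hf.mul hg (summable_mul_of_summable_norm hf.summable.norm hg.summable.norm)

variable {r : ℕ} [Fact r.Prime] {p : ℕ} [Fact p.Prime]

instance instNeZeroPrime' : NeZero p := ⟨(Fact.out : p.Prime).ne_zero⟩

theorem eq_zero_of_expo (h3 : r % 4 = 3) {h : ZMod r} {x : ℤ × ℤ} (hx : Cst r h x)
    (h0 : expo r x = 0) : x = (0, 0) := by
  obtain ⟨v, u⟩ := x
  have hr0 : (r : ℤ) > 0 := by exact_mod_cast (Fact.out : r.Prime).pos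
  have h4 := four_expo h3 hx
  simp only at h4
  rw [h0] at h4
  have h6 : (r : ℤ) * v ^ 2 + u ^ 2 = 0 := by simpa using h4
  have h7 : 0 ≤ (r : ℤ) * v ^ 2 := by positivity
  have h8 : u ^ 2 = 0 := by nlinarith [sq_nonneg u]
  have h9 : (r : ℤ) * v ^ 2 = 0 := by linarith
  have h10 : v ^ 2 = 0 := by
    rcases mul_eq_zero.1 h9 with h | h
    · omega
    · exact h
  rw [pow_eq_zero_iff two_ne_zero] at h8 h10
  rw [h8, h10]

/-- The weight two theta series. -/
def G0 (r : ℕ) [Fact r.Prime] (p : ℕ) [NeZero p] (l : ZMod r) : ℍ → ℂ :=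
  ∑ h : ZMod r, thetaH r h * fun τ => thetaH r (l * h) (up p τ)

theorem G0_slash (h3 : r % 4 = 3) {l : ZMod r} (hP : chi (p : ZMod r) = -1)
    (hl : (p : ZMod r) * l ^ 2 = -1) (g : SL(2, ℤ)) (hg : g ∈ Gamma0 p) :
    (G0 r p l) ∣[(2 : ℤ)] g = G0 r p l := by
  have hr : r ≠ 2 := by rintro rfl; omega
  unfold G0
  rw [SlashAction.sum_slash]
  have e1 : ∀ h : ZMod r, (thetaH r h * fun τ => thetaH r (l * h) (up p τ)) ∣[(2 : ℤ)] g =
      (thetaH r h) ∣[(1 : ℤ)] g * (fun τ => ((thetaH r (l * h)) ∣[(1 : ℤ)] (cj g hg)) (up p τ)) := by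
    intro h
    rw [← slash_up 1 (thetaH r (l * h)) g hg, ← ModularForm.mul_slash_SL2]
    norm_num
  rw [Finset.sum_congr rfl fun h _ => e1 h]
  have e00 : (cj g hg : SL(2, ℤ)) 0 0 = g 0 0 := rfl
  have e01 : (cj g hg : SL(2, ℤ)) 0 1 = p * g 0 1 := rfl
  have e10 : (cj g hg : SL(2, ℤ)) 1 0 = g 1 0 / p := rfl
  have e11 : (cj g hg : SL(2, ℤ)) 1 1 = g 1 1 := rfl
  have hc' : (p : ZMod r) * ((g 1 0 / p : ℤ) : ZMod r) = ((g 1 0 : ℤ) : ZMod r) := by
    have := congrArg (Int.cast (R := ZMod r)) (cj_lower g hg)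
    rwa [Int.cast_mul, Int.cast_natCast] at this
  ext τ
  simp only [Finset.sum_apply, Pi.mul_apply, trf_all h3 g _, trf_all h3 (cj g hg) _,
    Pi.smul_apply, smul_eq_mul, e00, e01, e10, e11]
  push_cast
  simp only [Finset.sum_mul_sum]
  rw [Finset.sum_comm]
  refine Finset.sum_congr rfl fun k _ => ?_
  rw [Finset.sum_comm]
  have e2 : ∀ k' : ZMod r, ∑ h : ZMod r,
      weil (sr r) (g 0 0 : ZMod r) (g 0 1 : ZMod r) (g 1 0 : ZMod r) (g 1 1 : ZMod r) h k *
        thetaH r k τ * (weil (sr r) (g 0 0 : ZMod r) ((p : ZMod r) * (g 0 1 : ZMod r))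
        ((g 1 0 / p : ℤ) : ZMod r) (g 1 1 : ZMod r) (l * h) k' * thetaH r k' (up p τ)) =
      (if k' = l * k then 1 else 0) * (thetaH r k τ * thetaH r k' (up p τ)) := by
    intro k'
    rw [← weil_pair hr sr_sq (det_cast g) hP hl hc' k k', Finset.sum_mul]
    exact Finset.sum_congr rfl fun h _ => by ring
  rw [Finset.sum_congr rfl fun k' _ => e2 k']
  simp only [ite_mul, one_mul, zero_mul]
  rw [Finset.sum_ite_eq' Finset.univ (l * k) (fun k' => thetaH r k τ * thetaH r k' (up p τ))]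
  simp

theorem qParam_dn' (τ : ℍ) : 𝕢 r (dn p τ) = 1 * 𝕢 ((p * r : ℕ) : ℝ) τ := by
  have hr0 : (r : ℂ) ≠ 0 := Nat.cast_ne_zero.2 (Fact.out : r.Prime).ne_zero
  simp only [Function.Periodic.qParam, coe_dn]
  rw [one_mul]
  congr 1
  push_cast
  field_simp [p_ne p]

theorem hasQ_G0_S (h3 : r % 4 = 3) {l : ZMod r} (hP : chi (p : ZMod r) = -1)
    (hl : (p : ZMod r) * l ^ 2 = -1) :
    ∃ B, HasQ p ((G0 r p l) ∣[(2 : ℤ)] S) B := by
  have hr : r ≠ 2 := by rintro rfl; omega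
  have hr0 : (0 : ℝ) < r := Nat.cast_pos.2 (Fact.out : r.Prime).pos
  have hpr : (0 : ℝ) < ((p * r : ℕ) : ℝ) :=
    Nat.cast_pos.2 (Nat.mul_pos (Fact.out : p.Prime).pos (Fact.out : r.Prime).pos)
  have hthS : ∀ h : ZMod r, ∃ A, HasQ r ((thetaH r h) ∣[(1 : ℤ)] S) A := by
    intro h
    rw [thetaH_S hr]
    exact ⟨_, HasQ.finset_sum _ fun k _ => (hasQ_thetaH h3 k).smul _⟩
  have hwide : ∃ B, HasQ ((p * r : ℕ) : ℝ) ((G0 r p l) ∣[(2 : ℤ)] S) B := by
    unfold G0
    rw [SlashAction.sum_slash]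
    have e1 : ∀ h : ZMod r, (thetaH r h * fun τ => thetaH r (l * h) (up p τ)) ∣[(2 : ℤ)] S =
        (thetaH r h) ∣[(1 : ℤ)] S *
          ((p : ℂ) ^ (-1 : ℤ) • fun τ => ((thetaH r (l * h)) ∣[(1 : ℤ)] S) (dn p τ)) := by
      intro h
      have h4 : ((p : ℂ) ^ (-1 : ℤ) • fun τ => ((thetaH r (l * h)) ∣[(1 : ℤ)] S) (dn p τ)) =
          (fun τ => thetaH r (l * h) (up p τ)) ∣[(1 : ℤ)] S := by
        rw [slash_up_S p 1 (thetaH r (l * h))]
        rfl
      rw [h4, ← ModularForm.mul_slash_SL2]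
      norm_num
    rw [Finset.sum_congr rfl fun h _ => e1 h]
    choose A hA using hthS
    refine ⟨_, HasQ.finset_sum (A := fun h => ((A h).expand p (NeZero.ne p)) *
      ((p : ℂ) ^ (-1 : ℤ) • PowerSeries.rescale 1 (A (l * h)))) _ fun h _ => ?_⟩
    refine HasQ.mul ?_ (HasQ.smul _ ?_)
    · have := (hA h).change_width p (NeZero.ne p)
      rwa [Nat.cast_mul]
    · exact (hA (l * h)).comp_rescale 1 qParam_dn'
  obtain ⟨B, hB⟩ := hwide
  refine ⟨_, HasQ.of_periodic p_pos ?_ (hB.mdiff hpr) (hB.isBounded hpr)⟩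
  have := periodic_of_translate (f := (G0 r p l) ∣[(2 : ℤ)] S) (n := (p : ℤ)) ?_
  · simpa using this
  · intro τ
    have h1 : ((G0 r p l) ∣[(2 : ℤ)] S) ∣[(2 : ℤ)] (T ^ (p : ℤ)) = (G0 r p l) ∣[(2 : ℤ)] S := by
      rw [← SlashAction.slash_mul]
      have : (S * T ^ (p : ℤ) : SL(2, ℤ)) = (S * T ^ (p : ℤ) * S⁻¹) * S := by group
      rw [this, SlashAction.slash_mul, G0_slash h3 hP hl _ S_T_inv_mem]
    have h := congrFun h1 τ
    rw [Fermat.Agent.Eis16.slash_T] at h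
    exact h

/-- The index set of the theta series. -/
def J (r : ℕ) (l : ZMod r) (x : (ℤ × ℤ) × (ℤ × ℤ)) : Prop :=
  Cst r (x.1.2 : ZMod r) x.1 ∧ Cst r (l * (x.1.2 : ZMod r)) x.2

instance (r : ℕ) (l : ZMod r) : DecidablePred (J r l) := fun x => by
  unfold J; infer_instance

/-- The exponent of the theta series. -/
def qJ (r p : ℕ) (x : (ℤ × ℤ) × (ℤ × ℤ)) : ℕ := (expo r x.1 + p * expo r x.2) / r

omit [Fact p.Prime] in
theorem mul_qJ (h3 : r % 4 = 3) {l : ZMod r} (hl : (p : ZMod r) * l ^ 2 = -1)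
    {x : (ℤ × ℤ) × (ℤ × ℤ)} (hx : J r l x) :
    r * qJ r p x = expo r x.1 + p * expo r x.2 := by
  unfold qJ
  apply Nat.mul_div_cancel'
  rw [← ZMod.natCast_eq_zero_iff]
  obtain ⟨w1, h11, h12⟩ := exists_exponent h3 hx.1
  obtain ⟨w2, h21, h22⟩ := exists_exponent h3 hx.2
  rw [expo_eq h11, expo_eq h21]
  push_cast
  rw [h12, h22]
  linear_combination (4⁻¹ * (x.1.2 : ZMod r) ^ 2) * hl

theorem hasSum_G0 (h3 : r % 4 = 3) {l : ZMod r} (hl : (p : ZMod r) * l ^ 2 = -1) (τ : ℍ) :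
    HasSum (fun x : {x // J r l x} => 𝕢 1 τ ^ qJ r p x.1) (G0 r p l τ) := by
  have hr : r ≠ 2 := by rintro rfl; omega
  have hr0 : (r : ℂ) ≠ 0 := Nat.cast_ne_zero.2 (Fact.out : r.Prime).ne_zero
  have h1 : HasSum (fun x : (ℤ × ℤ) × (ℤ × ℤ) => ∑ h : ZMod r,
      (if Cst r h x.1 then eV r τ x.1 else 0) * (if Cst r (l * h) x.2 then eV r (up p τ) x.2 else 0))
      (G0 r p l τ) := by
    have h4 : ∀ h ∈ (Finset.univ : Finset (ZMod r)), HasSum (fun x : (ℤ × ℤ) × (ℤ × ℤ) =>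
        (if Cst r h x.1 then eV r τ x.1 else 0) *
        (if Cst r (l * h) x.2 then eV r (up p τ) x.2 else 0))
        (theta r h τ * theta r (l * h) (up p τ)) := by
      intro h _
      have h5 := hasSum_theta hr h τ.im_pos
      have h6 := hasSum_theta hr (l * h) (up p τ).im_pos
      have h7 := hasSum_mul_gen h5 h6
      exact h7
    have h5 := hasSum_sum h4
    have h6 : G0 r p l τ = ∑ h : ZMod r, theta r h τ * theta r (l * h) (up p τ) := by
      unfold G0
      rw [Finset.sum_apply]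
      rfl
    rw [h6]
    exact h5
  have h2 : HasSum (Set.indicator {x | J r l x}
      (fun x : (ℤ × ℤ) × (ℤ × ℤ) => 𝕢 1 τ ^ qJ r p x)) (G0 r p l τ) := by
    refine hasSum_of_eq h1 fun x => ?_
    rw [Finset.sum_eq_single (x.1.2 : ZMod r)]
    · by_cases hx : J r l x
      · rw [Set.indicator_of_mem (by exact hx), if_pos hx.1, if_pos hx.2,
          eV_eq (four_expo h3 hx.1), eV_eq (four_expo h3 hx.2)]
        unfold Function.Periodic.qParam
        rw [← Complex.exp_nat_mul, ← Complex.exp_nat_mul, ← Complex.exp_nat_mul,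
          ← Complex.exp_add]
        congr 1
        have h5 := congrArg (Nat.cast (R := ℂ)) (mul_qJ h3 hl hx)
        push_cast at h5
        rw [coe_up]
        push_cast
        field_simp
        linear_combination (-(τ : ℂ)) * h5
      · rw [Set.indicator_of_notMem (by exact hx)]
        unfold J at hx
        rw [not_and_or] at hx
        rcases hx with hx | hx
        · rw [if_neg hx, zero_mul]
        · rw [if_neg hx, mul_zero]
    · intro h _ hh
      have : ¬ Cst r h x.1 := fun hc => hh hc.2.symm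
      rw [if_neg this, zero_mul]
    · intro h
      exact absurd (Finset.mem_univ _) h
  exact (hasSum_subtype_iff_indicator (s := {x | J r l x})).2 h2

theorem G0_coeffs (h3 : r % 4 = 3) {l : ZMod r} (hl : (p : ZMod r) * l ^ 2 = -1) :
    ∃ a : ℕ → ℕ, a 0 = 1 ∧ (∀ n, n ≠ 0 → Even (a n)) ∧
      HasQ 1 (G0 r p l) (PowerSeries.mk fun n => (a n : ℂ)) := by
  obtain ⟨hfin, hQ⟩ := hasQ_of_hasSum (h := 1) (Q := fun x : {x // J r l x} => qJ r p x.1)
    (G := G0 r p l) (hasSum_G0 h3 hl)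
  refine ⟨_, ?_, ?_, hQ⟩
  · have h0 : J r l ((0, 0), (0, 0)) := by
      refine ⟨⟨by norm_num, by simp⟩, ⟨by norm_num, by simp⟩⟩
    rw [Nat.card_eq_one_iff_exists]
    refine ⟨⟨⟨((0, 0), (0, 0)), h0⟩, by simp [qJ, expo]⟩, ?_⟩
    rintro ⟨⟨x, hx⟩, hx'⟩
    have h4 := mul_qJ h3 hl hx
    simp only at hx'
    rw [hx', mul_zero] at h4
    have h5 : expo r x.1 = 0 := by omega
    have h6 : expo r x.2 = 0 := by
      have : p * expo r x.2 = 0 := by omega
      rcases Nat.mul_eq_zero.1 this with h | h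
      · exact absurd h (NeZero.ne p)
      · exact h
    have h7 := eq_zero_of_expo h3 hx.1 h5
    have h8 := eq_zero_of_expo h3 hx.2 h6
    have h9 : x = ((0, 0), (0, 0)) := Prod.ext h7 h8
    subst h9
    rfl
  · intro n hn
    have hneg : ∀ x, J r l x → J r l (-x) := by
      rintro ⟨⟨a, b⟩, ⟨c, d⟩⟩ ⟨⟨h1, h2⟩, ⟨h5, h6⟩⟩
      refine ⟨⟨?_, by simp⟩, ⟨?_, ?_⟩⟩
      · simp only [Prod.neg_mk] at *
        omega
      · simp only [Prod.neg_mk] at *
        omega
      · simp only [Prod.neg_mk, Int.cast_neg] at *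
        rw [h6]
        ring
    have hqneg : ∀ x, qJ r p (-x) = qJ r p x := by
      rintro ⟨⟨a, b⟩, ⟨c, d⟩⟩
      simp [qJ, expo]
    have := hfin n
    refine even_card_of_involution
      (fun x : {x : {x // J r l x} // qJ r p x.1 = n} =>
        (⟨⟨-x.1.1, hneg _ x.1.2⟩, by rw [hqneg]; exact x.2⟩ :
          {x : {x // J r l x} // qJ r p x.1 = n})) ?_ ?_
    · rintro ⟨⟨x, hx⟩, hx'⟩
      simp
    · rintro ⟨⟨x, hx⟩, hx'⟩ heq
      rw [Subtype.mk.injEq, Subtype.mk.injEq] at heq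
      apply hn
      rw [← hx']
      obtain ⟨⟨a, b⟩, ⟨c, d⟩⟩ := x
      simp only [Prod.neg_mk, Prod.mk.injEq] at heq
      have ha : a = 0 := by omega
      have hb : b = 0 := by omega
      have hc : c = 0 := by omega
      have hd : d = 0 := by omega
      subst ha hb hc hd
      simp [qJ, expo]

end

end Fermat.Agent.Eis16
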