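import Mathlib
import Fermat.Agent.Eis16.Trace
import Fermat.Agent.Eis16.EisTwo
import Fermat.Agent.Eis16.Algebra

set_option autoImplicit false

/-!
# Upper bound for the Eisenstein index, first part
-/

open Matrix.SpecialLinearGroup CongruenceSubgroup ModularGroup
open scoped MatrixGroups ModularForm Manifold
open UpperHalfPlane hiding I
open Complex (I)
open EisensteinSeries

namespace Fermat.Agent.Eis16

noncomputable section

local notation "ΓGL" p => (Subgroup.map (Matrix.SpecialLinearGroup.mapGL ℝ) (Gamma0 p))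
local notation "Δ" => ModularForm.discriminant

variable {p : ℕ} [Fact p.Prime]

/-- The form `G = E - f` with its expansions at the two cusps. -/
structure GData (p : ℕ) [Fact p.Prime] (m : ℤ) where
  G : ModularForm (ΓGL p) 2
  h : PowerSeries ℤ
  h1 : PowerSeries ℤ
  h_zero : h.coeff 0 = 0
  h1_zero : h1.coeff 0 = 0
  hQ : HasQ 1 G (PowerSeries.C (((p : ℂ) - 1) / 24) + (m : ℂ) • toC h)
  hQS : HasQ p ((G : ℍ → ℂ) ∣[(2 : ℤ)] S)
    (-(p : ℂ)⁻¹ • (PowerSeries.C (((p : ℂ) - 1) / 24) + (m : ℂ) • toC h1))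

theorem exists_GData {m : ℤ} {f : CuspForm (ΓGL p) 2} (hf : Cong p 1 m f) :
    Nonempty (GData p m) := by
  have hp : p.Prime := Fact.out
  choose k hk using hf
  have hk' : ∀ n, (qExpansion 1 f).coeff n = ((1 * sig p n + m * k n : ℤ) : ℂ) := hk
  let E : ModularForm (ΓGL p) 2 := mkForm 2 (eisTwo p) eisTwo_slash _ _
    (hasQ_eisTwo hp) (hasQ_eisTwo_S hp)
  let f' : ModularForm (ΓGL p) 2 := CuspForm.toModularFormₗ f
  have hf0 : (qExpansion 1 f).coeff 0 = 0 :=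
    CuspFormClass.qExpansion_coeff_zero f one_pos one_mem_periods
  refine ⟨⟨E - f', PowerSeries.mk fun n => if n = 0 then 0 else - k n,
    PowerSeries.mk fun n => if n = 0 then 0 else - k (p * n), by simp, by simp, ?_, ?_⟩⟩
  · have h1 := (hasQ_eisTwo hp).sub (hasQ_self (k := 2) f)
    have h2 : eisSer p - qExpansion 1 f = PowerSeries.C (((p : ℂ) - 1) / 24) +
        (m : ℂ) • toC (PowerSeries.mk fun n => if n = 0 then 0 else - k n) := by
      ext n
      rw [map_sub, map_add, PowerSeries.coeff_smul, coeff_toC, eisSer, PowerSeries.coeff_mk,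
        PowerSeries.coeff_mk, PowerSeries.coeff_C]
      by_cases hn : n = 0
      · subst hn
        rw [hf0]
        simp
      · simp only [if_neg hn]
        rw [hk']
        simp only [smul_eq_mul]
        push_cast
        ring
    rw [h2] at h1
    exact h1
  · have h1 := (hasQ_eisTwo_S hp).sub (cusp_expansion_at_zero f)
    have h2 : (-(p : ℂ)⁻¹ • eisSer p) -
        (PowerSeries.mk fun n => -(p : ℂ)⁻¹ * (qExpansion 1 f).coeff (p * n)) =
        (-(p : ℂ)⁻¹ • (PowerSeries.C (((p : ℂ) - 1) / 24) +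
        (m : ℂ) • toC (PowerSeries.mk fun n => if n = 0 then 0 else - k (p * n)))) := by
      ext n
      rw [map_sub, PowerSeries.coeff_smul, PowerSeries.coeff_smul, map_add,
        PowerSeries.coeff_smul, coeff_toC, eisSer, PowerSeries.coeff_mk,
        PowerSeries.coeff_mk, PowerSeries.coeff_mk, PowerSeries.coeff_C]
      by_cases hn : n = 0
      · subst hn
        rw [mul_zero, hf0]
        simp
      · simp only [if_neg hn]
        rw [hk', mul_comm p n, sig_mul_self hp]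
        simp only [smul_eq_mul]
        push_cast
        ring
    rw [h2] at h1
    have h3 : ((E - f' : ModularForm (ΓGL p) 2) : ℍ → ℂ) ∣[(2 : ℤ)] S =
        (eisTwo p) ∣[(2 : ℤ)] S - (f : ℍ → ℂ) ∣[(2 : ℤ)] S := by
      change (eisTwo p - (f : ℍ → ℂ)) ∣[(2 : ℤ)] S = _
      rw [sub_eq_add_neg, SlashAction.add_slash, SlashAction.neg_slash, ← sub_eq_add_neg]
    rw [h3]
    exact h1

theorem levelOne_slash {k : ℤ} (F : ModularForm 𝒮ℒ k) (g : SL(2, ℤ)) :
    (F : ℍ → ℂ) ∣[k] g = F := F.slash_action_eq' _ ⟨g, rfl⟩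

section Vp

variable {k : ℤ} (F : ModularForm 𝒮ℒ k) {A : PowerSeries ℂ}

theorem vp_inv (g : SL(2, ℤ)) (hg : g ∈ Gamma0 p) :
    (fun τ => F (up p τ)) ∣[k] g = fun τ => F (up p τ) := by
  rw [slash_up k _ g hg, levelOne_slash]

theorem vp_slash_S : (fun τ => F (up p τ)) ∣[k] S = (p : ℂ) ^ (-k) • fun τ => F (dn p τ) := by
  rw [slash_up_S, levelOne_slash]
  rfl

theorem hasQ_vp_S (hA : HasQ 1 F A) :
    HasQ p ((fun τ => F (up p τ)) ∣[k] S) ((p : ℂ) ^ (-k) • A) := by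
  rw [vp_slash_S]
  exact (HasQ.dn p hA).smul _

/-- The form `F(p τ)` on `Γ₀(p)`. -/
def vpForm (hA : HasQ 1 F A) : ModularForm (ΓGL p) k :=
  mkForm k (fun τ => F (up p τ)) (vp_inv F) _ _ (HasQ.up p hA) (hasQ_vp_S F hA)

theorem vpForm_hasQ (hA : HasQ 1 F A) :
    HasQ 1 (vpForm (p := p) F hA) (A.expand p (NeZero.ne p)) := HasQ.up p hA

theorem vpForm_hasQ_S (hA : HasQ 1 F A) :
    HasQ p ((vpForm (p := p) F hA : ℍ → ℂ) ∣[k] S) ((p : ℂ) ^ (-k) • A) := hasQ_vp_S F hA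

/-- The product of a form `G` on `Γ₀(p)` with `F(p τ)`. -/
def mulVp {k' : ℤ} (G : ModularForm (ΓGL p) k') {B C : PowerSeries ℂ} (hB : HasQ 1 G B)
    (hC : HasQ p ((G : ℍ → ℂ) ∣[k'] S) C) (hA : HasQ 1 F A) :
    ModularForm (ΓGL p) (k' + k) :=
  mkForm (k' + k) ((G : ℍ → ℂ) * fun τ => F (up p τ))
    (fun g hg => by rw [ModularForm.mul_slash_SL2, slash_mem G g hg, vp_inv F g hg]) _ _
    (hB.mul (HasQ.up p hA))
    (by rw [ModularForm.mul_slash_SL2]; exact hC.mul (hasQ_vp_S F hA))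

theorem mulVp_hasQ {k' : ℤ} (G : ModularForm (ΓGL p) k') {B C : PowerSeries ℂ}
    (hB : HasQ 1 G B) (hC : HasQ p ((G : ℍ → ℂ) ∣[k'] S) C) (hA : HasQ 1 F A) :
    HasQ 1 (mulVp F G hB hC hA) (B * A.expand p (NeZero.ne p)) :=
  hB.mul (HasQ.up p hA)

theorem mulVp_hasQ_S {k' : ℤ} (G : ModularForm (ΓGL p) k') {B C : PowerSeries ℂ}
    (hB : HasQ 1 G B) (hC : HasQ p ((G : ℍ → ℂ) ∣[k'] S) C) (hA : HasQ 1 F A) :
    HasQ p ((mulVp F G hB hC hA : ℍ → ℂ) ∣[k' + k] S) (C * ((p : ℂ) ^ (-k) • A)) := by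
  have : (mulVp F G hB hC hA : ℍ → ℂ) = (G : ℍ → ℂ) * fun τ => F (up p τ) := rfl
  rw [this, ModularForm.mul_slash_SL2]
  exact hC.mul (hasQ_vp_S F hA)

end Vp

/-- The Hecke relation for `Δ`. -/
theorem ramanujan_relation : (p : ℤ) ^ 11 + DZ.coeff (p * p) = DZ.coeff p ^ 2 := by
  have hp : p.Prime := Fact.out
  have hΔ : HasQ 1 (CuspForm.toModularFormₗ CuspForm.discriminant : ModularForm 𝒮ℒ 12)
    (toC DZ) := hasQ_Delta
  set F := (CuspForm.toModularFormₗ CuspForm.discriminant : ModularForm 𝒮ℒ 12)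
  have h1 := trace_coeff (vpForm (p := p) F hΔ) (vpForm_hasQ F hΔ) (vpForm_hasQ_S F hΔ)
  have hp0 := p_ne p
  have h0 : (qExpansion 1 (ModularForm.trace 𝒮ℒ (vpForm (p := p) F hΔ) :
      ModularForm 𝒮ℒ 12)).coeff 0 = 0 := by
    rw [h1, PowerSeries.coeff_smul, mul_zero, coeff_toC, DZ_coeff_zero,
      PowerSeries.coeff_expand, if_pos (dvd_zero _), Nat.zero_div, coeff_toC, DZ_coeff_zero]
    simp
  obtain ⟨c, hc⟩ := weight12_eq _ h0
  have e1 := h1 1
  have e2 := h1 p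
  rw [hc, PowerSeries.coeff_smul, PowerSeries.coeff_smul, coeff_toC, DZ_coeff_one,
    PowerSeries.coeff_expand_of_not_dvd p _ _ (by
      intro h
      exact hp.one_lt.ne' (Nat.dvd_one.1 h)), mul_one, coeff_toC] at e1
  rw [hc, PowerSeries.coeff_smul, PowerSeries.coeff_smul, coeff_toC, coeff_toC,
    PowerSeries.coeff_expand, if_pos dvd_rfl, Nat.div_self hp.pos, coeff_toC, DZ_coeff_one] at e2
  simp only [smul_eq_mul, Int.cast_one, mul_one, zero_add] at e1 e2
  rw [e1] at e2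
  have h12 : (p : ℂ) ^ (-12 : ℤ) = ((p : ℂ) ^ 12)⁻¹ := by
    rw [zpow_neg]
    norm_cast
  rw [h12] at e2
  have e3 : (p : ℂ) ^ 11 + ((DZ.coeff (p * p) : ℤ) : ℂ) = ((DZ.coeff p : ℤ) : ℂ) ^ 2 := by
    field_simp at e2
    linear_combination -e2
  exact_mod_cast e3

theorem expand_toC (A : PowerSeries ℤ) : (toC A).expand p (NeZero.ne p) =
    toC (A.expand p (NeZero.ne p)) := (PowerSeries.map_expand _ _ _ _).symm

theorem coeff_C_add_smul_mul (c m : ℂ) (A B : PowerSeries ℤ) (n : ℕ) :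
    ((PowerSeries.C c + m • toC A) * toC B).coeff n =
      c * ((B.coeff n : ℤ) : ℂ) + m * (((A * B).coeff n : ℤ) : ℂ) := by
  rw [add_mul, map_add, PowerSeries.coeff_C_mul, coeff_toC, smul_mul_assoc, ← map_mul,
    PowerSeries.coeff_smul, coeff_toC]
  rfl

theorem coeff_mul_expand_one (A B : PowerSeries ℤ) (hA : A.coeff 0 = 0) (hB : B.coeff 0 = 0) :
    (A * B.expand p (NeZero.ne p)).coeff 1 = 0 := by
  have hp : p.Prime := Fact.out
  rw [PowerSeries.coeff_mul, Finset.Nat.antidiagonal_succ]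
  simp [hA, PowerSeries.coeff_expand, hB]

theorem coeff_mul_expand_self (A B : PowerSeries ℤ) (hA : A.coeff 0 = 0) (hB : B.coeff 0 = 0) :
    (A * B.expand p (NeZero.ne p)).coeff p = 0 := by
  have hp : p.Prime := Fact.out
  rw [PowerSeries.coeff_mul]
  apply Finset.sum_eq_zero
  rintro ⟨i, j⟩ hij
  rw [Finset.HasAntidiagonal.mem_antidiagonal] at hij
  simp only at hij ⊢
  rw [PowerSeries.coeff_expand]
  split_ifs with h
  · obtain ⟨e, rfl⟩ := h
    rcases Nat.lt_or_ge e 1 with he | he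
    · have : e = 0 := by omega
      subst this
      simp [hB]
    · have : i = 0 := by nlinarith [hp.pos]
      rw [this, hA, zero_mul]
  · rw [mul_zero]

/-- The first divisibility. -/
theorem GData.dvd_one {m : ℤ} (D : GData p m) :
    24 * m ∣ (p : ℤ) ^ 11 * ((p : ℤ) + 1) * ((p : ℤ) - 1) := by
  have hp : p.Prime := Fact.out
  have hΔ : HasQ 1 (CuspForm.toModularFormₗ CuspForm.discriminant : ModularForm 𝒮ℒ 12)
    (toC DZ) := hasQ_Delta
  set F := (CuspForm.toModularFormₗ CuspForm.discriminant : ModularForm 𝒮ℒ 12)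
  have h1 := trace_coeff (mulVp F D.G D.hQ D.hQS hΔ) (mulVp_hasQ F D.G D.hQ D.hQS hΔ)
    (mulVp_hasQ_S F D.G D.hQ D.hQS hΔ)
  have hp0 := p_ne p
  have h12 : (p : ℂ) ^ (-12 : ℤ) = ((p : ℂ) ^ 12)⁻¹ := by
    rw [zpow_neg]
    norm_cast
  -- rewrite the coefficients
  have h2 : ∀ n, (qExpansion 1 (ModularForm.trace 𝒮ℒ (mulVp F D.G D.hQ D.hQS hΔ) :
      ModularForm 𝒮ℒ (2 + 12))).coeff n =
      (((p : ℂ) - 1) / 24 * (((DZ.expand p (NeZero.ne p)).coeff n : ℤ) : ℂ) +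
        m * (((D.h * DZ.expand p (NeZero.ne p)).coeff n : ℤ) : ℂ)) -
      ((p : ℂ) ^ 12)⁻¹ * (((p : ℂ) - 1) / 24 * ((DZ.coeff (p * n) : ℤ) : ℂ) +
        m * (((D.h1 * DZ).coeff (p * n) : ℤ) : ℂ)) := by
    intro n
    rw [h1 n, expand_toC, coeff_C_add_smul_mul, smul_mul_smul_comm, PowerSeries.coeff_smul,
      coeff_C_add_smul_mul, h12]
    simp only [smul_eq_mul]
    field_simp
    ring
  have h0 : (qExpansion 1 (ModularForm.trace 𝒮ℒ (mulVp F D.G D.hQ D.hQS hΔ) :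
      ModularForm 𝒮ℒ (2 + 12))).coeff 0 = 0 := by
    rw [h2, mul_zero, DZ_coeff_zero, PowerSeries.coeff_expand, if_pos (dvd_zero _),
      Nat.zero_div, DZ_coeff_zero]
    simp [PowerSeries.coeff_mul, D.h_zero, D.h1_zero]
  have hz : (ModularForm.trace 𝒮ℒ (mulVp F D.G D.hQ D.hQS hΔ) :
      ModularForm 𝒮ℒ 14) = 0 := weight14_eq_zero _ h0
  have h3 : ∀ n, (qExpansion 1 (ModularForm.trace 𝒮ℒ (mulVp F D.G D.hQ D.hQS hΔ) :
      ModularForm 𝒮ℒ (2 + 12))).coeff n = 0 := by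
    intro n
    have : ((ModularForm.trace 𝒮ℒ (mulVp F D.G D.hQ D.hQS hΔ) :
      ModularForm 𝒮ℒ (2 + 12)) : ℍ → ℂ) = 0 := congrArg DFunLike.coe hz
    rw [this, qExpansion_zero, map_zero]
  have e1 := h2 1
  have e2 := h2 p
  rw [h3, coeff_mul_expand_one _ _ D.h_zero DZ_coeff_zero,
    PowerSeries.coeff_expand_of_not_dvd p _ _ (by
      intro h
      exact hp.one_lt.ne' (Nat.dvd_one.1 h)), mul_one] at e1
  rw [h3, coeff_mul_expand_self _ _ D.h_zero DZ_coeff_zero,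
    PowerSeries.coeff_expand, if_pos dvd_rfl, Nat.div_self hp.pos, DZ_coeff_one] at e2
  have hR := ramanujan_relation (p := p)
  set X := (D.h1 * DZ).coeff p
  set Y := (D.h1 * DZ).coeff (p * p)
  set a := DZ.coeff p
  set b := DZ.coeff (p * p)
  have e1' : ((p : ℤ) - 1) * a = -24 * m * X := by
    have : ((p : ℂ) - 1) * a = -24 * m * X := by
      have hpp : ((p : ℂ) ^ 12)⁻¹ ≠ 0 := inv_ne_zero (pow_ne_zero _ hp0)
      have h5 : ((p : ℂ) ^ 12)⁻¹ * (((p : ℂ) - 1) / 24 * (a : ℂ) + m * (X : ℂ)) = 0 := by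
        linear_combination e1
      have h6 := (mul_eq_zero.1 h5).resolve_left hpp
      linear_combination 24 * h6
    exact_mod_cast this
  have e2' : (p : ℤ) ^ 12 * ((p : ℤ) - 1) = ((p : ℤ) - 1) * b + 24 * m * Y := by
    have : (p : ℂ) ^ 12 * ((p : ℂ) - 1) = ((p : ℂ) - 1) * b + 24 * m * Y := by
      have hpp : (p : ℂ) ^ 12 ≠ 0 := pow_ne_zero _ hp0
      field_simp at e2
      push_cast at e2
      linear_combination -e2
    exact_mod_cast this
  refine ⟨Y - X * a, ?_⟩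
  linear_combination e2' + ((p : ℤ) - 1) * hR + a * e1'

end

end Fermat.Agent.Eis16
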