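import Mathlib
import Fermat.Agent.Eis16.Upper1

set_option autoImplicit false

/-!
# Upper bound for the Eisenstein index: the prime `p` itself
-/

open Matrix.SpecialLinearGroup CongruenceSubgroup ModularGroup
open scoped MatrixGroups ModularForm Manifold
open UpperHalfPlane hiding I
open Complex (I)
open EisensteinSeries ModularForm

namespace Fermat.Agent.Eis16

noncomputable section

local notation "ΓGL" p => (Subgroup.map (Matrix.SpecialLinearGroup.mapGL ℝ) (Gamma0 p))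

variable {p : ℕ} [Fact p.Prime]

theorem sigma_prime (k : ℕ) {q : ℕ} (hq : q.Prime) :
    ArithmeticFunction.sigma k q = 1 + q ^ k := by
  rw [ArithmeticFunction.sigma_apply, hq.divisors, Finset.sum_pair hq.one_lt.ne]
  simp

/-- The second relation, from the trace of `G · E₄(p z)`. -/
theorem GData.relation_four {m : ℤ} (D : GData p m) (n : ℕ) :
    (p : ℤ) ^ 4 * (((p : ℤ) - 1) * (E4Z.expand p (NeZero.ne p)).coeff n +
      24 * m * (D.h * E4Z.expand p (NeZero.ne p)).coeff n) -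
    (((p : ℤ) - 1) * E4Z.coeff (p * n) + 24 * m * (D.h1 * E4Z).coeff (p * n)) =
    ((p : ℤ) ^ 4 - 1) * ((p : ℤ) - 1) * E6Z.coeff n := by
  have hp : p.Prime := Fact.out
  have hE : HasQ 1 (E₄ : ModularForm 𝒮ℒ 4) (toC E4Z) := hasQ_E4
  have h1 := trace_coeff (mulVp E₄ D.G D.hQ D.hQS hE) (mulVp_hasQ E₄ D.G D.hQ D.hQS hE)
    (mulVp_hasQ_S E₄ D.G D.hQ D.hQS hE)
  have hp0 := p_ne p
  have h12 : (p : ℂ) ^ (-4 : ℤ) = ((p : ℂ) ^ 4)⁻¹ := by
    rw [zpow_neg]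
    norm_cast
  have h2 : ∀ n, (qExpansion 1 (ModularForm.trace 𝒮ℒ (mulVp E₄ D.G D.hQ D.hQS hE) :
      ModularForm 𝒮ℒ (2 + 4))).coeff n =
      (((p : ℂ) - 1) / 24 * (((E4Z.expand p (NeZero.ne p)).coeff n : ℤ) : ℂ) +
        m * (((D.h * E4Z.expand p (NeZero.ne p)).coeff n : ℤ) : ℂ)) -
      ((p : ℂ) ^ 4)⁻¹ * (((p : ℂ) - 1) / 24 * ((E4Z.coeff (p * n) : ℤ) : ℂ) +
        m * (((D.h1 * E4Z).coeff (p * n) : ℤ) : ℂ)) := by
    intro n
    rw [h1 n, expand_toC, coeff_C_add_smul_mul, smul_mul_smul_comm, PowerSeries.coeff_smul,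
      coeff_C_add_smul_mul, h12]
    simp only [smul_eq_mul]
    field_simp
    ring
  obtain ⟨c, hc⟩ := weight6_eq (ModularForm.trace 𝒮ℒ (mulVp E₄ D.G D.hQ D.hQS hE) :
      ModularForm 𝒮ℒ 6)
  have h3 : ∀ n, (qExpansion 1 (ModularForm.trace 𝒮ℒ (mulVp E₄ D.G D.hQ D.hQS hE) :
      ModularForm 𝒮ℒ (2 + 4))).coeff n = c * ((E6Z.coeff n : ℤ) : ℂ) := by
    intro n
    have := congrArg (PowerSeries.coeff n) hc
    rw [PowerSeries.coeff_smul, coeff_toC] at this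
    exact this
  have e0 := h2 0
  have en := h2 n
  have hz1 : (D.h * E4Z.expand p (NeZero.ne p)).coeff 0 = 0 := by
    simp [PowerSeries.coeff_mul, D.h_zero]
  have hz2 : (D.h1 * E4Z).coeff 0 = 0 := by
    simp [PowerSeries.coeff_mul, D.h1_zero]
  rw [h3, mul_zero, hz1, hz2, PowerSeries.coeff_expand, if_pos (dvd_zero _), Nat.zero_div,
    E4Z_coeff_zero, E6Z_coeff_zero] at e0
  rw [h3] at en
  have hpp : (p : ℂ) ^ 4 ≠ 0 := pow_ne_zero _ hp0
  have e0' : 24 * (p : ℂ) ^ 4 * c = ((p : ℂ) ^ 4 - 1) * ((p : ℂ) - 1) := by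
    field_simp at e0
    push_cast at e0
    linear_combination e0
  have en' : 24 * (p : ℂ) ^ 4 * (c * ((E6Z.coeff n : ℤ) : ℂ)) =
      (p : ℂ) ^ 4 * (((p : ℂ) - 1) * (((E4Z.expand p (NeZero.ne p)).coeff n : ℤ) : ℂ) +
      24 * m * (((D.h * E4Z.expand p (NeZero.ne p)).coeff n : ℤ) : ℂ)) -
    (((p : ℂ) - 1) * ((E4Z.coeff (p * n) : ℤ) : ℂ) +
      24 * m * (((D.h1 * E4Z).coeff (p * n) : ℤ) : ℂ)) := by
    rw [en]
    field_simp
  have : (p : ℂ) ^ 4 * (((p : ℂ) - 1) * (((E4Z.expand p (NeZero.ne p)).coeff n : ℤ) : ℂ) +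
      24 * m * (((D.h * E4Z.expand p (NeZero.ne p)).coeff n : ℤ) : ℂ)) -
    (((p : ℂ) - 1) * ((E4Z.coeff (p * n) : ℤ) : ℂ) +
      24 * m * (((D.h1 * E4Z).coeff (p * n) : ℤ) : ℂ)) =
    ((p : ℂ) ^ 4 - 1) * ((p : ℂ) - 1) * ((E6Z.coeff n : ℤ) : ℂ) := by
    rw [← en', ← e0']
    ring
  exact_mod_cast this

theorem GData.not_dvd_self {m : ℤ} (D : GData p m) (hp5 : 5 ≤ p) : ¬ (p : ℤ) ∣ m := by
  have hp : p.Prime := Fact.out
  rintro ⟨m', rfl⟩
  have hn : ∀ n, (p : ℤ) ∣ E4Z.coeff (p * n) - E6Z.coeff n := by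
    intro n
    have h := D.relation_four n
    set a := (E4Z.expand p (NeZero.ne p)).coeff n
    set b := (D.h * E4Z.expand p (NeZero.ne p)).coeff n
    set d := (D.h1 * E4Z).coeff (p * n)
    set x := E4Z.coeff (p * n)
    set y := E6Z.coeff n
    refine ⟨-(p : ℤ) ^ 3 * ((p - 1) * a + 24 * (p * m') * b) + x + 24 * m' * d +
      ((p : ℤ) ^ 4 - p ^ 3 - 1) * y, ?_⟩
    linear_combination h
  have h1 := hn 1
  have h2 := hn 2
  rw [mul_one, coeff_E4Z, coeff_E6Z, if_neg hp.ne_zero, if_neg one_ne_zero,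
    sigma_prime 3 hp] at h1
  rw [mul_comm p 2, coeff_E4Z, coeff_E6Z, if_neg (by positivity), if_neg two_ne_zero,
    ArithmeticFunction.isMultiplicative_sigma.map_mul_of_coprime
      ((Nat.coprime_primes Nat.prime_two hp).2 (by omega)),
    sigma_prime 3 hp, sigma_prime 3 Nat.prime_two, sigma_prime 5 Nat.prime_two] at h2
  have h3 : (p : ℤ) ∣ 744 := by
    have : (744 : ℤ) = (240 * ((1 + p ^ 3 : ℕ) : ℤ) - -504 * (ArithmeticFunction.sigma 5 1 : ℤ)) -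
        (p : ℤ) * (240 * p ^ 2) := by
      simp
      ring
    rw [this]
    exact dvd_sub h1 (dvd_mul_right _ _)
  have h4 : (p : ℤ) ∣ 18792 := by
    have : (18792 : ℤ) = (240 * (((1 + 2 ^ 3) * (1 + p ^ 3) : ℕ) : ℤ) -
        -504 * ((1 + 2 ^ 5 : ℕ) : ℤ)) - (p : ℤ) * (2160 * p ^ 2) := by
      push_cast
      ring
    rw [this]
    exact dvd_sub h2 (dvd_mul_right _ _)
  have h5 : (p : ℤ) ∣ 24 := by
    have : (24 : ℤ) = 4 * 18792 - 101 * 744 := by norm_num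
    rw [this]
    exact dvd_sub (h4.mul_left _) (h3.mul_left _)
  have h6 : p ∣ 24 := by exact_mod_cast h5
  have h7 : p ∣ 2 ^ 3 * 3 := by simpa using h6
  rcases (hp.dvd_mul).1 h7 with h | h
  · have := (Nat.prime_dvd_prime_iff_eq hp Nat.prime_two).1 (hp.dvd_of_dvd_pow h)
    omega
  · have := (Nat.prime_dvd_prime_iff_eq hp Nat.prime_three).1 h
    omega

end

end Fermat.Agent.Eis16
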