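import Mathlib
import Fermat.Agent.Eis16.Upper2
import Fermat.Agent.Eis16.Norm

set_option autoImplicit false

/-!
# Upper bound for the Eisenstein index: primes dividing `p + 1`
-/

open Matrix.SpecialLinearGroup CongruenceSubgroup ModularGroup
open scoped MatrixGroups ModularForm Manifold
open UpperHalfPlane hiding I
open Complex (I)
open EisensteinSeries ModularForm

namespace Fermat.Agent.Eis16

noncomputable section

local notation "ΓGL" p => (Subgroup.map (Matrix.SpecialLinearGroup.mapGL ℝ) (Gamma0 p))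

variable {p : ℕ} [Fact p.Prime]

/-- `f` is a form of weight `k` on `Γ₀(p)` with the given expansions. -/
structure IsW (p : ℕ) [Fact p.Prime] (k : ℤ) (f : ℍ → ℂ) (A B : PowerSeries ℂ) : Prop where
  inv : ∀ g ∈ Gamma0 p, f ∣[k] g = f
  hA : HasQ 1 f A
  hB : HasQ p (f ∣[k] S) B

namespace IsW

variable {k k' : ℤ} {f g : ℍ → ℂ} {A B C D : PowerSeries ℂ}

theorem mul (hf : IsW p k f A B) (hg : IsW p k' g C D) :
    IsW p (k + k') (f * g) (A * C) (B * D) where
  inv γ hγ := by rw [ModularForm.mul_slash_SL2, hf.inv γ hγ, hg.inv γ hγ]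
  hA := hf.hA.mul hg.hA
  hB := by rw [ModularForm.mul_slash_SL2]; exact hf.hB.mul hg.hB

theorem add (hf : IsW p k f A B) (hg : IsW p k g C D) :
    IsW p k (f + g) (A + C) (B + D) where
  inv γ hγ := by rw [SlashAction.add_slash, hf.inv γ hγ, hg.inv γ hγ]
  hA := hf.hA.add hg.hA
  hB := by rw [SlashAction.add_slash]; exact hf.hB.add hg.hB

theorem smul (c : ℂ) (hf : IsW p k f A B) : IsW p k (c • f) (c • A) (c • B) where
  inv γ hγ := by rw [ModularForm.SL_smul_slash, hf.inv γ hγ]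
  hA := hf.hA.smul c
  hB := by rw [ModularForm.SL_smul_slash]; exact hf.hB.smul c

theorem cast (hf : IsW p k f A B) (h : k = k') : IsW p k' f A B := h ▸ hf

theorem levelOne (F : ModularForm 𝒮ℒ k) (hA : HasQ 1 F A) :
    IsW p k F A (A.expand p (NeZero.ne p)) where
  inv γ _ := levelOne_slash F γ
  hA := hA
  hB := by rw [levelOne_slash]; exact HasQ.width p hA

theorem norm_lemma {k : ℕ} (hf : IsW p (k : ℤ) f A B) (V : ValuationSubring ℂ) (hk : k < 12)
    (Φ : PowerSeries (IsLocalRing.ResidueField V)) (hΦ0 : Φ.coeff 0 = 0)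
    (hAr : Red V A Φ) (hBr : Red V B (Φ.expand p (NeZero.ne p))) : Φ = 0 :=
  Fermat.Agent.Eis16.norm_lemma V k hk (mkForm k f hf.inv A B hf.hA hf.hB) hf.hA hf.hB Φ hΦ0
    hAr hBr

end IsW

theorem GData.isW {m : ℤ} (D : GData p m) : IsW p 2 D.G
    (PowerSeries.C (((p : ℂ) - 1) / 24) + (m : ℂ) • toC D.h)
    (-(p : ℂ)⁻¹ • (PowerSeries.C (((p : ℂ) - 1) / 24) + (m : ℂ) • toC D.h1)) where
  inv γ hγ := slash_mem D.G γ hγ
  hA := D.hQ
  hB := D.hQS

/-- The normalised form, congruent to `1` modulo `μ` at both cusps. -/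
theorem GData.exists_unit_form {m : ℤ} (D : GData p m) (hp5 : 5 ≤ p) (V : ValuationSubring ℂ)
    (μ : ℤ) (u v : V) (hu : -(p : ℂ)⁻¹ = 1 + μ * (u : ℂ))
    (hv : (m : ℂ) * 24 / ((p : ℂ) - 1) = μ * (v : ℂ)) :
    ∃ (g : ℍ → ℂ) (X Y : PowerSeries V),
      IsW p 2 g (1 + (μ : ℂ) • X.map V.subtype) (1 + (μ : ℂ) • Y.map V.subtype) := by
  have hp0 := p_ne p
  have hp1 : (p : ℂ) - 1 ≠ 0 := by
    intro h
    have : (p : ℂ) = ((1 : ℕ) : ℂ) := by
      rw [Nat.cast_one]
      linear_combination h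
    have := Nat.cast_injective this
    omega
  have hW := D.isW.smul (24 / ((p : ℂ) - 1))
  refine ⟨(24 / ((p : ℂ) - 1)) • (D.G : ℍ → ℂ), v • D.h.map (Int.castRingHom V),
    PowerSeries.C u + (v + (μ : V) * (u * v)) • D.h1.map (Int.castRingHom V), ?_⟩
  have e1 : (24 / ((p : ℂ) - 1)) • (PowerSeries.C (((p : ℂ) - 1) / 24) + (m : ℂ) • toC D.h) =
      1 + (μ : ℂ) • (v • D.h.map (Int.castRingHom V)).map V.subtype := by
    ext n
    rw [PowerSeries.coeff_smul, map_add, PowerSeries.coeff_smul, coeff_toC,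
      PowerSeries.coeff_C, map_add, PowerSeries.coeff_one, PowerSeries.coeff_smul,
      PowerSeries.coeff_map, PowerSeries.coeff_smul, PowerSeries.coeff_map]
    simp only [smul_eq_mul, map_mul, eq_intCast, map_intCast]
    have h3 : V.subtype v = (v : ℂ) := rfl
    rw [h3]
    by_cases hn : n = 0
    · subst hn
      simp only [if_true]
      field_simp
      field_simp at hv
      linear_combination ((D.h.coeff 0 : ℤ) : ℂ) * hv
    · simp only [if_neg hn]
      field_simp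
      field_simp at hv
      linear_combination ((D.h.coeff n : ℤ) : ℂ) * hv
  have e2 : (24 / ((p : ℂ) - 1)) • (-(p : ℂ)⁻¹ •
      (PowerSeries.C (((p : ℂ) - 1) / 24) + (m : ℂ) • toC D.h1)) =
      1 + (μ : ℂ) • (PowerSeries.C u +
        (v + (μ : V) * (u * v)) • D.h1.map (Int.castRingHom V)).map V.subtype := by
    have hv2 : (24 / ((p : ℂ) - 1)) * m = μ * (v : ℂ) := by
      rw [← hv]
      ring
    ext n
    rw [PowerSeries.coeff_smul, PowerSeries.coeff_smul, map_add, PowerSeries.coeff_smul,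
      coeff_toC, PowerSeries.coeff_C, map_add, PowerSeries.coeff_one, PowerSeries.coeff_smul,
      PowerSeries.coeff_map, map_add, PowerSeries.coeff_smul, PowerSeries.coeff_map,
      PowerSeries.coeff_C]
    simp only [smul_eq_mul, map_mul, map_add, eq_intCast, map_intCast]
    have h3 : V.subtype v = (v : ℂ) := rfl
    have h4 : V.subtype u = (u : ℂ) := rfl
    rw [h3, hu]
    by_cases hn : n = 0
    · subst hn
      simp only [if_true]
      rw [h4]
      have h5 : (24 / ((p : ℂ) - 1)) * (((p : ℂ) - 1) / 24) = 1 := by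
        field_simp
      linear_combination (1 + (μ : ℂ) * u) * h5 +
        (1 + (μ : ℂ) * u) * ((D.h1.coeff 0 : ℤ) : ℂ) * hv2
    · simp only [if_neg hn, map_zero]
      rw [h4]
      linear_combination (1 + (μ : ℂ) * u) * ((D.h1.coeff n : ℤ) : ℂ) * hv2
  rw [e1, e2] at hW
  exact hW

theorem red_unit {V : ValuationSubring ℂ} {μ : ℤ} (hμ : ((μ : ℤ) : V) ∈ IsLocalRing.maximalIdeal V)
    (X : PowerSeries V) : Red V (1 + (μ : ℂ) • X.map V.subtype) 1 := by
  have h1 : Red V (X.map V.subtype) (X.map (IsLocalRing.residue V)) := ⟨X, rfl, rfl⟩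
  have h2 := h1.smul_zero _ hμ
  have h3 : Red V (1 : PowerSeries ℂ) 1 := ⟨1, by simp, by simp⟩
  have h4 := h3.add h2
  rw [add_zero] at h4
  simpa using h4

theorem intCast_mem_max {l : ℕ} {V : ValuationSubring ℂ}
    (hV : ((l : ℕ) : V) ∈ IsLocalRing.maximalIdeal V) {μ : ℤ} (h : (l : ℤ) ∣ μ) :
    ((μ : ℤ) : V) ∈ IsLocalRing.maximalIdeal V := by
  obtain ⟨c, rfl⟩ := h
  push_cast
  exact Ideal.mul_mem_right _ _ hV

theorem IsW.contra {k : ℕ} {f : ℍ → ℂ} {A B : PowerSeries ℂ} (hf : IsW p (k : ℤ) f A B)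
    (hk : k < 12) {l : ℕ} (hl : l.Prime) {V : ValuationSubring ℂ}
    (hV : ((l : ℕ) : V) ∈ IsLocalRing.maximalIdeal V) (R : PowerSeries ℤ)
    (hR0 : (l : ℤ) ∣ R.coeff 0)
    (hAr : Red V A (R.map (Int.castRingHom (IsLocalRing.ResidueField V))))
    (hBr : Red V B ((R.map (Int.castRingHom (IsLocalRing.ResidueField V))).expand p
      (NeZero.ne p))) (n : ℕ) : (l : ℤ) ∣ R.coeff n := by
  have h0 : (R.map (Int.castRingHom (IsLocalRing.ResidueField V))).coeff 0 = 0 := by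
    rw [PowerSeries.coeff_map]
    exact (int_eq_zero_iff hl hV _).2 hR0
  have hΦ := IsW.norm_lemma (k := k) hf V hk _ h0 hAr hBr
  have := congrArg (PowerSeries.coeff n) hΦ
  rw [PowerSeries.coeff_map, map_zero] at this
  exact (int_eq_zero_iff hl hV _).1 this

omit [Fact p.Prime] in
theorem not_dvd_self_of {l : ℕ} (hl : l.Prime) {t : ℤ} (ht : (p : ℤ) + 1 = l * t) :
    ¬ (l : ℤ) ∣ (p : ℤ) := by
  intro h
  have h1 : (l : ℤ) ∣ 1 := by
    have := dvd_sub (Dvd.intro t ht.symm) h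
    simpa using this
  have := Int.le_of_dvd one_pos h1
  have := hl.two_le
  omega

omit [Fact p.Prime] in
theorem sub_one_ne (hp5 : 5 ≤ p) : (p : ℂ) - 1 ≠ 0 := by
  intro h
  have : (p : ℂ) = ((1 : ℕ) : ℂ) := by
    rw [Nat.cast_one]
    linear_combination h
  have := Nat.cast_injective this
  omega

theorem isW_E4 : IsW p 4 (E₄ : ModularForm 𝒮ℒ 4) (toC E4Z)
    ((toC E4Z).expand p (NeZero.ne p)) := IsW.levelOne E₄ hasQ_E4

theorem isW_E6 : IsW p 6 (E₆ : ModularForm 𝒮ℒ 6) (toC E6Z)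
    ((toC E6Z).expand p (NeZero.ne p)) := IsW.levelOne E₆ hasQ_E6

/-- Large primes dividing `p + 1` do not divide `m`. -/
theorem GData.not_dvd_of_five_le {m : ℤ} (D : GData p m) (hp5 : 5 ≤ p) {l : ℕ} (hl : l.Prime)
    (hl5 : 5 ≤ l) (hlp : (l : ℤ) ∣ (p : ℤ) + 1) : ¬ (l : ℤ) ∣ m := by
  rintro ⟨m', rfl⟩
  obtain ⟨V, hV⟩ := exists_valuationSubring hl
  obtain ⟨t, ht⟩ := hlp
  have hlp0 : ¬ (l : ℤ) ∣ (p : ℤ) := not_dvd_self_of hl ht
  have hlp1 : ¬ (l : ℤ) ∣ (p : ℤ) - 1 := by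
    intro h
    have h1 : (l : ℤ) ∣ 2 := by
      have := dvd_sub (Dvd.intro t ht.symm) h
      have e : (p : ℤ) + 1 - (p - 1) = 2 := by ring
      rwa [e] at this
    have := Int.le_of_dvd two_pos h1
    omega
  have hi1 := inv_mem_of_not_dvd hl hV _ hlp0
  have hi2 := inv_mem_of_not_dvd hl hV _ hlp1
  have hp0 := p_ne p
  have htC : (p : ℂ) + 1 = l * t := by exact_mod_cast ht
  have hp1 : (p : ℂ) - 1 ≠ 0 := sub_one_ne hp5
  have hu : -(t : ℂ) * (p : ℂ)⁻¹ ∈ V := V.mul_mem _ _ (V.neg_mem _ (intCast_mem V t)) (by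
    simpa using hi1)
  have hv : 24 * (m' : ℂ) * ((p : ℂ) - 1)⁻¹ ∈ V :=
    V.mul_mem _ _ (V.mul_mem _ _ (by exact_mod_cast natCast_mem V 24) (intCast_mem V m')) (by
      simpa using hi2)
  obtain ⟨g, X, Y, hg⟩ := D.exists_unit_form hp5 V (l : ℤ) ⟨_, hu⟩ ⟨_, hv⟩
    (by
      push_cast
      field_simp
      linear_combination -htC)
    (by
      push_cast
      field_simp)
  have hμ : (((l : ℤ) : ℤ) : V) ∈ IsLocalRing.maximalIdeal V := intCast_mem_max hV dvd_rfl
  have hP := (((hg.mul isW_E4).cast (show (2 + 4 : ℤ) = 6 by norm_num)).add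
    (isW_E6.smul (-1)))
  have hneg : (-1 : ℂ) • toC E6Z = toC (-E6Z) := by
    rw [map_neg, neg_one_smul]
  have hneg' : (-1 : ℂ) • (toC E6Z).expand p (NeZero.ne p) =
      (toC (-E6Z)).expand p (NeZero.ne p) := by
    rw [map_neg, map_neg, neg_one_smul]
  rw [hneg, hneg'] at hP
  have key := IsW.contra (k := 6) hP (by norm_num) hl hV (E4Z - E6Z)
    (by rw [map_sub, E4Z_coeff_zero, E6Z_coeff_zero, sub_self]; exact dvd_zero _)
    (by
      have h1 := ((red_unit hμ X).mul (Red.toC E4Z)).add (Red.toC (V := V) (-E6Z))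
      convert h1 using 1
      simp only [map_sub, map_neg, one_mul]
      rw [sub_eq_add_neg])
    (by
      have h1 := ((red_unit hμ Y).mul ((Red.toC E4Z).expand p (NeZero.ne p))).add
        ((Red.toC (V := V) (-E6Z)).expand p (NeZero.ne p))
      convert h1 using 1
      simp only [map_sub, map_neg, one_mul]
      rw [sub_eq_add_neg])
  have h1 := key 1
  have h2 := key 2
  rw [map_sub, coeff_E4Z, coeff_E6Z] at h1 h2
  rw [if_neg one_ne_zero, if_neg one_ne_zero] at h1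
  rw [if_neg two_ne_zero, if_neg two_ne_zero, sigma_prime 3 Nat.prime_two,
    sigma_prime 5 Nat.prime_two] at h2
  simp only [ArithmeticFunction.sigma_one, Nat.cast_one, mul_one] at h1
  have h3 : (l : ℤ) ∣ 24 := by
    have : (24 : ℤ) = 4 * 18792 - 101 * 744 := by norm_num
    rw [this]
    apply dvd_sub
    · apply Dvd.dvd.mul_left
      norm_num at h2 ⊢
      exact h2
    · apply Dvd.dvd.mul_left
      norm_num at h1 ⊢
      exact h1
  have h6 : l ∣ 24 := by exact_mod_cast h3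
  have h7 : l ∣ 2 ^ 3 * 3 := by simpa using h6
  rcases (hl.dvd_mul).1 h7 with h | h
  · have := (Nat.prime_dvd_prime_iff_eq hl Nat.prime_two).1 (hl.dvd_of_dvd_pow h)
    omega
  · have := (Nat.prime_dvd_prime_iff_eq hl Nat.prime_three).1 h
    omega

theorem toC_ofNat (n : ℕ) [n.AtLeastTwo] :
    toC (OfNat.ofNat n : PowerSeries ℤ) = OfNat.ofNat n := map_ofNat _ _

theorem expand_ofNat (q : ℕ) (hq : q ≠ 0) (n : ℕ) [n.AtLeastTwo] :
    (OfNat.ofNat n : PowerSeries ℂ).expand q hq = OfNat.ofNat n := map_ofNat _ _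

theorem toC_E4Z : toC E4Z = 1 + 240 * toC (sigSer 3) := by
  unfold E4Z
  rw [map_add, map_mul, map_one, toC_ofNat]

theorem toC_E6Z : toC E6Z = 1 - 504 * toC (sigSer 5) := by
  unfold E6Z
  rw [map_sub, map_mul, map_one, toC_ofNat]

theorem expand_toC_E4Z : (toC E4Z).expand p (NeZero.ne p) =
    1 + 240 * (toC (sigSer 3)).expand p (NeZero.ne p) := by
  rw [toC_E4Z, map_add, map_mul, map_one, expand_ofNat]

theorem expand_toC_E6Z : (toC E6Z).expand p (NeZero.ne p) =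
    1 - 504 * (toC (sigSer 5)).expand p (NeZero.ne p) := by
  rw [toC_E6Z, map_sub, map_mul, map_one, expand_ofNat]

theorem csmul_eq (n : ℤ) (W : PowerSeries ℂ) : ((n : ℤ) : ℂ) • W = (n : PowerSeries ℂ) * W := by
  rw [Int.cast_smul_eq_zsmul, zsmul_eq_mul]

theorem vsmul_eq (V : ValuationSubring ℂ) (n : ℤ) (W : PowerSeries ℂ) :
    (((n : ℤ) : V) : ℂ) • W = (n : PowerSeries ℂ) * W := by
  rw [← csmul_eq]
  congr 1

/-- The case of the prime `3`. -/
theorem GData.not_three_dvd {m : ℤ} (D : GData p m) (hp5 : 5 ≤ p)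
    (h9 : (9 : ℤ) ∣ (p : ℤ) + 1) : ¬ (3 : ℤ) ∣ m := by
  rintro ⟨m', rfl⟩
  have hl : Nat.Prime 3 := Nat.prime_three
  obtain ⟨V, hV⟩ := exists_valuationSubring hl
  obtain ⟨t, ht⟩ := h9
  have hlp0 : ¬ ((3 : ℕ) : ℤ) ∣ (p : ℤ) := by omega
  have hlp1 : ¬ ((3 : ℕ) : ℤ) ∣ (p : ℤ) - 1 := by omega
  have hi1 := inv_mem_of_not_dvd hl hV _ hlp0
  have hi2 := inv_mem_of_not_dvd hl hV _ hlp1
  have hp0 := p_ne p
  have htC : (p : ℂ) + 1 = 9 * t := by exact_mod_cast ht
  have hp1 : (p : ℂ) - 1 ≠ 0 := sub_one_ne hp5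
  have hu : -(t : ℂ) * (p : ℂ)⁻¹ ∈ V := V.mul_mem _ _ (V.neg_mem _ (intCast_mem V t)) (by
    simpa using hi1)
  have hv : 8 * (m' : ℂ) * ((p : ℂ) - 1)⁻¹ ∈ V :=
    V.mul_mem _ _ (V.mul_mem _ _ (by exact_mod_cast natCast_mem V 8) (intCast_mem V m')) (by
      simpa using hi2)
  obtain ⟨g, X, Y, hg⟩ := D.exists_unit_form hp5 V 9 ⟨_, hu⟩ ⟨_, hv⟩
    (by
      push_cast
      field_simp
      linear_combination -htC)
    (by
      push_cast
      field_simp
      ring)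
  have h3m : ((3 : ℤ) : V) ∈ IsLocalRing.maximalIdeal V := intCast_mem_max hV dvd_rfl
  have hP := (((hg.mul isW_E4).cast (show (2 + 4 : ℤ) = 6 by norm_num)).add
    (isW_E6.smul (-1))).smul (1 / 3)
  -- rewrite the expansions
  have e : ∀ Z : PowerSeries ℂ, ∀ s3 s5 : PowerSeries ℂ,
      (1 / 3 : ℂ) • ((1 + (((9 : ℤ) : ℤ) : ℂ) • Z) * (1 + 240 * s3) + (-1 : ℂ) • (1 - 504 * s5)) =
      (80 * s3 + 168 * s5) + (((3 : ℤ) : V) : ℂ) • (Z * (1 + 240 * s3)) := by
    intro Z s3 s5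
    have h9' : ((((9 : ℤ) : ℤ) : ℂ) • Z) = 9 * Z := by
      rw [csmul_eq]
      simp
    have h3' : ∀ W : PowerSeries ℂ, ((((3 : ℤ) : V) : ℂ) • W) = 3 * W := by
      intro W
      rw [vsmul_eq]
      simp
    have h13 : ∀ W : PowerSeries ℂ, (1 / 3 : ℂ) • (3 * W) = W := by
      intro W
      have : (3 : PowerSeries ℂ) * W = ((3 : ℤ) : ℂ) • W := by
        rw [csmul_eq]
        simp
      rw [this, smul_smul]
      norm_num
    rw [h9', h3', neg_one_smul]
    have : (1 + 9 * Z) * (1 + 240 * s3) + -(1 - 504 * s5) =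
      3 * ((80 * s3 + 168 * s5) + 3 * (Z * (1 + 240 * s3))) := by ring
    rw [this, h13]
  let R : PowerSeries ℤ := 80 * sigSer 3 + 168 * sigSer 5
  have hRe : toC R = 80 * toC (sigSer 3) + 168 * toC (sigSer 5) := by
    simp only [R]
    rw [map_add, map_mul, map_mul, toC_ofNat, toC_ofNat]
  have hA : (1 / 3 : ℂ) • ((1 + (((9 : ℤ) : ℤ) : ℂ) • X.map V.subtype) * toC E4Z +
      (-1 : ℂ) • toC E6Z) = toC R + (((3 : ℤ) : V) : ℂ) • (X.map V.subtype * toC E4Z) := by
    rw [toC_E4Z, toC_E6Z, hRe]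
    exact e _ _ _
  have hB : (1 / 3 : ℂ) • ((1 + (((9 : ℤ) : ℤ) : ℂ) • Y.map V.subtype) *
      (toC E4Z).expand p (NeZero.ne p) + (-1 : ℂ) • (toC E6Z).expand p (NeZero.ne p)) =
      (toC R).expand p (NeZero.ne p) +
        (((3 : ℤ) : V) : ℂ) • (Y.map V.subtype * (toC E4Z).expand p (NeZero.ne p)) := by
    rw [expand_toC_E4Z, expand_toC_E6Z, hRe, map_add, map_mul, map_mul, expand_ofNat,
      expand_ofNat]
    exact e _ _ _
  rw [hA, hB] at hP
  have hXr : Red V (X.map V.subtype) (X.map (IsLocalRing.residue V)) := ⟨X, rfl, rfl⟩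
  have hYr : Red V (Y.map V.subtype) (Y.map (IsLocalRing.residue V)) := ⟨Y, rfl, rfl⟩
  have key := IsW.contra (k := 6) hP (by norm_num) hl hV R
    (by simp [R, sigSer])
    (by
      have h1 := (Red.toC (V := V) R).add (Red.smul_zero _ h3m (hXr.mul (Red.toC E4Z)))
      rwa [add_zero] at h1)
    (by
      have h1 := ((Red.toC (V := V) R).expand p (NeZero.ne p)).add
        (Red.smul_zero _ h3m (hYr.mul ((Red.toC E4Z).expand p (NeZero.ne p))))
      rwa [add_zero] at h1)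
  have h1 := key 1
  have h2 : R.coeff 1 = 248 := by
    have h80 : (80 : PowerSeries ℤ) = PowerSeries.C (80 : ℤ) := by simp
    have h168 : (168 : PowerSeries ℤ) = PowerSeries.C (168 : ℤ) := by simp
    simp only [R]
    rw [h80, h168, map_add, PowerSeries.coeff_C_mul, PowerSeries.coeff_C_mul, sigSer, sigSer,
      PowerSeries.coeff_mk, PowerSeries.coeff_mk]
    simp
  rw [h2] at h1
  norm_num at h1

end

end Fermat.Agent.Eis16
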