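import Mathlib
import Fermat.Agent.Eis16.Upper3

set_option autoImplicit false

/-!
# Upper bound for the Eisenstein index: the prime `2`, and conclusion
-/

open Matrix.SpecialLinearGroup CongruenceSubgroup ModularGroup
open scoped MatrixGroups ModularForm Manifold
open UpperHalfPlane hiding I
open Complex (I)
open EisensteinSeries ModularForm

namespace Fermat.Agent.Eis16

noncomputable section

local notation "ΓGL" p => (Subgroup.map (Matrix.SpecialLinearGroup.mapGL ℝ) (Gamma0 p))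

variable {p : ℕ} [Fact p.Prime]

theorem four_dvd (n : ℕ) : (4 : ℤ) ∣ 45 * (ArithmeticFunction.sigma 3 n : ℤ) +
    63 * (ArithmeticFunction.sigma 5 n : ℤ) := by
  rw [ArithmeticFunction.sigma_apply, ArithmeticFunction.sigma_apply]
  push_cast
  rw [Finset.mul_sum, Finset.mul_sum, ← Finset.sum_add_distrib]
  apply Finset.dvd_sum
  intro d _
  have h : ∀ x : ZMod 4, 45 * x ^ 3 + 63 * x ^ 5 = 0 := by decide
  have := h (d : ZMod 4)
  have h2 : ((45 * (d : ℤ) ^ 3 + 63 * (d : ℤ) ^ 5 : ℤ) : ZMod 4) = 0 := by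
    push_cast
    exact this
  exact (ZMod.intCast_zmod_eq_zero_iff_dvd _ 4).1 h2

/-- Auxiliary series. -/
def auxR : PowerSeries ℤ := PowerSeries.mk fun n =>
  (45 * (ArithmeticFunction.sigma 3 n : ℤ) + 63 * (ArithmeticFunction.sigma 5 n : ℤ)) / 4

theorem auxR_spec : 4 * auxR = 45 * sigSer 3 + 63 * sigSer 5 := by
  have h12 : (4 : PowerSeries ℤ) = PowerSeries.C (4 : ℤ) := by simp
  have h5 : (45 : PowerSeries ℤ) = PowerSeries.C (45 : ℤ) := by simp
  have h7 : (63 : PowerSeries ℤ) = PowerSeries.C (63 : ℤ) := by simp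
  ext n
  rw [h12, h5, h7, map_add, PowerSeries.coeff_C_mul, PowerSeries.coeff_C_mul,
    PowerSeries.coeff_C_mul]
  unfold auxR sigSer
  rw [PowerSeries.coeff_mk, PowerSeries.coeff_mk, PowerSeries.coeff_mk]
  exact Int.mul_ediv_cancel' (four_dvd n)

theorem two_identity (V : ValuationSubring ℂ) (Z s3 s5 r : PowerSeries ℂ)
    (hr : 4 * r = 45 * s3 + 63 * s5) :
    (1 / 256 : ℂ) • ((((-3 : ℤ) : ℂ) • (((1 + ((8 : ℤ) : ℂ) • Z) * (1 + ((8 : ℤ) : ℂ) • Z)) *
      ((1 + ((8 : ℤ) : ℂ) • Z) * (1 + ((8 : ℤ) : ℂ) • Z))) +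
      ((10 : ℤ) : ℂ) • (((1 + ((8 : ℤ) : ℂ) • Z) * (1 + ((8 : ℤ) : ℂ) • Z)) * (1 + 240 * s3))) +
      ((1 + 240 * s3) * (1 + 240 * s3) +
      ((-8 : ℤ) : ℂ) • ((1 - 504 * s5) * (1 + ((8 : ℤ) : ℂ) • Z)))) =
    (225 * s3 ^ 2 + r) + (((2 : ℤ) : V) : ℂ) •
      (-Z ^ 2 - 12 * Z ^ 3 - 24 * Z ^ 4 + 75 * (Z * s3) + 300 * (Z ^ 2 * s3) + 63 * (Z * s5)) := by
  have h256 : ∀ W : PowerSeries ℂ, (1 / 256 : ℂ) • (256 * W) = W := by
    intro W
    have : (256 : PowerSeries ℂ) * W = ((256 : ℤ) : ℂ) • W := by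
      rw [csmul_eq]
      simp
    rw [this, smul_smul]
    norm_num
  rw [csmul_eq, csmul_eq, csmul_eq, csmul_eq, vsmul_eq]
  rw [← h256 (225 * s3 ^ 2 + r + _)]
  congr 1
  simp only [Int.cast_neg, Int.cast_ofNat]
  linear_combination (-64 : PowerSeries ℂ) * hr

/-- The case of the prime `2`. -/
theorem GData.not_two_dvd {m : ℤ} (D : GData p m) (hp5 : 5 ≤ p)
    (h8 : (8 : ℤ) ∣ (p : ℤ) + 1) : ¬ (2 : ℤ) ∣ m := by
  rintro ⟨m', rfl⟩
  have hl : Nat.Prime 2 := Nat.prime_two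
  obtain ⟨V, hV⟩ := exists_valuationSubring hl
  obtain ⟨t, ht⟩ := h8
  have hlp0 : ¬ ((2 : ℕ) : ℤ) ∣ (p : ℤ) := by omega
  obtain ⟨w, hw⟩ : ∃ w : ℤ, (p : ℤ) - 1 = 2 * w := ⟨4 * t - 1, by omega⟩
  have hlp1 : ¬ ((2 : ℕ) : ℤ) ∣ w := by omega
  have hi1 := inv_mem_of_not_dvd hl hV _ hlp0
  have hi2 := inv_mem_of_not_dvd hl hV _ hlp1
  have hp0 := p_ne p
  have htC : (p : ℂ) + 1 = 8 * t := by exact_mod_cast ht
  have hwC : (p : ℂ) - 1 = 2 * w := by exact_mod_cast hw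
  have hp1 : (p : ℂ) - 1 ≠ 0 := sub_one_ne hp5
  have hw0 : (w : ℂ) ≠ 0 := by
    intro h
    rw [h, mul_zero] at hwC
    exact hp1 hwC
  have hu : -(t : ℂ) * (p : ℂ)⁻¹ ∈ V := V.mul_mem _ _ (V.neg_mem _ (intCast_mem V t)) (by
    simpa using hi1)
  have hv : 3 * (m' : ℂ) * (w : ℂ)⁻¹ ∈ V :=
    V.mul_mem _ _ (V.mul_mem _ _ (by exact_mod_cast natCast_mem V 3) (intCast_mem V m')) hi2
  obtain ⟨g, X, Y, hg⟩ := D.exists_unit_form hp5 V 8 ⟨_, hu⟩ ⟨_, hv⟩
    (by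
      push_cast
      field_simp
      linear_combination -htC)
    (by
      rw [hwC]
      push_cast
      field_simp
      ring)
  have h2m : ((2 : ℤ) : V) ∈ IsLocalRing.maximalIdeal V := intCast_mem_max hV dvd_rfl
  have hg2 := (hg.mul hg)
  have hg4 := (hg2.mul hg2).cast (show (2 + 2 + (2 + 2) : ℤ) = 8 by norm_num)
  have hgE := (hg2.mul isW_E4).cast (show (2 + 2 + 4 : ℤ) = 8 by norm_num)
  have hEE := (isW_E4.mul isW_E4 (p := p)).cast (show (4 + 4 : ℤ) = 8 by norm_num)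
  have hEg := (isW_E6.mul hg).cast (show (6 + 2 : ℤ) = 8 by norm_num)
  have hP := (((hg4.smul ((-3 : ℤ) : ℂ)).add (hgE.smul ((10 : ℤ) : ℂ))).add
    (hEE.add (hEg.smul ((-8 : ℤ) : ℂ)))).smul (1 / 256)
  let R : PowerSeries ℤ := 225 * sigSer 3 ^ 2 + auxR
  have hRe : toC R = 225 * toC (sigSer 3) ^ 2 + toC auxR := by
    simp only [R]
    rw [map_add, map_mul, map_pow, toC_ofNat]
  have hr1 : 4 * toC auxR = 45 * toC (sigSer 3) + 63 * toC (sigSer 5) := by
    have := congrArg toC auxR_spec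
    rwa [map_add, map_mul, map_mul, map_mul, toC_ofNat, toC_ofNat, toC_ofNat] at this
  have hr2 : 4 * (toC auxR).expand p (NeZero.ne p) =
      45 * (toC (sigSer 3)).expand p (NeZero.ne p) +
        63 * (toC (sigSer 5)).expand p (NeZero.ne p) := by
    have := congrArg (PowerSeries.expand p (NeZero.ne p)) hr1
    rwa [map_add, map_mul, map_mul, map_mul, expand_ofNat, expand_ofNat, expand_ofNat] at this
  rw [expand_toC_E4Z, expand_toC_E6Z, toC_E4Z, toC_E6Z,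
    two_identity V (X.map V.subtype) _ _ _ hr1, two_identity V (Y.map V.subtype) _ _ _ hr2,
    ← hRe] at hP
  have hmemX : X.map V.subtype ∈ (PowerSeries.map V.subtype).range := ⟨X, rfl⟩
  have hmemY : Y.map V.subtype ∈ (PowerSeries.map V.subtype).range := ⟨Y, rfl⟩
  have hmemZ : ∀ Z : PowerSeries ℤ, toC Z ∈ (PowerSeries.map V.subtype).range := by
    intro Z
    obtain ⟨B, hB, -⟩ := Red.toC (V := V) Z
    exact ⟨B, hB⟩
  have hmemZe : ∀ Z : PowerSeries ℤ, (toC Z).expand p (NeZero.ne p) ∈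
      (PowerSeries.map V.subtype).range := by
    intro Z
    obtain ⟨B, hB, -⟩ := (Red.toC (V := V) Z).expand p (NeZero.ne p)
    exact ⟨B, hB⟩
  have hpoly : ∀ Z s3 s5 : PowerSeries ℂ, Z ∈ (PowerSeries.map V.subtype).range →
      s3 ∈ (PowerSeries.map V.subtype).range → s5 ∈ (PowerSeries.map V.subtype).range →
      Red V ((((2 : ℤ) : V) : ℂ) • (-Z ^ 2 - 12 * Z ^ 3 - 24 * Z ^ 4 + 75 * (Z * s3) +
        300 * (Z ^ 2 * s3) + 63 * (Z * s5))) 0 := by
    intro Z s3 s5 hZ h3 h5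
    have hmem : -Z ^ 2 - 12 * Z ^ 3 - 24 * Z ^ 4 + 75 * (Z * s3) +
        300 * (Z ^ 2 * s3) + 63 * (Z * s5) ∈ (PowerSeries.map V.subtype).range := by
      have hn : ∀ n : ℕ, [n.AtLeastTwo] →
          (OfNat.ofNat n : PowerSeries ℂ) ∈ (PowerSeries.map V.subtype).range :=
        fun n _ => ofNat_mem _ n
      exact add_mem (add_mem (add_mem (sub_mem (sub_mem (neg_mem (pow_mem hZ 2))
        (mul_mem (hn 12) (pow_mem hZ 3))) (mul_mem (hn 24) (pow_mem hZ 4)))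
        (mul_mem (hn 75) (mul_mem hZ h3))) (mul_mem (hn 300) (mul_mem (pow_mem hZ 2) h3)))
        (mul_mem (hn 63) (mul_mem hZ h5))
    obtain ⟨B, hB⟩ := hmem
    rw [← hB]
    exact Red.smul_zero (φ := B.map (IsLocalRing.residue V)) _ h2m ⟨B, rfl, rfl⟩
  have key := IsW.contra (k := 8) hP (by norm_num) hl hV R
    (by simp [R, sigSer, auxR])
    (by
      have h1 := (Red.toC (V := V) R).add (hpoly _ _ _ hmemX (hmemZ (sigSer 3))
        (hmemZ (sigSer 5)))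
      rwa [add_zero] at h1)
    (by
      have h1 := ((Red.toC (V := V) R).expand p (NeZero.ne p)).add
        (hpoly _ _ _ hmemY (hmemZe (sigSer 3)) (hmemZe (sigSer 5)))
      rw [add_zero] at h1
      convert h1 using 2
      rw [hRe, map_add, map_mul, map_pow, expand_ofNat])
  have h1 := key 1
  have h2 : R.coeff 1 = 27 := by
    have h225 : (225 : PowerSeries ℤ) = PowerSeries.C (225 : ℤ) := by simp
    simp only [R]
    rw [h225, map_add, PowerSeries.coeff_C_mul, pow_two, PowerSeries.coeff_mul, auxR,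
      PowerSeries.coeff_mk, Finset.Nat.antidiagonal_succ]
    simp [sigSer]
  rw [h2] at h1
  norm_num at h1

end

end Fermat.Agent.Eis16
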