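import Mathlib
import Fermat.Agent.Eis16.Upper4

set_option autoImplicit false

/-!
# Upper bound for the Eisenstein index: conclusion
-/

open Matrix.SpecialLinearGroup CongruenceSubgroup ModularGroup ModularCurve

namespace Fermat.Agent.Eis16

noncomputable section

local notation "ΓGL" p => (Subgroup.map (Matrix.SpecialLinearGroup.mapGL ℝ) (Gamma0 p))

theorem arith_bound {p M : ℕ} (hp : p.Prime) (hp5 : 5 ≤ p) (hM : M ≠ 0)
    (h1 : 24 * M ∣ p ^ 11 * (p + 1) * (p - 1)) (hpM : ¬ p ∣ M)
    (hl : ∀ l : ℕ, l.Prime → 5 ≤ l → l ∣ p + 1 → ¬ l ∣ M)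
    (h3 : 9 ∣ p + 1 → ¬ 3 ∣ M) (h2 : 8 ∣ p + 1 → ¬ 2 ∣ M) :
    M * Nat.gcd (p - 1) 12 ∣ p - 1 := by
  obtain ⟨a, ha⟩ : ∃ a, p = a + 1 := ⟨p - 1, by omega⟩
  have ha0 : a ≠ 0 := by omega
  have hpa : p - 1 = a := by omega
  have hpb : p + 1 = a + 2 := by omega
  rw [hpa] at h1 ⊢
  rw [hpb] at h1 h3 h2 hl
  have hg0 : Nat.gcd a 12 ≠ 0 := Nat.gcd_ne_zero_right (by norm_num)
  have hb0 : a + 2 ≠ 0 := by omega
  have hp0 : p ^ 11 ≠ 0 := pow_ne_zero _ hp.ne_zero
  rw [← Nat.factorization_prime_le_iff_dvd (mul_ne_zero hM hg0) ha0]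
  intro l hlp
  rw [Nat.factorization_mul hM hg0, Finsupp.add_apply]
  have hgl : (Nat.gcd a 12).factorization l ≤ a.factorization l :=
    (Nat.factorization_le_iff_dvd hg0 ha0).2 (Nat.gcd_dvd_left a 12) l
  have hzero : ∀ {n : ℕ}, ¬ l ∣ n → n.factorization l = 0 :=
    fun h => Nat.factorization_eq_zero_of_not_dvd h
  by_cases hlp' : l = p
  · subst hlp'
    rw [hzero hpM, zero_add]
    exact hgl
  have hlpp : ¬ l ∣ p ^ 11 := by
    intro h
    exact hlp' ((Nat.prime_dvd_prime_iff_eq hlp hp).1 (hlp.dvd_of_dvd_pow h))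
  have key : (24 : ℕ).factorization l + M.factorization l ≤
      (a + 2).factorization l + a.factorization l := by
    have h := (Nat.factorization_le_iff_dvd (mul_ne_zero (by norm_num) hM)
      (mul_ne_zero (mul_ne_zero hp0 hb0) ha0)).2 h1 l
    rw [Nat.factorization_mul (by norm_num) hM, Nat.factorization_mul (mul_ne_zero hp0 hb0) ha0,
      Nat.factorization_mul hp0 hb0, Finsupp.add_apply, Finsupp.add_apply, Finsupp.add_apply,
      hzero hlpp] at h
    omega
  by_cases hl2 : l = 2
  · subst hl2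
    have h24 : 3 ≤ (24 : ℕ).factorization 2 :=
      (hlp.pow_dvd_iff_le_factorization (by norm_num)).1 (by norm_num)
    have hg2 : (Nat.gcd a 12).factorization 2 ≤ 2 := by
      by_contra h
      have h' : 2 ^ 3 ∣ Nat.gcd a 12 := (hlp.pow_dvd_iff_le_factorization hg0).2 (by omega)
      have := h'.trans (Nat.gcd_dvd_right a 12)
      norm_num at this
    by_cases h4 : 4 ∣ a
    · have hb : (a + 2).factorization 2 ≤ 1 := by
        by_contra h
        have h' : 2 ^ 2 ∣ a + 2 := (hlp.pow_dvd_iff_le_factorization hb0).2 (by omega)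
        omega
      omega
    · have haa : a.factorization 2 ≤ 1 := by
        by_contra h
        have h' : 2 ^ 2 ∣ a := (hlp.pow_dvd_iff_le_factorization ha0).2 (by omega)
        exact h4 (by simpa using h')
      have hM0 : M.factorization 2 = 0 := by
        by_contra h
        have h8 : 2 ^ 3 ∣ a + 2 := (hlp.pow_dvd_iff_le_factorization hb0).2 (by omega)
        have h2M : 2 ^ 1 ∣ M := (hlp.pow_dvd_iff_le_factorization hM).2 (by omega)
        exact h2 (by simpa using h8) (by simpa using h2M)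
      omega
  by_cases hl3 : l = 3
  · subst hl3
    have h24 : 1 ≤ (24 : ℕ).factorization 3 :=
      (hlp.pow_dvd_iff_le_factorization (by norm_num)).1 (by norm_num)
    have hg2 : (Nat.gcd a 12).factorization 3 ≤ 1 := by
      by_contra h
      have h' : 3 ^ 2 ∣ Nat.gcd a 12 := (hlp.pow_dvd_iff_le_factorization hg0).2 (by omega)
      have := h'.trans (Nat.gcd_dvd_right a 12)
      norm_num at this
    by_cases h4 : 3 ∣ a
    · have hb : (a + 2).factorization 3 = 0 := hzero (by omega)
      omega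
    · have haa : a.factorization 3 = 0 := hzero h4
      have hM0 : M.factorization 3 = 0 := by
        by_contra h
        have h8 : 3 ^ 2 ∣ a + 2 := (hlp.pow_dvd_iff_le_factorization hb0).2 (by omega)
        have h2M : 3 ^ 1 ∣ M := (hlp.pow_dvd_iff_le_factorization hM).2 (by omega)
        exact h3 (by simpa using h8) (by simpa using h2M)
      omega
  · have hl5 : 5 ≤ l := by
      have := hlp.two_le
      by_contra h
      have h4 : l = 4 := by omega
      subst h4
      norm_num at hlp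
    have hg : (Nat.gcd a 12).factorization l = 0 := by
      apply hzero
      intro h
      have h12 : l ∣ 2 ^ 2 * 3 := by simpa using h.trans (Nat.gcd_dvd_right a 12)
      rcases (hlp.dvd_mul).1 h12 with h | h
      · exact hl2 ((Nat.prime_dvd_prime_iff_eq hlp Nat.prime_two).1 (hlp.dvd_of_dvd_pow h))
      · exact hl3 ((Nat.prime_dvd_prime_iff_eq hlp Nat.prime_three).1 h)
    by_cases hb : l ∣ a + 2
    · rw [hzero (hl l hlp hl5 hb), zero_add]
      exact hgl
    · rw [hzero hb] at key
      omega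

variable {p : ℕ} [Fact p.Prime]

theorem upper_bound (hp5 : 5 ≤ p) {m : ℤ} {f : CuspForm (ΓGL p) 2} (hf : Cong p 1 m f) :
    m ∣ (eisensteinNumerator p : ℤ) := by
  have hp : p.Prime := Fact.out
  obtain ⟨D⟩ := exists_GData hf
  have h1 := D.dvd_one
  have hcast : ((p : ℤ) - 1) = ((p - 1 : ℕ) : ℤ) := by
    rw [Nat.cast_sub (by omega)]
    simp
  have hm0 : m ≠ 0 := by
    rintro rfl
    rw [mul_zero, zero_dvd_iff] at h1
    have h2 : (p : ℤ) ≠ 0 := by exact_mod_cast hp.ne_zero
    have h3 : (p : ℤ) + 1 ≠ 0 := by positivity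
    have h4 : (p : ℤ) - 1 ≠ 0 := by omega
    exact mul_ne_zero (mul_ne_zero (pow_ne_zero _ h2) h3) h4 h1
  have h2 := arith_bound (p := p) (M := m.natAbs) hp hp5 (Int.natAbs_ne_zero.2 hm0)
    (by
      rw [hcast] at h1
      have := Int.natAbs_dvd_natAbs.2 h1
      rw [Int.natAbs_mul] at this
      have e : ((p : ℤ) ^ 11 * ((p : ℤ) + 1) * ((p - 1 : ℕ) : ℤ)).natAbs =
          p ^ 11 * (p + 1) * (p - 1) := by
        have : ((p : ℤ) ^ 11 * ((p : ℤ) + 1) * ((p - 1 : ℕ) : ℤ)) =
            ((p ^ 11 * (p + 1) * (p - 1) : ℕ) : ℤ) := by push_cast; ring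
        rw [this, Int.natAbs_natCast]
      rwa [e] at this)
    (by
      intro h
      exact D.not_dvd_self hp5 (Int.natCast_dvd.2 h))
    (by
      intro l hl hl5 hlp h
      exact D.not_dvd_of_five_le hp5 hl hl5 (by exact_mod_cast hlp) (Int.natCast_dvd.2 h))
    (by
      intro h9 h
      exact D.not_three_dvd hp5 (by exact_mod_cast h9)
        (by have := Int.natCast_dvd.2 h; exact_mod_cast this))
    (by
      intro h9 h
      exact D.not_two_dvd hp5 (by exact_mod_cast h9)
        (by have := Int.natCast_dvd.2 h; exact_mod_cast this))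
  rw [← Int.natAbs_dvd, Int.natCast_dvd_natCast]
  exact (Nat.dvd_div_iff_mul_dvd (Nat.gcd_dvd_left _ _)).2 (by rwa [mul_comm])

end

end Fermat.Agent.Eis16
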